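/-
M1 (S44), chapter GLUE, helper47: **a non-Eisenstein prime from irreducibility.**

For an integral Weierstrass model `W` with `Δ ≠ 0` satisfying the Eichler–Shimura relation on
torsion (`TraceCong20.RelQbar`, a hypothesis here) and an odd prime `p` with `W[p]` irreducible:
outside any finite set of primes there is a good prime `ℓ ≠ p` with `a_ℓ(W) ≢ ℓ + 1 (mod p)`
(`exists_nonEisenstein_prime`).

Proof.  Otherwise every Frobenius `φ` at a good `ℓ` satisfies `(φ - 1)(φ - ℓ) = 0` on `W[p]`, so it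
has a nonzero fixed vector (if `φ` is the scalar `ℓ`, then `ℓ² = det = ℓ` by `DetCyclo47.det_rho`, so
`ℓ = 1`); by the generator form of Chebotarev every `σ ∈ G_ℚ` is a power of such a `φ` on
`ℚ(W[p])`, so EVERY `σ` has a nonzero fixed vector (`exists_fixed_of_eisenstein`).  A group acting on
a plane in which every element has eigenvalue `1` and some element has determinant `≠ 1` stabilises
a line (`exists_stable_line`: `g₀ = diag(1, c)`; a fixed vector of `g⁻¹ g₀ g g₀⁻¹` forces `g` to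
stabilise one of the two eigenlines of `g₀`; a group is not the union of two proper subgroups).
-/
import Mathlib
import Fermat.Agent.S52.C.DetCyclo47
import Fermat.Agent.Lib.InertiaCyclo69
import Fermat.Agent.Lib.FrobeniusExists

set_option autoImplicit false

open WeierstrassCurve WeierstrassCurve.Affine WeierstrassCurve.Affine.Point

namespace Fermat.Agent.M1.Glue.NonEis47

open Fermat.Agent.ES.Q58.TraceCong20 (RelQbar)
open Fermat.Agent.S52.TopWiring84 (Tors finrank_tors nontrivial_tors rel_tors)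
open Fermat.Agent.S52.C.DetCyclo47

local notation "Qb" => AlgebraicClosure ℚ
local notation "GQ" => (AlgebraicClosure ℚ ≃ₐ[ℚ] AlgebraicClosure ℚ)

/-! ### Linear algebra: every element has eigenvalue one -/

section LinAlg

variable {F : Type*} [Field F] {V : Type*} [AddCommGroup V] [Module F V]

theorem exists_coords (hV : Module.finrank F V = 2) {e₁ e₂ : V}
    (hli : LinearIndependent F ![e₁, e₂]) (z : V) : ∃ s t : F, z = s • e₁ + t • e₂ := by
  have hcard : Fintype.card (Fin 2) = Module.finrank F V := by rw [hV]; rfl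
  set b := basisOfLinearIndependentOfCardEqFinrank hli hcard with hb
  have h := b.sum_repr z
  rw [Fin.sum_univ_two] at h
  have h0 : b 0 = e₁ := by
    rw [hb, coe_basisOfLinearIndependentOfCardEqFinrank]; rfl
  have h1 : b 1 = e₂ := by
    rw [hb, coe_basisOfLinearIndependentOfCardEqFinrank]; rfl
  rw [h0, h1] at h
  exact ⟨_, _, h.symm⟩

theorem coords_eq_zero {e₁ e₂ : V} (hli : LinearIndependent F ![e₁, e₂]) {s t : F}
    (h : s • e₁ + t • e₂ = 0) : s = 0 ∧ t = 0 :=
  LinearIndependent.pair_iff.mp hli s t h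

/-- **A group acting on a plane in which every element has a nonzero fixed vector, and some element
has determinant `≠ 1`, stabilises a line.** -/
theorem exists_stable_line {G : Type*} [Group G] (hV : Module.finrank F V = 2)
    (r : G →* Module.End F V) (hfix : ∀ g : G, ∃ v : V, v ≠ 0 ∧ r g v = v)
    (g₀ : G) (hdet : LinearMap.det (r g₀) ≠ 1) :
    ∃ N : Submodule F V, N ≠ ⊥ ∧ N ≠ ⊤ ∧ ∀ (g : G), ∀ x ∈ N, r g x ∈ N := by
  classical
  have hfin : Module.Finite F V := Module.finite_of_finrank_pos (by rw [hV]; norm_num)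
  have hinj : ∀ g : G, Function.Injective (r g) := by
    intro g x y hxy
    have h1 : r g⁻¹ * r g = 1 := by rw [← map_mul, inv_mul_cancel, map_one]
    have := congrArg (r g⁻¹) hxy
    rwa [← Module.End.mul_apply, ← Module.End.mul_apply, h1] at this
  -- the two eigenvectors of `f₀ = r g₀`
  obtain ⟨e₁, he₁, hfe₁⟩ := hfix g₀
  set f₀ : Module.End F V := r g₀ with hf₀
  set c : F := LinearMap.det f₀ with hc
  -- characteristic polynomial `(X - 1)(X - c)`, Cayley–Hamilton, pointwise
  have hCHx : ∀ x : V, f₀ (f₀ x) - (1 + c) • f₀ x + c • x = 0 := by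
    have hCmonic : f₀.charpoly.Monic := LinearMap.charpoly_monic f₀
    have hCdeg : f₀.charpoly.natDegree = 2 := by rw [LinearMap.charpoly_natDegree, hV]
    have hc0 : f₀.charpoly.coeff 0 = c := by
      have := LinearMap.det_eq_sign_charpoly_coeff f₀
      rw [hV] at this
      simpa using this.symm
    have hsum := hCmonic.as_sum
    rw [hCdeg, Finset.sum_range_succ, Finset.sum_range_one, hc0] at hsum
    have hCH : Polynomial.aeval f₀ f₀.charpoly = 0 := LinearMap.aeval_self_charpoly f₀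
    rw [hsum] at hCH
    simp only [map_add, map_mul, map_pow, Polynomial.aeval_X, Polynomial.aeval_C, pow_zero,
      pow_one, mul_one] at hCH
    have hpt : ∀ x : V, f₀ (f₀ x) + (c • x + f₀.charpoly.coeff 1 • f₀ x) = 0 := by
      intro x
      have hv2 := congrArg (fun g : V →ₗ[F] V => g x) hCH
      simpa only [LinearMap.add_apply, Module.End.mul_apply, LinearMap.zero_apply, pow_two,
        Module.algebraMap_end_apply] using hv2
    have hb2 : (1 + (c + f₀.charpoly.coeff 1)) • e₁ = 0 := by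
      have := hpt e₁
      rw [hfe₁, hfe₁] at this
      rw [add_smul, add_smul, one_smul]
      exact this
    have hb' : f₀.charpoly.coeff 1 = -(1 + c) := by
      rcases smul_eq_zero.mp hb2 with h | h
      · linear_combination h
      · exact absurd h he₁
    intro x
    have := hpt x
    rw [hb'] at this
    rw [← this]
    module
  -- an eigenvector for `c`
  have hne1 : ∃ w : V, f₀ w - w ≠ 0 := by
    by_contra hcon
    push Not at hcon
    apply hdet
    have : f₀ = 1 := LinearMap.ext fun x => by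
      rw [Module.End.one_apply]; exact sub_eq_zero.mp (hcon x)
    rw [hc, this, _root_.map_one]
  obtain ⟨w, hw⟩ := hne1
  set e₂ : V := f₀ w - w with he₂
  have hfe₂ : f₀ e₂ = c • e₂ := by
    have h := hCHx w
    rw [he₂, map_sub]
    have : f₀ (f₀ w) - f₀ w - c • (f₀ w - w) = f₀ (f₀ w) - (1 + c) • f₀ w + c • w := by module
    exact sub_eq_zero.mp (this.trans h)
  have hli : LinearIndependent F ![e₁, e₂] := by
    rw [LinearIndependent.pair_iff]
    intro s t hst
    have h1 := congrArg f₀ hst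
    rw [map_add, map_smul, map_smul, hfe₁, hfe₂, _root_.map_zero] at h1
    -- subtract: `t (c - 1) e₂ = 0`
    have h2 : (t * (c - 1)) • e₂ = 0 := by
      have : (t * (c - 1)) • e₂ = (s • e₁ + t • c • e₂) - (s • e₁ + t • e₂) := by module
      rw [this, h1, hst, sub_zero]
    have ht : t = 0 := by
      rcases smul_eq_zero.mp h2 with h | h
      · rcases mul_eq_zero.mp h with h | h
        · exact h
        · exact absurd (sub_eq_zero.mp h) hdet
      · exact absurd h hw
    rw [ht, zero_smul, add_zero] at hst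
    rcases smul_eq_zero.mp hst with h | h
    · exact ⟨h, ht⟩
    · exact absurd h he₁
  -- every `g` stabilises one of the eigenlines
  have hkey : ∀ g : G, (∃ a : F, r g e₁ = a • e₁) ∨ (∃ d : F, r g e₂ = d • e₂) := by
    intro g
    obtain ⟨v, hv, hkv⟩ := hfix (g⁻¹ * g₀ * g * g₀⁻¹)
    set u := r g₀⁻¹ v with hu
    have hu0 : u ≠ 0 := by
      intro h0
      apply hv
      have : r g₀⁻¹ v = r g₀⁻¹ 0 := by rw [_root_.map_zero]; exact h0
      exact hinj _ this
    -- `f₀ (h u) = h (f₀ u)` for `h = r g`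
    have hcomm2 : f₀ (r g u) = r g (f₀ u) := by
      have h1 : f₀ u = v := by
        rw [hu, hf₀, ← Module.End.mul_apply, ← map_mul, mul_inv_cancel, map_one,
          Module.End.one_apply]
      rw [h1]
      have h2 : r (g⁻¹ * g₀ * g * g₀⁻¹) v = r g⁻¹ (f₀ (r g u)) := by
        rw [map_mul, map_mul, map_mul]
        rfl
      rw [h2] at hkv
      have h3 := congrArg (r g) hkv
      rwa [← Module.End.mul_apply, ← map_mul, mul_inv_cancel, map_one,
        Module.End.one_apply] at h3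
    obtain ⟨a, c', ha⟩ := exists_coords hV hli (r g e₁)
    obtain ⟨b, d, hb⟩ := exists_coords hV hli (r g e₂)
    obtain ⟨x, y, hxy⟩ := exists_coords hV hli u
    have hL : f₀ (r g u) = (x * a + y * b) • e₁ + (c * (x * c' + y * d)) • e₂ := by
      rw [hxy]
      simp only [map_add, map_smul, ha, hb, hfe₁, hfe₂]
      module
    have hR : r g (f₀ u) = (x * a + c * y * b) • e₁ + (x * c' + c * y * d) • e₂ := by
      rw [hxy]
      simp only [map_add, map_smul, ha, hb, hfe₁, hfe₂]
      module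
    have hzero : (y * b * (1 - c)) • e₁ + (x * c' * (c - 1)) • e₂ = 0 := by
      have : (y * b * (1 - c)) • e₁ + (x * c' * (c - 1)) • e₂
          = ((x * a + y * b) • e₁ + (c * (x * c' + y * d)) • e₂)
            - ((x * a + c * y * b) • e₁ + (x * c' + c * y * d) • e₂) := by module
      rw [this, ← hL, ← hR, hcomm2, sub_self]
    obtain ⟨h1, h2⟩ := coords_eq_zero hli hzero
    have hc1 : (1 : F) - c ≠ 0 := fun h => hdet (sub_eq_zero.mp h).symm
    have hc2 : c - 1 ≠ 0 := fun h => hdet (sub_eq_zero.mp h)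
    have hyb : y * b = 0 := (mul_eq_zero.mp h1).resolve_right hc1
    have hxc : x * c' = 0 := (mul_eq_zero.mp h2).resolve_right hc2
    by_cases hx : x = 0
    · have hy : y ≠ 0 := by
        rintro rfl
        apply hu0
        rw [hxy, hx, zero_smul, zero_smul, add_zero]
      have hb0 : b = 0 := (mul_eq_zero.mp hyb).resolve_left hy
      right
      exact ⟨d, by rw [hb, hb0, zero_smul, zero_add]⟩
    · have hc0 : c' = 0 := (mul_eq_zero.mp hxc).resolve_left hx
      left
      exact ⟨a, by rw [ha, hc0, zero_smul, add_zero]⟩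
  -- a group is not the union of two proper subgroups
  have hall : (∀ g : G, ∃ a : F, r g e₁ = a • e₁) ∨ (∀ g : G, ∃ d : F, r g e₂ = d • e₂) := by
    by_contra hcon
    rw [not_or] at hcon
    obtain ⟨h1, h2⟩ := hcon
    push Not at h1 h2
    obtain ⟨g₁, hg₁⟩ := h1
    obtain ⟨g₂, hg₂⟩ := h2
    obtain ⟨d₁, hd₁⟩ := (hkey g₁).resolve_left (by push Not; exact hg₁)
    obtain ⟨a₂, ha₂⟩ := (hkey g₂).resolve_right (by push Not; exact hg₂)
    have hd₁0 : d₁ ≠ 0 := by
      rintro rfl
      rw [zero_smul] at hd₁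
      exact hw (hinj g₁ (by rw [hd₁, _root_.map_zero]))
    have ha₂0 : a₂ ≠ 0 := by
      rintro rfl
      rw [zero_smul] at ha₂
      exact he₁ (hinj g₂ (by rw [ha₂, _root_.map_zero]))
    rcases hkey (g₁ * g₂) with ⟨a, ha⟩ | ⟨d, hd⟩
    · rw [map_mul, Module.End.mul_apply, ha₂, map_smul] at ha
      apply hg₁ (a₂⁻¹ * a)
      rw [mul_smul, ← ha, smul_smul, inv_mul_cancel₀ ha₂0, one_smul]
    · rw [map_mul, Module.End.mul_apply] at hd
      apply hg₂ (d₁⁻¹ * d)
      apply hinj g₁
      rw [hd, map_smul, hd₁, smul_smul, mul_assoc, mul_comm d d₁, ← mul_assoc,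
        inv_mul_cancel₀ hd₁0, one_mul]
  -- conclusion
  have hline : ∀ {e : V}, e ≠ 0 → (∀ g : G, ∃ a : F, r g e = a • e) →
      ∃ N : Submodule F V, N ≠ ⊥ ∧ N ≠ ⊤ ∧ ∀ (g : G), ∀ x ∈ N, r g x ∈ N := by
    intro e he hst
    refine ⟨Submodule.span F {e}, ?_, ?_, ?_⟩
    · intro h
      have : e ∈ Submodule.span F {e} := Submodule.mem_span_singleton_self e
      rw [h] at this
      exact he ((Submodule.mem_bot F).mp this)
    · intro h
      have h1 : Module.finrank F (Submodule.span F {e}) = 1 := finrank_span_singleton he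
      rw [h, finrank_top, hV] at h1
      omega
    · intro g x hx
      obtain ⟨s, rfl⟩ := Submodule.mem_span_singleton.mp hx
      obtain ⟨a, ha⟩ := hst g
      rw [map_smul, ha, smul_smul]
      exact Submodule.smul_mem _ _ (Submodule.mem_span_singleton_self e)
  rcases hall with h | h
  · exact hline he₁ h
  · exact hline hw h

end LinAlg

/-! ### The Chebotarev step -/

section Cheb

variable {W : WeierstrassCurve ℤ} {p : ℕ} [hp : Fact p.Prime]

/-- Every `σ ∈ G_ℚ` acts on `W[p]` and on `μ_p` as a power of a Frobenius element at a good prime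
`ℓ ≠ p` outside a given finite set. -/
theorem exists_frobenius_pow (hΔ : W.Δ ≠ 0) (hp2 : p ≠ 2) (σ : GQ) (T : Finset ℕ) :
    ∃ (ℓ : ℕ) (A : ValuationSubring Qb) (φ : GQ) (j : ℕ), ℓ.Prime ∧ ℓ ∉ T ∧ ℓ ≠ p ∧
      W.IsGoodPrimeFor ℓ ∧ A.LiesOverPrime ℓ ∧ A.IsFrobeniusAt φ ℓ ∧
      rho W p σ = rho W p φ ^ j ∧ IsCycloExp p σ (ℓ ^ j) := by
  classical
  obtain ⟨K, hKfin, hK⟩ := Fermat.Agent.ES.Q58.TraceCong20.exists_field
    (E := W.map (Int.castRingHom ℚ)) _ (torsion_set_finite (W := W) (p := p) hp2)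
  obtain ⟨ζ, hζ⟩ := Fermat.Agent.ES.J.CycloChar8.exists_primitiveRoot p 1
  rw [pow_one] at hζ
  have hζint : IsIntegral ℚ ζ :=
    (Fermat.Agent.Lib.FrobeniusExists.isIntegral_Qbar).isIntegral ζ
  have hfinζ : FiniteDimensional ℚ (IntermediateField.adjoin ℚ {ζ}) :=
    IntermediateField.adjoin.finiteDimensional hζint
  set L : IntermediateField ℚ Qb := K ⊔ IntermediateField.adjoin ℚ {ζ} with hL
  have hLfin : FiniteDimensional ℚ L := IntermediateField.finiteDimensional_sup K _
  have hKL : K ≤ L := le_sup_left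
  have hζL : ζ ∈ L :=
    (le_sup_right : IntermediateField.adjoin ℚ {ζ} ≤ L)
      (IntermediateField.mem_adjoin_simple_self ℚ ζ)
  obtain ⟨ℓ, A, φ, j, hℓ, hℓT, hA, hφ, hpow⟩ :=
    Fermat.Agent.ES.GAL.ChebQbar23.exists_frobenius_pow_eq_on L σ
      (insert p (T ∪ W.Δ.natAbs.primeFactors))
  have hℓp : ℓ ≠ p := fun h => hℓT (by rw [h]; exact Finset.mem_insert_self _ _)
  have hℓT' : ℓ ∉ T := fun h =>
    hℓT (Finset.mem_insert_of_mem (Finset.mem_union_left _ h))
  have hgood : W.IsGoodPrimeFor ℓ := by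
    intro hdvd
    apply hℓT
    refine Finset.mem_insert_of_mem (Finset.mem_union_right _
      (Nat.mem_primeFactors.mpr ⟨hℓ, ?_, ?_⟩))
    · exact Int.natCast_dvd.mp hdvd
    · exact Int.natAbs_ne_zero.mpr hΔ
  refine ⟨ℓ, A, φ, j, hℓ, hℓT', hℓp, hgood, hA, hφ, ?_, ?_⟩
  · rw [← map_pow]
    refine LinearMap.ext fun x => ?_
    rw [rho_apply, rho_apply]
    apply Subtype.ext
    exact (hK (φ ^ j) σ (fun y hy => hpow y (hKL hy)) _ (nsmul_coe_eq_zero x)).symm
  · refine IsCycloExp.congr (fun η hη => ?_) ((IsCycloExp.of_frobenius hℓ hℓp A hA hφ).pow j)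
    obtain ⟨k, -, rfl⟩ := hζ.eq_pow_of_pow_eq_one hη
    exact hpow _ (pow_mem hζL k)

/-- If `a_ℓ ≡ ℓ + 1 (mod p)` at all good primes outside a finite set, then every element of `G_ℚ`
has a nonzero fixed vector in the irreducible `W[p]`. -/
theorem exists_fixed_of_eisenstein (hΔ : W.Δ ≠ 0) (hrel : RelQbar W) (hp2 : p ≠ 2)
    (hirr : W.ModRepIsIrreducible p) (T : Finset ℕ)
    (hE : ∀ ℓ : ℕ, ℓ.Prime → ℓ ∉ T → ℓ ≠ p → W.IsGoodPrimeFor ℓ →
      (p : ℤ) ∣ W.apOfModel ℓ - ℓ - 1) (σ : GQ) :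
    ∃ v : Tors W p, v ≠ 0 ∧ σ • v = v := by
  have hV := finrank_tors (W := W) hΔ hp2
  have hnt := nontrivial_tors (W := W) hΔ hp2
  have hns := exists_not_isScalarOn hp2 hΔ hirr
  obtain ⟨ℓ, A, φ, j, hℓ, hℓT, hℓp, hgood, hA, hφ, hρ, -⟩ :=
    exists_frobenius_pow (W := W) hΔ hp2 σ T
  set f := rho W p φ with hf
  -- it suffices to find a fixed vector of `φ`
  suffices h : ∃ v : Tors W p, v ≠ 0 ∧ f v = v by
    obtain ⟨v, hv, hfv⟩ := h
    refine ⟨v, hv, ?_⟩
    have h1 : ∀ k : ℕ, (f ^ k) v = v := by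
      intro k
      induction k with
      | zero => simp
      | succ k ih => rw [pow_succ, Module.End.mul_apply, hfv, ih]
    have h2 : rho W p σ v = v := by rw [hρ]; exact h1 j
    exact h2
  -- `(f - 1)(f - ℓ) = 0`
  have hcong : (W.apOfModel ℓ : ZMod p) = (ℓ : ZMod p) + 1 := by
    have h := hE ℓ hℓ hℓT hℓp hgood
    have h2 := (ZMod.intCast_zmod_eq_zero_iff_dvd (W.apOfModel ℓ - ℓ - 1) p).mpr h
    push_cast at h2
    linear_combination h2
  have hrelφ : ∀ x : Tors W p, f (f x) - ((ℓ : ZMod p) + 1) • f x + (ℓ : ZMod p) • x = 0 := by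
    intro x
    have h := rel_tors hrel hp2 hℓ hgood hℓp hA hφ x
    rw [← Int.cast_smul_eq_zsmul (ZMod p), ← Nat.cast_smul_eq_nsmul (ZMod p), hcong] at h
    exact h
  by_cases hsc : ∃ w : Tors W p, f w - (ℓ : ZMod p) • w ≠ 0
  · obtain ⟨w, hw⟩ := hsc
    refine ⟨f w - (ℓ : ZMod p) • w, hw, ?_⟩
    have h := hrelφ w
    rw [map_sub, map_smul]
    have : f (f w) - (ℓ : ZMod p) • f w - (f w - (ℓ : ZMod p) • w)
        = f (f w) - ((ℓ : ZMod p) + 1) • f w + (ℓ : ZMod p) • w := by module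
    exact sub_eq_zero.mp (this.trans h)
  · -- `f` is the scalar `ℓ`; then `ℓ² = det f = ℓ`
    push Not at hsc
    have hfsc : f = (ℓ : ZMod p) • (1 : Module.End (ZMod p) (Tors W p)) := by
      refine LinearMap.ext fun w => ?_
      rw [LinearMap.smul_apply, Module.End.one_apply]
      exact sub_eq_zero.mp (hsc w)
    have hdet1 : LinearMap.det f = (ℓ : ZMod p) :=
      det_rho hΔ hrel hp2 hns φ (IsCycloExp.of_frobenius hℓ hℓp A hA hφ)
    have hdet2 : LinearMap.det f = (ℓ : ZMod p) ^ 2 := by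
      rw [hfsc, LinearMap.det_smul, hV, map_one, mul_one]
    have hℓ0 : (ℓ : ZMod p) ≠ 0 := by
      intro h0
      have := (ZMod.natCast_eq_zero_iff ℓ p).mp h0
      exact hℓp ((Nat.prime_dvd_prime_iff_eq hp.out hℓ).mp this).symm
    have hℓ1 : (ℓ : ZMod p) = 1 := by
      have h : (ℓ : ZMod p) * (ℓ : ZMod p) = (ℓ : ZMod p) * 1 := by
        rw [mul_one, ← pow_two, ← hdet2, hdet1]
      exact mul_left_cancel₀ hℓ0 h
    obtain ⟨v, hv⟩ := exists_ne (0 : Tors W p)
    refine ⟨v, hv, ?_⟩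
    rw [hfsc, hℓ1, one_smul, Module.End.one_apply]

/-- **A non-Eisenstein prime.**  If `W[p]` is irreducible (`p` odd), then outside any finite set of
primes there is a good prime `ℓ ≠ p` with `a_ℓ(W) ≢ ℓ + 1 (mod p)`. -/
theorem exists_nonEisenstein_prime (hΔ : W.Δ ≠ 0) (hrel : RelQbar W) (hp2 : p ≠ 2)
    (hirr : W.ModRepIsIrreducible p) (T : Finset ℕ) :
    ∃ ℓ : ℕ, ℓ.Prime ∧ ℓ ∉ T ∧ ℓ ≠ p ∧ W.IsGoodPrimeFor ℓ ∧
      ¬ (p : ℤ) ∣ W.apOfModel ℓ - ℓ - 1 := by
  by_contra hcon
  push Not at hcon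
  have hV := finrank_tors (W := W) hΔ hp2
  have hns := exists_not_isScalarOn hp2 hΔ hirr
  have hfix : ∀ σ : GQ, ∃ v : Tors W p, v ≠ 0 ∧ rho W p σ v = v :=
    fun σ => exists_fixed_of_eisenstein hΔ hrel hp2 hirr T hcon σ
  -- an element of determinant `2 ≠ 1`
  obtain ⟨A, -, hA, -⟩ := Fermat.Agent.Lib.exists_isFrobeniusAt p hp.out
  have h2p : Nat.Coprime 2 p := by
    rw [Nat.coprime_comm, Nat.Prime.coprime_iff_not_dvd hp.out]
    intro hdvd
    exact hp2 ((Nat.prime_dvd_prime_iff_eq hp.out Nat.prime_two).mp hdvd)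
  obtain ⟨g₀, -, hg₀⟩ :=
    Fermat.Agent.Lib.InertiaCyclo69.exists_mem_inertia_forall_apply_eq_pow hp.out hA 1 h2p
  have hexp : IsCycloExp p g₀ 2 := fun ζ hζ => hg₀ ζ (by rwa [pow_one])
  have hdet : LinearMap.det (rho W p g₀) ≠ 1 := by
    rw [det_rho hΔ hrel hp2 hns g₀ hexp]
    intro h
    have h1 : ((2 : ℕ) : ZMod p) - 1 = 0 := sub_eq_zero.mpr h
    have h2 : ((1 : ℕ) : ZMod p) = 0 := by
      rw [← h1]; push_cast; ring
    have := (ZMod.natCast_eq_zero_iff 1 p).mp h2
    exact hp.out.one_lt.ne' (Nat.dvd_one.mp this)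
  obtain ⟨N, hbot, htop, hst⟩ := exists_stable_line hV (rho W p) hfix g₀ hdet
  rcases hirr.2 N (fun σ x hx => hst σ x hx) with h | h
  · exact hbot h
  · exact htop h

end Cheb

end Fermat.Agent.M1.Glue.NonEis47
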