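/-
M1 (S44), chapter GLUE, helper47: **the abstract end game** of the glue design (#406 §2–§3),
parametric in the `J`-side.

Setting.  `W` an integral Weierstrass model with `Δ ≠ 0` satisfying the Eichler–Shimura relation on
torsion (`TraceCong20.RelQbar`, unconditional by `RelQbarFinal88`), `p` an odd prime with `W[p]`
irreducible.  The `J`-side is an abstract abelian group `J` with an additive action of `G_ℚ` and a
subgroup `V ⊂ J[p]` which is Galois stable, of finite level, and on which the Frobenius elements at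
the primes `ℓ ∉ S` satisfy `φ² - a_ℓ(W) φ + ℓ = 0` (`JSide`; for `J = J₀(N)(ℚ̄)` and `V` the
`a_ℓ(W)`-eigenspace of the Hecke operators in `J₀(N)[p]` this is `TorsionGalois12.frobenius_relation`
and `OpenStab12.hasLevel_finite`).

* `exists_stable_line_of_commutator` (linear algebra): `g₀ = diag(1, c)`, `c ≠ 1`, on a plane, and
  every commutator `g⁻¹ g₀ g g₀⁻¹` has a nonzero fixed vector  ⟹  a stable line.
* `JSide.sub_one_sq` (the `W₀`-step): `h` trivial on `W[p]` and on `μ_p` ⟹ `(h - 1)² = 0` on `V`.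
* `exists_fixed_ne_zero`: a subgroup `H` all of whose elements satisfy `(h - 1)² = 0` on the finite
  nonzero `p`-torsion group `V` has a nonzero fixed vector in `V` (its image in `Perm V` is a
  `p`-group).
* `JSide.exists_fixed_of_fixed` (KEY LEMMA (K)): `k` fixing one nonzero vector of `V` and acting
  trivially on `μ_p` has a nonzero fixed vector in `W[p]`.
* `JSide.false_of_core` (END GAME): if moreover some `τ₀` with `τ₀ = ζ ↦ ζ^c` on `μ_p`, `c ≢ 1`,
  having a nonzero fixed vector in `W[p]`, acts on `V^H` as the scalar `c` (the conclusion of CORE),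
  then `W[p]` is reducible: contradiction.
* `exists_fixed_of_line`: the `χ`-line shape of the `E`-side gives the fixed vector of `τ₀`.
-/
import Mathlib
import Fermat.Agent.M1.Glue.NonEis47
import Fermat.Agent.ES.Q58.Cheb2Sided12

set_option autoImplicit false

open WeierstrassCurve WeierstrassCurve.Affine WeierstrassCurve.Affine.Point

namespace Fermat.Agent.M1.Glue.EndGame47

open Fermat.Agent.ES.Q58.TraceCong20 (RelQbar)
open Fermat.Agent.S52.TopWiring84 (Tors finrank_tors nontrivial_tors rel_tors)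
open Fermat.Agent.S52.C.DetCyclo47
open Fermat.Agent.M1.Glue.NonEis47 (exists_coords coords_eq_zero)

local notation "Qb" => AlgebraicClosure ℚ
local notation "GQ" => (AlgebraicClosure ℚ ≃ₐ[ℚ] AlgebraicClosure ℚ)

/-! ### Linear algebra: the commutator trick -/

section LinAlg

variable {F : Type*} [Field F] {V : Type*} [AddCommGroup V] [Module F V]

/-- **The commutator trick.**  On a plane, let `g₀` have a nonzero fixed vector and determinant
`≠ 1` (so `g₀ = diag(1, c)`, `c ≠ 1`).  If every commutator `g⁻¹ g₀ g g₀⁻¹` has a nonzero fixed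
vector, then the group stabilises a line. -/
theorem exists_stable_line_of_commutator {G : Type*} [Group G] (hV : Module.finrank F V = 2)
    (r : G →* Module.End F V) (g₀ : G) (hfix0 : ∃ v : V, v ≠ 0 ∧ r g₀ v = v)
    (hdet : LinearMap.det (r g₀) ≠ 1)
    (hcomm : ∀ g : G, ∃ v : V, v ≠ 0 ∧ r (g⁻¹ * g₀ * g * g₀⁻¹) v = v) :
    ∃ N : Submodule F V, N ≠ ⊥ ∧ N ≠ ⊤ ∧ ∀ (g : G), ∀ x ∈ N, r g x ∈ N := by
  classical
  have hfin : Module.Finite F V := Module.finite_of_finrank_pos (by rw [hV]; norm_num)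
  have hinj : ∀ g : G, Function.Injective (r g) := by
    intro g x y hxy
    have h1 : r g⁻¹ * r g = 1 := by rw [← map_mul, inv_mul_cancel, map_one]
    have := congrArg (r g⁻¹) hxy
    rwa [← Module.End.mul_apply, ← Module.End.mul_apply, h1] at this
  -- the two eigenvectors of `f₀ = r g₀`
  obtain ⟨e₁, he₁, hfe₁⟩ := hfix0
  set f₀ : Module.End F V := r g₀ with hf₀
  set c : F := LinearMap.det f₀ with hc
  -- characteristic polynomial `(X - 1)(X - c)`, Cayley–Hamilton, pointwise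
  have hCHx : ∀ x : V, f₀ (f₀ x) - (1 + c) • f₀ x + c • x = 0 := by
    have hCmonic : f₀.charpoly.Monic := LinearMap.charpoly_monic f₀
    have hCdeg : f₀.charpoly.natDegree = 2 := by rw [LinearMap.charpoly_natDegree, hV]
    have hc0 : f₀.charpoly.coeff 0 = c := by
      have := LinearMap.det_eq_sign_charpoly_coeff f₀
      rw [hV] at this
      simpa using this.symm
    have hsum := hCmonic.as_sum
    rw [hCdeg, Finset.sum_range_succ, Finset.sum_range_one, hc0] at hsum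
    have hCH : Polynomial.aeval f₀ f₀.charpoly = 0 := LinearMap.aeval_self_charpoly f₀
    rw [hsum] at hCH
    simp only [map_add, map_mul, map_pow, Polynomial.aeval_X, Polynomial.aeval_C, pow_zero,
      pow_one, mul_one] at hCH
    have hpt : ∀ x : V, f₀ (f₀ x) + (c • x + f₀.charpoly.coeff 1 • f₀ x) = 0 := by
      intro x
      have hv2 := congrArg (fun g : V →ₗ[F] V => g x) hCH
      simpa only [LinearMap.add_apply, Module.End.mul_apply, LinearMap.zero_apply, pow_two,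
        Module.algebraMap_end_apply] using hv2
    have hb2 : (1 + (c + f₀.charpoly.coeff 1)) • e₁ = 0 := by
      have := hpt e₁
      rw [hfe₁, hfe₁] at this
      rw [add_smul, add_smul, one_smul]
      exact this
    have hb' : f₀.charpoly.coeff 1 = -(1 + c) := by
      rcases smul_eq_zero.mp hb2 with h | h
      · linear_combination h
      · exact absurd h he₁
    intro x
    have := hpt x
    rw [hb'] at this
    rw [← this]
    module
  -- an eigenvector for `c`
  have hne1 : ∃ w : V, f₀ w - w ≠ 0 := by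
    by_contra hcon
    push Not at hcon
    apply hdet
    have : f₀ = 1 := LinearMap.ext fun x => by
      rw [Module.End.one_apply]; exact sub_eq_zero.mp (hcon x)
    rw [hc, this, _root_.map_one]
  obtain ⟨w, hw⟩ := hne1
  set e₂ : V := f₀ w - w with he₂
  have hfe₂ : f₀ e₂ = c • e₂ := by
    have h := hCHx w
    rw [he₂, map_sub]
    have : f₀ (f₀ w) - f₀ w - c • (f₀ w - w) = f₀ (f₀ w) - (1 + c) • f₀ w + c • w := by module
    exact sub_eq_zero.mp (this.trans h)
  have hli : LinearIndependent F ![e₁, e₂] := by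
    rw [LinearIndependent.pair_iff]
    intro s t hst
    have h1 := congrArg f₀ hst
    rw [map_add, map_smul, map_smul, hfe₁, hfe₂, _root_.map_zero] at h1
    have h2 : (t * (c - 1)) • e₂ = 0 := by
      have : (t * (c - 1)) • e₂ = (s • e₁ + t • c • e₂) - (s • e₁ + t • e₂) := by module
      rw [this, h1, hst, sub_zero]
    have ht : t = 0 := by
      rcases smul_eq_zero.mp h2 with h | h
      · rcases mul_eq_zero.mp h with h | h
        · exact h
        · exact absurd (sub_eq_zero.mp h) hdet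
      · exact absurd h hw
    rw [ht, zero_smul, add_zero] at hst
    rcases smul_eq_zero.mp hst with h | h
    · exact ⟨h, ht⟩
    · exact absurd h he₁
  -- every `g` stabilises one of the eigenlines
  have hkey : ∀ g : G, (∃ a : F, r g e₁ = a • e₁) ∨ (∃ d : F, r g e₂ = d • e₂) := by
    intro g
    obtain ⟨v, hv, hkv⟩ := hcomm g
    set u := r g₀⁻¹ v with hu
    have hu0 : u ≠ 0 := by
      intro h0
      apply hv
      have : r g₀⁻¹ v = r g₀⁻¹ 0 := by rw [_root_.map_zero]; exact h0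
      exact hinj _ this
    have hcomm2 : f₀ (r g u) = r g (f₀ u) := by
      have h1 : f₀ u = v := by
        rw [hu, hf₀, ← Module.End.mul_apply, ← map_mul, mul_inv_cancel, map_one,
          Module.End.one_apply]
      rw [h1]
      have h2 : r (g⁻¹ * g₀ * g * g₀⁻¹) v = r g⁻¹ (f₀ (r g u)) := by
        rw [map_mul, map_mul, map_mul]
        rfl
      rw [h2] at hkv
      have h3 := congrArg (r g) hkv
      rwa [← Module.End.mul_apply, ← map_mul, mul_inv_cancel, map_one,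
        Module.End.one_apply] at h3
    obtain ⟨a, c', ha⟩ := exists_coords hV hli (r g e₁)
    obtain ⟨b, d, hb⟩ := exists_coords hV hli (r g e₂)
    obtain ⟨x, y, hxy⟩ := exists_coords hV hli u
    have hL : f₀ (r g u) = (x * a + y * b) • e₁ + (c * (x * c' + y * d)) • e₂ := by
      rw [hxy]
      simp only [map_add, map_smul, ha, hb, hfe₁, hfe₂]
      module
    have hR : r g (f₀ u) = (x * a + c * y * b) • e₁ + (x * c' + c * y * d) • e₂ := by
      rw [hxy]
      simp only [map_add, map_smul, ha, hb, hfe₁, hfe₂]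
      module
    have hzero : (y * b * (1 - c)) • e₁ + (x * c' * (c - 1)) • e₂ = 0 := by
      have : (y * b * (1 - c)) • e₁ + (x * c' * (c - 1)) • e₂
          = ((x * a + y * b) • e₁ + (c * (x * c' + y * d)) • e₂)
            - ((x * a + c * y * b) • e₁ + (x * c' + c * y * d) • e₂) := by module
      rw [this, ← hL, ← hR, hcomm2, sub_self]
    obtain ⟨h1, h2⟩ := coords_eq_zero hli hzero
    have hc1 : (1 : F) - c ≠ 0 := fun h => hdet (sub_eq_zero.mp h).symm
    have hc2 : c - 1 ≠ 0 := fun h => hdet (sub_eq_zero.mp h)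
    have hyb : y * b = 0 := (mul_eq_zero.mp h1).resolve_right hc1
    have hxc : x * c' = 0 := (mul_eq_zero.mp h2).resolve_right hc2
    by_cases hx : x = 0
    · have hy : y ≠ 0 := by
        rintro rfl
        apply hu0
        rw [hxy, hx, zero_smul, zero_smul, add_zero]
      have hb0 : b = 0 := (mul_eq_zero.mp hyb).resolve_left hy
      right
      exact ⟨d, by rw [hb, hb0, zero_smul, zero_add]⟩
    · have hc0 : c' = 0 := (mul_eq_zero.mp hxc).resolve_left hx
      left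
      exact ⟨a, by rw [ha, hc0, zero_smul, add_zero]⟩
  -- a group is not the union of two proper subgroups
  have hall : (∀ g : G, ∃ a : F, r g e₁ = a • e₁) ∨ (∀ g : G, ∃ d : F, r g e₂ = d • e₂) := by
    by_contra hcon
    rw [not_or] at hcon
    obtain ⟨h1, h2⟩ := hcon
    push Not at h1 h2
    obtain ⟨g₁, hg₁⟩ := h1
    obtain ⟨g₂, hg₂⟩ := h2
    obtain ⟨d₁, hd₁⟩ := (hkey g₁).resolve_left (by push Not; exact hg₁)
    obtain ⟨a₂, ha₂⟩ := (hkey g₂).resolve_right (by push Not; exact hg₂)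
    have hd₁0 : d₁ ≠ 0 := by
      rintro rfl
      rw [zero_smul] at hd₁
      exact hw (hinj g₁ (by rw [hd₁, _root_.map_zero]))
    have ha₂0 : a₂ ≠ 0 := by
      rintro rfl
      rw [zero_smul] at ha₂
      exact he₁ (hinj g₂ (by rw [ha₂, _root_.map_zero]))
    rcases hkey (g₁ * g₂) with ⟨a, ha⟩ | ⟨d, hd⟩
    · rw [map_mul, Module.End.mul_apply, ha₂, map_smul] at ha
      apply hg₁ (a₂⁻¹ * a)
      rw [mul_smul, ← ha, smul_smul, inv_mul_cancel₀ ha₂0, one_smul]
    · rw [map_mul, Module.End.mul_apply] at hd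
      apply hg₂ (d₁⁻¹ * d)
      apply hinj g₁
      rw [hd, map_smul, hd₁, smul_smul, mul_assoc, mul_comm d d₁, ← mul_assoc,
        inv_mul_cancel₀ hd₁0, one_mul]
  -- conclusion
  have hline : ∀ {e : V}, e ≠ 0 → (∀ g : G, ∃ a : F, r g e = a • e) →
      ∃ N : Submodule F V, N ≠ ⊥ ∧ N ≠ ⊤ ∧ ∀ (g : G), ∀ x ∈ N, r g x ∈ N := by
    intro e he hst
    refine ⟨Submodule.span F {e}, ?_, ?_, ?_⟩
    · intro h
      have : e ∈ Submodule.span F {e} := Submodule.mem_span_singleton_self e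
      rw [h] at this
      exact he ((Submodule.mem_bot F).mp this)
    · intro h
      have h1 : Module.finrank F (Submodule.span F {e}) = 1 := finrank_span_singleton he
      rw [h, finrank_top, hV] at h1
      omega
    · intro g x hx
      obtain ⟨s, rfl⟩ := Submodule.mem_span_singleton.mp hx
      obtain ⟨a, ha⟩ := hst g
      rw [map_smul, ha, smul_smul]
      exact Submodule.smul_mem _ _ (Submodule.mem_span_singleton_self e)
  rcases hall with h | h
  · exact hline he₁ h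
  · exact hline hw h

end LinAlg

/-! ### Unipotent elements on a `p`-torsion group -/

section Unipotent

variable {Γ : Type*} [Group Γ] {J : Type*} [AddCommGroup J] [DistribMulAction Γ J]

theorem pow_smul_eq_self {g : Γ} {y : J} (h : g • y = y) (i : ℕ) : (g ^ i) • y = y := by
  induction i with
  | zero => simp
  | succ i ih => rw [pow_succ, mul_smul, h, ih]

/-- if `(g - 1)² = 0` on a `g`-stable subgroup `V`, then `g ^ j = 1 + j (g - 1)` on `V`. -/
theorem pow_smul_eq_add (V : AddSubgroup J) (g : Γ) (hst : ∀ y ∈ V, g • y ∈ V)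
    (hN : ∀ y ∈ V, g • g • y - 2 • (g • y) + y = 0) (j : ℕ) :
    ∀ y ∈ V, (g ^ j) • y = y + j • (g • y - y) := by
  induction j with
  | zero => intro y _; simp
  | succ j ih =>
    intro y hy
    rw [pow_succ, mul_smul, ih (g • y) (hst y hy)]
    have h2 : g • g • y - g • y = g • y - y := by
      have := hN y hy
      rw [two_nsmul] at this
      have h3 : g • g • y - g • y - (g • y - y) = g • g • y - (g • y + g • y) + y := by abel
      exact sub_eq_zero.mp (h3.trans this)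
    rw [h2, succ_nsmul]
    abel

/-- `(g - 1)² = 0` on `V` implies `(g ^ j - 1)² = 0` on `V`. -/
theorem pow_sub_one_sq (V : AddSubgroup J) (g : Γ) (hst : ∀ y ∈ V, g • y ∈ V)
    (hN : ∀ y ∈ V, g • g • y - 2 • (g • y) + y = 0) (j : ℕ) :
    ∀ y ∈ V, (g ^ j) • (g ^ j) • y - 2 • ((g ^ j) • y) + y = 0 := by
  intro y hy
  rw [← mul_smul, ← pow_add, pow_smul_eq_add V g hst hN (j + j) y hy,
    pow_smul_eq_add V g hst hN j y hy, add_nsmul, two_nsmul]
  abel

/-- `(g - 1)² = 0` on the `p`-torsion group `V` implies `g ^ p = 1` on `V`. -/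
theorem pow_prime_smul_eq (V : AddSubgroup J) (g : Γ) (hst : ∀ y ∈ V, g • y ∈ V)
    (hN : ∀ y ∈ V, g • g • y - 2 • (g • y) + y = 0) (p : ℕ) (htors : ∀ y ∈ V, p • y = 0) :
    ∀ y ∈ V, (g ^ p) • y = y := by
  intro y hy
  rw [pow_smul_eq_add V g hst hN p y hy, nsmul_sub, htors _ (hst y hy), htors y hy, sub_zero,
    add_zero]

/-- **Fixed points.**  A subgroup `H` all of whose elements satisfy `(h - 1)² = 0` on the finite
nonzero `p`-torsion group `V` has a nonzero fixed vector in `V`. -/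
theorem exists_fixed_ne_zero {p : ℕ} [hp : Fact p.Prime] (V : AddSubgroup J) [Finite V]
    (hV : V ≠ ⊥) (htors : ∀ y ∈ V, p • y = 0) (H : Subgroup Γ)
    (hst : ∀ h ∈ H, ∀ y ∈ V, h • y ∈ V)
    (hN : ∀ h ∈ H, ∀ y ∈ V, h • h • y - 2 • (h • y) + y = 0) :
    ∃ y ∈ V, y ≠ 0 ∧ ∀ h ∈ H, h • y = y := by
  classical
  letI act : MulAction H V :=
    { smul := fun h y => ⟨(h : Γ) • (y : J), hst h h.2 y y.2⟩
      one_smul := fun y => Subtype.ext (one_smul Γ (y : J))
      mul_smul := fun a b y => Subtype.ext (mul_smul (a : Γ) (b : Γ) (y : J)) }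
  have hact : ∀ (h : H) (y : V), ((h • y : V) : J) = (h : Γ) • (y : J) := fun _ _ => rfl
  set P : Subgroup (Equiv.Perm V) := (MulAction.toPermHom H V).range with hP
  have hPp : IsPGroup p P := by
    rintro ⟨_, ⟨h, rfl⟩⟩
    refine ⟨1, Subtype.ext ?_⟩
    rw [pow_one, Subgroup.coe_pow, Subgroup.coe_one, ← map_pow]
    ext y
    rw [MulAction.toPermHom_apply, MulAction.toPerm_apply, Equiv.Perm.one_apply, hact,
      Subgroup.coe_pow]
    exact pow_prime_smul_eq V (h : Γ) (hst h h.2) (hN h h.2) p htors y y.2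
  -- `p ∣ #V`
  obtain ⟨y₁, hy₁V, hy₁⟩ : ∃ y ∈ V, y ≠ 0 := by
    by_contra hcon
    push Not at hcon
    exact hV ((AddSubgroup.eq_bot_iff_forall V).mpr hcon)
  have hcard : p ∣ Nat.card V := by
    have h1 : addOrderOf (⟨y₁, hy₁V⟩ : V) = p := by
      refine addOrderOf_eq_prime ?_ ?_
      · exact Subtype.ext (htors y₁ hy₁V)
      · intro h0
        exact hy₁ (congrArg Subtype.val h0)
    rw [← h1]
    exact addOrderOf_dvd_natCard _
  have h0 : (0 : V) ∈ MulAction.fixedPoints P V := by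
    rintro ⟨_, ⟨h, rfl⟩⟩
    apply Subtype.ext
    change (h : Γ) • ((0 : V) : J) = ((0 : V) : J)
    rw [AddSubgroup.coe_zero, smul_zero]
  obtain ⟨b, hb, hb0⟩ := hPp.exists_fixed_point_of_prime_dvd_card_of_fixed_point V hcard h0
  refine ⟨(b : J), b.2, fun h => hb0 (Subtype.ext h.symm), fun h hh => ?_⟩
  have := hb ⟨MulAction.toPermHom H V ⟨h, hh⟩, ⟨⟨h, hh⟩, rfl⟩⟩
  exact congrArg Subtype.val this

/-- the `H`-invariants of `V`. -/
def fixedSub (H : Subgroup Γ) (V : AddSubgroup J) : AddSubgroup J where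
  carrier := {y | y ∈ V ∧ ∀ h ∈ H, h • y = y}
  zero_mem' := ⟨V.zero_mem, fun h _ => smul_zero h⟩
  add_mem' := fun {a b} ha hb =>
    ⟨V.add_mem ha.1 hb.1, fun h hh => by rw [smul_add, ha.2 h hh, hb.2 h hh]⟩
  neg_mem' := fun {a} ha => ⟨V.neg_mem ha.1, fun h hh => by rw [smul_neg, ha.2 h hh]⟩

theorem mem_fixedSub {H : Subgroup Γ} {V : AddSubgroup J} {y : J} :
    y ∈ fixedSub H V ↔ y ∈ V ∧ ∀ h ∈ H, h • y = y := Iff.rfl

theorem fixedSub_le (H : Subgroup Γ) (V : AddSubgroup J) : fixedSub H V ≤ V := fun _ hy => hy.1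

/-- the invariants of a normal subgroup form a stable subgroup. -/
theorem smul_mem_fixedSub {H : Subgroup Γ} [hH : H.Normal] {V : AddSubgroup J}
    (hst : ∀ (g : Γ), ∀ y ∈ V, g • y ∈ V) (g : Γ) {y : J} (hy : y ∈ fixedSub H V) :
    g • y ∈ fixedSub H V := by
  refine ⟨hst g y hy.1, fun h hh => ?_⟩
  have hconj : g⁻¹ * h * g ∈ H := by
    have := hH.conj_mem h hh g⁻¹
    rwa [inv_inv] at this
  have h1 := hy.2 _ hconj
  rw [mul_smul, mul_smul] at h1
  have h2 := congrArg (fun z => g • z) h1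
  simp only [smul_inv_smul] at h2
  exact h2

end Unipotent

/-! ### The `J`-side interface -/

section JSideDef

/-- **The `J`-side.**  `V` is a `p`-torsion subgroup of a `G_ℚ`-module `J`, Galois stable, of finite
level, on which the Frobenius elements at the primes `ℓ ∉ S` satisfy the Eichler–Shimura relation
with the traces `a_ℓ(W)`. -/
structure JSide (W : WeierstrassCurve ℤ) (p : ℕ) {J : Type*} [AddCommGroup J]
    [DistribMulAction GQ J] (S : Finset ℕ) (V : AddSubgroup J) : Prop where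
  tors : ∀ y ∈ V, p • y = 0
  stable : ∀ (g : GQ), ∀ y ∈ V, g • y ∈ V
  level : ∃ L : IntermediateField ℚ Qb, FiniteDimensional ℚ L ∧
    ∀ σ : GQ, (∀ x ∈ L, σ x = x) → ∀ y ∈ V, σ • y = y
  rel : ∀ ℓ : ℕ, ℓ.Prime → ℓ ∉ S → ∀ A : ValuationSubring Qb, A.LiesOverPrime ℓ →
    ∀ φ : GQ, A.IsFrobeniusAt φ ℓ → ∀ y ∈ V, φ • φ • y - W.apOfModel ℓ • (φ • y) + ℓ • y = 0

end JSideDef

section Cheb

variable {W : WeierstrassCurve ℤ} {p : ℕ} [hp : Fact p.Prime]
variable {J : Type*} [AddCommGroup J] [DistribMulAction GQ J] {S : Finset ℕ} {V : AddSubgroup J}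

theorem smul_eq_smul_of_level {L : IntermediateField ℚ Qb}
    (hL : ∀ σ : GQ, (∀ x ∈ L, σ x = x) → ∀ y ∈ V, σ • y = y) {σ τ : GQ}
    (h : ∀ x ∈ L, σ x = τ x) : ∀ y ∈ V, σ • y = τ • y := by
  intro y hy
  have h1 : (τ⁻¹ * σ) • y = y := hL (τ⁻¹ * σ) (fun x hx => by
    rw [AlgEquiv.mul_apply, h x hx]
    exact τ.symm_apply_apply x) y hy
  rw [mul_smul, inv_smul_eq_iff] at h1
  exact h1

omit [DistribMulAction GQ J] in
/-- `a • z = b • z` on `p`-torsion when `a ≡ b (mod p)`. -/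
theorem zsmul_eq_of_cast_eq {z : J} (hz : p • z = 0) {a b : ℤ}
    (hab : (a : ZMod p) = (b : ZMod p)) : a • z = b • z := by
  have hdvd : (p : ℤ) ∣ a - b := by
    rw [← ZMod.intCast_zmod_eq_zero_iff_dvd]
    push_cast
    exact sub_eq_zero.mpr hab
  obtain ⟨k, hk⟩ := hdvd
  have h1 : (a - b) • z = 0 := by
    rw [hk, mul_comm, mul_smul, natCast_zsmul, hz, smul_zero]
  rw [sub_smul] at h1
  exact sub_eq_zero.mp h1

/-- **Two-sided Chebotarev step** on `V`, `W[p]` and `μ_p` simultaneously. -/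
theorem JSide.exists_frobenius_both (hJ : JSide W p S V) (hΔ : W.Δ ≠ 0) (hp2 : p ≠ 2) (g : GQ) :
    ∃ (ℓ : ℕ) (A : ValuationSubring Qb) (φ : GQ) (i j : ℕ), ℓ.Prime ∧ ℓ ∉ S ∧ ℓ ≠ p ∧
      W.IsGoodPrimeFor ℓ ∧ A.LiesOverPrime ℓ ∧ A.IsFrobeniusAt φ ℓ ∧
      (∀ y ∈ V, (φ ^ j) • y = g • y) ∧ (∀ y ∈ V, (g ^ i) • y = φ • y) ∧
      (∀ x : Tors W p, (φ ^ j) • x = g • x) ∧ (∀ x : Tors W p, (g ^ i) • x = φ • x) ∧
      (∀ ζ : Qb, ζ ^ p = 1 → (φ ^ j) ζ = g ζ) ∧ (∀ ζ : Qb, ζ ^ p = 1 → (g ^ i) ζ = φ ζ) := by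
  classical
  obtain ⟨LV, hLVfin, hLV⟩ := hJ.level
  obtain ⟨K, hKfin, hK⟩ := Fermat.Agent.ES.Q58.TraceCong20.exists_field
    (E := W.map (Int.castRingHom ℚ)) _ (torsion_set_finite (W := W) (p := p) hp2)
  obtain ⟨ζ, hζ⟩ := Fermat.Agent.ES.J.CycloChar8.exists_primitiveRoot p 1
  rw [pow_one] at hζ
  have hζint : IsIntegral ℚ ζ :=
    (Fermat.Agent.Lib.FrobeniusExists.isIntegral_Qbar).isIntegral ζ
  have hfinζ : FiniteDimensional ℚ (IntermediateField.adjoin ℚ {ζ}) :=
    IntermediateField.adjoin.finiteDimensional hζint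
  set L₁ : IntermediateField ℚ Qb := K ⊔ IntermediateField.adjoin ℚ {ζ} with hL₁
  have hL₁fin : FiniteDimensional ℚ L₁ := IntermediateField.finiteDimensional_sup K _
  set L : IntermediateField ℚ Qb := LV ⊔ L₁ with hL
  have hLfin : FiniteDimensional ℚ L := IntermediateField.finiteDimensional_sup LV L₁
  have hLVL : LV ≤ L := le_sup_left
  have hKL : K ≤ L := le_trans (le_sup_left : K ≤ L₁) le_sup_right
  have hζL : ζ ∈ L :=
    (le_sup_right : L₁ ≤ L) ((le_sup_right : IntermediateField.adjoin ℚ {ζ} ≤ L₁)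
      (IntermediateField.mem_adjoin_simple_self ℚ ζ))
  obtain ⟨ℓ, A, φ, i, j, hℓ, hℓT, hA, hφ, hpowj, hpowi⟩ :=
    Fermat.Agent.ES.Q58.Cheb2Sided12.exists_frobenius_pow_eq_on_both L g
      (insert p (S ∪ W.Δ.natAbs.primeFactors))
  have hℓp : ℓ ≠ p := fun h => hℓT (by rw [h]; exact Finset.mem_insert_self _ _)
  have hℓS : ℓ ∉ S := fun h =>
    hℓT (Finset.mem_insert_of_mem (Finset.mem_union_left _ h))
  have hgood : W.IsGoodPrimeFor ℓ := by
    intro hdvd
    apply hℓT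
    refine Finset.mem_insert_of_mem (Finset.mem_union_right _
      (Nat.mem_primeFactors.mpr ⟨hℓ, ?_, ?_⟩))
    · exact Int.natCast_dvd.mp hdvd
    · exact Int.natAbs_ne_zero.mpr hΔ
  refine ⟨ℓ, A, φ, i, j, hℓ, hℓS, hℓp, hgood, hA, hφ, ?_, ?_, ?_, ?_, ?_, ?_⟩
  · exact smul_eq_smul_of_level hLV (fun x hx => hpowj x (hLVL hx))
  · exact smul_eq_smul_of_level hLV (fun x hx => hpowi x (hLVL hx))
  · intro x
    apply Subtype.ext
    exact hK (φ ^ j) g (fun y hy => hpowj y (hKL hy)) _ (nsmul_coe_eq_zero x)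
  · intro x
    apply Subtype.ext
    exact hK (g ^ i) φ (fun y hy => hpowi y (hKL hy)) _ (nsmul_coe_eq_zero x)
  · intro η hη
    obtain ⟨k, -, rfl⟩ := hζ.eq_pow_of_pow_eq_one hη
    exact hpowj _ (pow_mem hζL k)
  · intro η hη
    obtain ⟨k, -, rfl⟩ := hζ.eq_pow_of_pow_eq_one hη
    exact hpowi _ (pow_mem hζL k)

/-- **The `W₀`-step.**  An element of `G_ℚ` acting trivially on `W[p]` and on `μ_p` satisfies
`(h - 1)² = 0` on `V`. -/
theorem JSide.sub_one_sq (hJ : JSide W p S V) (hΔ : W.Δ ≠ 0) (hrel : RelQbar W) (hp2 : p ≠ 2)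
    (h : GQ) (hE : ∀ v : Tors W p, h • v = v) (hμ : IsCycloExp p h 1) :
    ∀ y ∈ V, h • h • y - 2 • (h • y) + y = 0 := by
  obtain ⟨ℓ, A, φ, i, j, hℓ, hℓS, hℓp, hgood, hA, hφ, hVj, -, -, hTi, -, hμi⟩ :=
    hJ.exists_frobenius_both hΔ hp2 h
  have hnt := nontrivial_tors (W := W) hΔ hp2
  -- `φ` is trivial on `W[p]` and on `μ_p`
  have hφE : ∀ x : Tors W p, φ • x = x := fun x => by
    rw [← hTi x]; exact pow_smul_eq_self (hE x) i
  have hℓ1 : (ℓ : ZMod p) = 1 := by
    have h1 : IsCycloExp p φ (1 ^ i) := IsCycloExp.congr hμi (hμ.pow i)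
    have := IsCycloExp.cast_eq (IsCycloExp.of_frobenius hℓ hℓp A hA hφ) h1
    rw [this]; simp
  -- `a_ℓ ≡ 2`
  have ha2 : (W.apOfModel ℓ : ZMod p) = ((2 : ℤ) : ZMod p) := by
    obtain ⟨x, hx⟩ := exists_ne (0 : Tors W p)
    have hr := rel_tors hrel hp2 hℓ hgood hℓp hA hφ x
    rw [hφE, hφE, ← Int.cast_smul_eq_zsmul (ZMod p), ← Nat.cast_smul_eq_nsmul (ZMod p), hℓ1,
      one_smul] at hr
    have h2 : ((1 : ZMod p) - (W.apOfModel ℓ : ZMod p) + 1) • x = 0 := by
      rw [add_smul, sub_smul, one_smul]; exact hr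
    rcases smul_eq_zero.mp h2 with h3 | h3
    · push_cast; linear_combination -h3
    · exact absurd h3 hx
  -- `(φ - 1)² = 0` on `V`
  have hNφ : ∀ y ∈ V, φ • φ • y - 2 • (φ • y) + y = 0 := by
    intro y hy
    have hr := hJ.rel ℓ hℓ hℓS A hA φ hφ y hy
    have h1 : W.apOfModel ℓ • (φ • y) = (2 : ℤ) • (φ • y) :=
      zsmul_eq_of_cast_eq (hJ.tors _ (hJ.stable φ y hy)) ha2
    have h2 : (ℓ : ℤ) • y = (1 : ℤ) • y :=
      zsmul_eq_of_cast_eq (hJ.tors y hy) (by push_cast; exact hℓ1)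
    rw [h1, ← natCast_zsmul, h2, one_zsmul] at hr
    rw [← hr, ← natCast_zsmul]; rfl
  -- transfer to `h = φ ^ j`
  intro y hy
  have h1 : h • y = (φ ^ j) • y := (hVj y hy).symm
  have h2 : h • h • y = (φ ^ j) • (φ ^ j) • y := by
    rw [← hVj (h • y) (hJ.stable h y hy), h1]
  rw [h2, h1]
  exact pow_sub_one_sq V φ (hJ.stable φ) hNφ j y hy

/-- **KEY LEMMA (K).**  If `k ∈ G_ℚ` fixes a nonzero vector of `V` and acts trivially on `μ_p`, then
`k` has a nonzero fixed vector in `W[p]`. -/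
theorem JSide.exists_fixed_of_fixed (hJ : JSide W p S V) (hΔ : W.Δ ≠ 0) (hrel : RelQbar W)
    (hp2 : p ≠ 2) {y₀ : J} (hy₀ : y₀ ∈ V) (hne : y₀ ≠ 0) (k : GQ) (hk : k • y₀ = y₀)
    (hμ : IsCycloExp p k 1) : ∃ v : Tors W p, v ≠ 0 ∧ k • v = v := by
  obtain ⟨ℓ, A, φ, i, j, hℓ, hℓS, hℓp, hgood, hA, hφ, -, hVi, hTj, -, -, hμi⟩ :=
    hJ.exists_frobenius_both hΔ hp2 k
  have hnt := nontrivial_tors (W := W) hΔ hp2
  have hφy : φ • y₀ = y₀ := by
    rw [← hVi y₀ hy₀]; exact pow_smul_eq_self hk i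
  have hℓ1 : (ℓ : ZMod p) = 1 := by
    have h1 : IsCycloExp p φ (1 ^ i) := IsCycloExp.congr hμi (hμ.pow i)
    have := IsCycloExp.cast_eq (IsCycloExp.of_frobenius hℓ hℓp A hA hφ) h1
    rw [this]; simp
  -- `a_ℓ ≡ 2` from the relation at `y₀`
  have ha2 : (W.apOfModel ℓ : ZMod p) = 2 := by
    have hr := hJ.rel ℓ hℓ hℓS A hA φ hφ y₀ hy₀
    rw [hφy, hφy] at hr
    have h2 : ((1 : ℤ) - W.apOfModel ℓ + (ℓ : ℤ)) • y₀ = 0 := by
      rw [add_smul, sub_smul, one_smul, natCast_zsmul]; exact hr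
    have hord : addOrderOf y₀ = p := addOrderOf_eq_prime (hJ.tors y₀ hy₀) hne
    have hdvd : (p : ℤ) ∣ (1 : ℤ) - W.apOfModel ℓ + (ℓ : ℤ) := by
      rw [← hord]; exact (addOrderOf_dvd_iff_zsmul_eq_zero).mpr h2
    have h3 := (ZMod.intCast_zmod_eq_zero_iff_dvd _ p).mpr hdvd
    push_cast at h3
    rw [hℓ1] at h3
    linear_combination -h3
  -- `(f - 1)² = 0` on `W[p]`
  set f := rho W p φ with hf
  have hrelφ : ∀ x : Tors W p, f (f x) - (2 : ZMod p) • f x + x = 0 := by
    intro x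
    have h := rel_tors hrel hp2 hℓ hgood hℓp hA hφ x
    rw [← Int.cast_smul_eq_zsmul (ZMod p), ← Nat.cast_smul_eq_nsmul (ZMod p), ha2, hℓ1,
      one_smul] at h
    exact h
  have hfixφ : ∃ v : Tors W p, v ≠ 0 ∧ f v = v := by
    by_cases hsc : ∃ w : Tors W p, f w - w ≠ 0
    · obtain ⟨w, hw⟩ := hsc
      refine ⟨f w - w, hw, ?_⟩
      have h := hrelφ w
      rw [map_sub]
      have : f (f w) - f w - (f w - w) = f (f w) - (2 : ZMod p) • f w + w := by module
      exact sub_eq_zero.mp (this.trans h)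
    · push Not at hsc
      obtain ⟨v, hv⟩ := exists_ne (0 : Tors W p)
      exact ⟨v, hv, sub_eq_zero.mp (hsc v)⟩
  obtain ⟨v, hv, hfv⟩ := hfixφ
  refine ⟨v, hv, ?_⟩
  rw [← hTj v]
  exact pow_smul_eq_self hfv j

/-- the `χ`-line shape of the `E`-side gives a nonzero fixed vector. -/
theorem exists_fixed_of_line (L : Submodule (ZMod p) (Tors W p)) (hL : L ≠ ⊤) (τ : GQ) (c : ℕ)
    (hc1 : (c : ZMod p) ≠ 1) (h1 : ∀ x : Tors W p, τ • x - x ∈ L)
    (h2 : ∀ v ∈ L, τ • v = (c : ZMod p) • v) : ∃ v : Tors W p, v ≠ 0 ∧ τ • v = v := by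
  obtain ⟨w, hw⟩ : ∃ w : Tors W p, w ∉ L := by
    by_contra hcon
    push Not at hcon
    exact hL (eq_top_iff.mpr fun x _ => hcon x)
  set f := rho W p τ with hf
  set l : Tors W p := f w - w with hl
  have hlL : l ∈ L := h1 w
  have hfl : f l = (c : ZMod p) • l := h2 l hlL
  have hfw : f w = w + l := by rw [hl]; abel
  refine ⟨f w - (c : ZMod p) • w, ?_, ?_⟩
  · intro h0
    apply hw
    have h3 : ((1 : ZMod p) - (c : ZMod p)) • w = -l := by
      have : ((1 : ZMod p) - (c : ZMod p)) • w = (f w - (c : ZMod p) • w) - l := by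
        rw [hfw]; module
      rw [this, h0, zero_sub]
    have hne : (1 : ZMod p) - (c : ZMod p) ≠ 0 := fun h => hc1 (sub_eq_zero.mp h).symm
    have h4 : w = ((1 : ZMod p) - (c : ZMod p))⁻¹ • (-l) := by
      rw [← h3, smul_smul, inv_mul_cancel₀ hne, one_smul]
    rw [h4]
    exact L.smul_mem _ (L.neg_mem hlL)
  · change f (f w - (c : ZMod p) • w) = f w - (c : ZMod p) • w
    rw [map_sub, map_smul, hfw, map_add, hfl, hfw]
    module

/-- **END GAME.**  If some `τ₀` with exponent `c ≢ 1` on `μ_p` and a nonzero fixed vector in `W[p]`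
acts on the `H`-invariants of `V` as the scalar `c` (the conclusion of CORE), where `H` is a normal
subgroup acting trivially on `W[p]` and `μ_p`, then the irreducible `W[p]` would be reducible. -/
theorem JSide.false_of_core (hJ : JSide W p S V) (hΔ : W.Δ ≠ 0) (hrel : RelQbar W) (hp2 : p ≠ 2)
    (hirr : W.ModRepIsIrreducible p) [Finite V] (hV : V ≠ ⊥)
    (H : Subgroup GQ) [hHn : H.Normal] (hHE : ∀ h ∈ H, ∀ v : Tors W p, h • v = v)
    (hHμ : ∀ h ∈ H, IsCycloExp p h 1) (τ₀ : GQ) (c : ℕ) (hc : IsCycloExp p τ₀ c)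
    (hc1 : (c : ZMod p) ≠ 1) (hfix0 : ∃ v : Tors W p, v ≠ 0 ∧ τ₀ • v = v)
    (hcore : ∀ y ∈ V, (∀ h ∈ H, h • y = y) → τ₀ • y = c • y) : False := by
  -- `W₀ = V^H ≠ 0`
  obtain ⟨y₀, hy₀V, hy₀, hy₀H⟩ := exists_fixed_ne_zero (p := p) V hV hJ.tors H
    (fun h _ => hJ.stable h) (fun h hh => hJ.sub_one_sq hΔ hrel hp2 h (hHE h hh) (hHμ h hh))
  have hy₀W : y₀ ∈ fixedSub H V := ⟨hy₀V, hy₀H⟩
  have hstW : ∀ (g : GQ) {y : J}, y ∈ fixedSub H V → g • y ∈ fixedSub H V :=
    fun g _ hy => smul_mem_fixedSub hJ.stable g hy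
  have hτW : ∀ {y : J}, y ∈ fixedSub H V → τ₀ • y = c • y := fun hy => hcore _ hy.1 hy.2
  have hV2 := finrank_tors (W := W) hΔ hp2
  have hns := exists_not_isScalarOn hp2 hΔ hirr
  have hdet : LinearMap.det (rho W p τ₀) ≠ 1 := by
    rw [det_rho hΔ hrel hp2 hns τ₀ hc]; exact hc1
  have hcomm : ∀ g : GQ, ∃ v : Tors W p, v ≠ 0 ∧ rho W p (g⁻¹ * τ₀ * g * τ₀⁻¹) v = v := by
    intro g
    refine hJ.exists_fixed_of_fixed hΔ hrel hp2 hy₀V hy₀ _ ?_ ?_
    · -- the commutator fixes `y₀`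
      set z₀ : J := τ₀⁻¹ • y₀ with hz₀
      have hz₀W : z₀ ∈ fixedSub H V := hstW τ₀⁻¹ hy₀W
      have h1 : c • z₀ = y₀ := by
        rw [← hτW hz₀W, hz₀, smul_inv_smul]
      have h2 : τ₀ • g • z₀ = g • y₀ := by
        rw [hτW (hstW g hz₀W), ← h1]
        exact (map_nsmul (DistribSMul.toAddMonoidHom J g) c z₀).symm
      rw [mul_smul, mul_smul, mul_smul, ← hz₀, h2, inv_smul_smul]
    · -- the commutator is trivial on `μ_p`
      intro ζ hζ
      obtain ⟨d, hd⟩ := IsCycloExp.exists p g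
      set η : Qb := τ₀⁻¹ ζ with hη
      have hη1 : η ^ p = 1 := by rw [hη, ← map_pow, hζ, map_one]
      have hτη : τ₀ η = ζ := τ₀.apply_symm_apply ζ
      rw [pow_one, AlgEquiv.mul_apply, AlgEquiv.mul_apply, AlgEquiv.mul_apply, ← hη, hd η hη1,
        map_pow, hτη, ← hd ζ hζ]
      exact g.symm_apply_apply ζ
  obtain ⟨N, hbot, htop, hst⟩ :=
    exists_stable_line_of_commutator hV2 (rho W p) τ₀ hfix0 hdet hcomm
  rcases hirr.2 N (fun σ x hx => hst σ x hx) with h | h
  · exact hbot h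
  · exact htop h

end Cheb

end Fermat.Agent.M1.Glue.EndGame47
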