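/-
M1 (S44), chapter GLUE, helper47: **complements to `EndGame47`** requested by the glue (#570):
the invariants `W₀ = fixedSub H V` as an object of its own (finite, nonzero, Galois stable, again a
`JSide`), transport of a `JSide` along a Galois equivariant additive map (the pull-back to the
auxiliary level), and the end game in its `H`-free form:

* `false_of_scalar`: a NONZERO `JSide` subgroup `V` on which some `τ₀` (exponent `c ≢ 1` on
  `μ_p`, with a nonzero fixed vector in `W[p]`) acts as the scalar `c` cannot exist when `W[p]` is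
  irreducible.
* `jside_mono`, `jside_fixedSub`, `jside_map`, `map_ne_bot`, `finite_map`, `fixedSub_map`.
* `finite_fixedSub`, `fixedSub_ne_bot`, `jside_fixedSub_ne_bot`.
-/
import Mathlib
import Fermat.Agent.M1.Glue.EndGame47

set_option autoImplicit false

open WeierstrassCurve WeierstrassCurve.Affine WeierstrassCurve.Affine.Point

namespace Fermat.Agent.M1.Glue.FixedSub47

open Fermat.Agent.ES.Q58.TraceCong20 (RelQbar)
open Fermat.Agent.S52.TopWiring84 (Tors finrank_tors nontrivial_tors rel_tors)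
open Fermat.Agent.S52.C.DetCyclo47
open Fermat.Agent.M1.Glue.EndGame47

local notation "Qb" => AlgebraicClosure ℚ
local notation "GQ" => (AlgebraicClosure ℚ ≃ₐ[ℚ] AlgebraicClosure ℚ)

/-! ### The invariants as a subgroup -/

section Abstract

variable {Γ : Type*} [Group Γ] {J : Type*} [AddCommGroup J] [DistribMulAction Γ J]

theorem finite_fixedSub (H : Subgroup Γ) (V : AddSubgroup J) [Finite V] :
    Finite (fixedSub H V) :=
  Finite.of_injective (AddSubgroup.inclusion (fixedSub_le H V))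
    (AddSubgroup.inclusion_injective (fixedSub_le H V))

theorem fixedSub_ne_bot {p : ℕ} [hp : Fact p.Prime] (V : AddSubgroup J) [Finite V]
    (hV : V ≠ ⊥) (htors : ∀ y ∈ V, p • y = 0) (H : Subgroup Γ)
    (hst : ∀ h ∈ H, ∀ y ∈ V, h • y ∈ V)
    (hN : ∀ h ∈ H, ∀ y ∈ V, h • h • y - 2 • (h • y) + y = 0) : fixedSub H V ≠ ⊥ := by
  obtain ⟨y, hyV, hy, hyH⟩ := exists_fixed_ne_zero V hV htors H hst hN
  intro h
  have hmem : y ∈ fixedSub H V := ⟨hyV, hyH⟩
  rw [h] at hmem
  exact hy (AddSubgroup.mem_bot.mp hmem)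

variable {J' : Type*} [AddCommGroup J'] [DistribMulAction Γ J']

/-- an additive map which is injective on `V` maps `V ≠ ⊥` to a nonzero subgroup. -/
theorem map_ne_bot {V : AddSubgroup J} (f : J →+ J') (hinj : ∀ y ∈ V, f y = 0 → y = 0)
    (hV : V ≠ ⊥) : V.map f ≠ ⊥ := by
  intro h
  apply hV
  rw [AddSubgroup.eq_bot_iff_forall]
  intro y hy
  have hmem : f y ∈ V.map f := AddSubgroup.mem_map_of_mem f hy
  rw [h] at hmem
  exact hinj y hy (AddSubgroup.mem_bot.mp hmem)

theorem finite_map {V : AddSubgroup J} [Finite V] (f : J →+ J') : Finite (V.map f) := by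
  have hsurj : Function.Surjective
      (fun y : V => (⟨f y, AddSubgroup.mem_map_of_mem f y.2⟩ : V.map f)) := by
    rintro ⟨z, y, hy, rfl⟩
    exact ⟨⟨y, hy⟩, rfl⟩
  exact Finite.of_surjective _ hsurj

/-- the invariants of the image under an equivariant map injective on `V` are the image of the
invariants. -/
theorem fixedSub_map (H : Subgroup Γ) {V : AddSubgroup J} (f : J →+ J')
    (hf : ∀ (g : Γ), ∀ y ∈ V, f (g • y) = g • f y) (hst : ∀ (g : Γ), ∀ y ∈ V, g • y ∈ V)
    (hinj : ∀ y ∈ V, f y = 0 → y = 0) :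
    fixedSub H (V.map f) = (fixedSub H V).map f := by
  ext z
  constructor
  · rintro ⟨⟨y, hy, rfl⟩, hz⟩
    refine ⟨y, ⟨hy, fun h hh => ?_⟩, rfl⟩
    have h1 : f (h • y - y) = 0 := by
      rw [map_sub, hf h y hy, hz h hh, sub_self]
    exact sub_eq_zero.mp (hinj _ (V.sub_mem (hst h y hy) hy) h1)
  · rintro ⟨y, ⟨hy, hyH⟩, rfl⟩
    refine ⟨AddSubgroup.mem_map_of_mem f hy, fun h hh => ?_⟩
    rw [← hf h y hy, hyH h hh]

end Abstract

/-! ### Operations on the `J`-side -/

section JSideOps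

variable {W : WeierstrassCurve ℤ} {p : ℕ} [hp : Fact p.Prime]
variable {J : Type*} [AddCommGroup J] [DistribMulAction GQ J] {S : Finset ℕ} {V : AddSubgroup J}

omit hp in
/-- a Galois stable subgroup of a `JSide` subgroup is a `JSide` subgroup. -/
theorem jside_mono (hJ : JSide W p S V) {V' : AddSubgroup J} (hle : V' ≤ V)
    (hst : ∀ (g : GQ), ∀ y ∈ V', g • y ∈ V') : JSide W p S V' where
  tors := fun y hy => hJ.tors y (hle hy)
  stable := hst
  level := by
    obtain ⟨L, hL, h⟩ := hJ.level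
    exact ⟨L, hL, fun σ hσ y hy => h σ hσ y (hle hy)⟩
  rel := fun ℓ hℓ hℓS A hA φ hφ y hy => hJ.rel ℓ hℓ hℓS A hA φ hφ y (hle hy)

omit hp in
/-- the invariants of a normal subgroup form a `JSide` subgroup. -/
theorem jside_fixedSub (hJ : JSide W p S V) (H : Subgroup GQ) [H.Normal] :
    JSide W p S (fixedSub H V) :=
  jside_mono hJ (fixedSub_le H V) (fun g _ hy => smul_mem_fixedSub hJ.stable g hy)

omit hp in
/-- **Transport** of the `J`-side along an additive map which is Galois equivariant on `V`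
(e.g. the pull-back to an auxiliary level). -/
theorem jside_map {J' : Type*} [AddCommGroup J'] [DistribMulAction GQ J'] (hJ : JSide W p S V)
    (f : J →+ J') (hf : ∀ (g : GQ), ∀ y ∈ V, f (g • y) = g • f y) : JSide W p S (V.map f) where
  tors := by
    rintro _ ⟨y, hy, rfl⟩
    rw [← map_nsmul, hJ.tors y hy, _root_.map_zero]
  stable := by
    rintro g _ ⟨y, hy, rfl⟩
    rw [← hf g y hy]
    exact AddSubgroup.mem_map_of_mem f (hJ.stable g y hy)
  level := by
    obtain ⟨L, hL, h⟩ := hJ.level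
    refine ⟨L, hL, ?_⟩
    rintro σ hσ _ ⟨y, hy, rfl⟩
    rw [← hf σ y hy, h σ hσ y hy]
  rel := by
    rintro ℓ hℓ hℓS A hA φ hφ _ ⟨y, hy, rfl⟩
    have h1 := hJ.rel ℓ hℓ hℓS A hA φ hφ y hy
    have h2 : f (φ • φ • y) = φ • φ • f y := by
      rw [hf φ _ (hJ.stable φ y hy), hf φ y hy]
    rw [← h2, ← hf φ y hy, ← map_zsmul, ← map_nsmul, ← map_sub, ← map_add, h1, _root_.map_zero]

/-- the invariants are nonzero. -/
theorem jside_fixedSub_ne_bot (hJ : JSide W p S V) (hΔ : W.Δ ≠ 0) (hrel : RelQbar W)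
    (hp2 : p ≠ 2) [Finite V] (hV : V ≠ ⊥) (H : Subgroup GQ)
    (hHE : ∀ h ∈ H, ∀ v : Tors W p, h • v = v) (hHμ : ∀ h ∈ H, IsCycloExp p h 1) :
    EndGame47.fixedSub H V ≠ ⊥ :=
  FixedSub47.fixedSub_ne_bot (p := p) V hV hJ.tors H (fun h _ => hJ.stable h)
    (fun h hh => hJ.sub_one_sq hΔ hrel hp2 h (hHE h hh) (hHμ h hh))

/-- **END GAME, `H`-free form.**  A nonzero `JSide` subgroup on which `τ₀` (exponent `c ≢ 1` on
`μ_p`, with a nonzero fixed vector in `W[p]`) acts as the scalar `c` contradicts the irreducibility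
of `W[p]`. -/
theorem false_of_scalar (hJ : JSide W p S V) (hΔ : W.Δ ≠ 0) (hrel : RelQbar W)
    (hp2 : p ≠ 2) (hirr : W.ModRepIsIrreducible p) (hV : V ≠ ⊥) (τ₀ : GQ) (c : ℕ)
    (hc : IsCycloExp p τ₀ c) (hc1 : (c : ZMod p) ≠ 1)
    (hfix0 : ∃ v : Tors W p, v ≠ 0 ∧ τ₀ • v = v) (hscal : ∀ y ∈ V, τ₀ • y = c • y) : False := by
  obtain ⟨y₀, hy₀V, hy₀⟩ : ∃ y ∈ V, y ≠ 0 := by
    by_contra hcon
    push Not at hcon
    exact hV ((AddSubgroup.eq_bot_iff_forall V).mpr hcon)
  have hV2 := finrank_tors (W := W) hΔ hp2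
  have hns := exists_not_isScalarOn hp2 hΔ hirr
  have hdet : LinearMap.det (rho W p τ₀) ≠ 1 := by
    rw [det_rho hΔ hrel hp2 hns τ₀ hc]; exact hc1
  have hcomm : ∀ g : GQ, ∃ v : Tors W p, v ≠ 0 ∧ rho W p (g⁻¹ * τ₀ * g * τ₀⁻¹) v = v := by
    intro g
    refine hJ.exists_fixed_of_fixed hΔ hrel hp2 hy₀V hy₀ _ ?_ ?_
    · set z₀ : J := τ₀⁻¹ • y₀ with hz₀
      have hz₀V : z₀ ∈ V := hJ.stable τ₀⁻¹ y₀ hy₀V
      have h1 : c • z₀ = y₀ := by
        rw [← hscal z₀ hz₀V, hz₀, smul_inv_smul]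
      have h2 : τ₀ • g • z₀ = g • y₀ := by
        rw [hscal _ (hJ.stable g z₀ hz₀V), ← h1]
        exact (map_nsmul (DistribSMul.toAddMonoidHom J g) c z₀).symm
      rw [mul_smul, mul_smul, mul_smul, ← hz₀, h2, inv_smul_smul]
    · intro ζ hζ
      obtain ⟨d, hd⟩ := IsCycloExp.exists p g
      set η : Qb := τ₀⁻¹ ζ with hη
      have hη1 : η ^ p = 1 := by rw [hη, ← map_pow, hζ, map_one]
      have hτη : τ₀ η = ζ := τ₀.apply_symm_apply ζ
      rw [pow_one, AlgEquiv.mul_apply, AlgEquiv.mul_apply, AlgEquiv.mul_apply, ← hη, hd η hη1,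
        map_pow, hτη, ← hd ζ hζ]
      exact g.symm_apply_apply ζ
  obtain ⟨N, hbot, htop, hst⟩ :=
    exists_stable_line_of_commutator hV2 (rho W p) τ₀ hfix0 hdet hcomm
  rcases hirr.2 N (fun σ x hx => hst σ x hx) with h | h
  · exact hbot h
  · exact htop h

end JSideOps

end Fermat.Agent.M1.Glue.FixedSub47
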