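/-
M1 (S44), chapter GLU, helper47: **the supplier of (h4)**: a `p`-torsion Hecke eigenvector of
`J₀(M q)` whose system of eigenvalues does not occur in `J₀(M)[p]` is killed by both degeneracy
push-forwards `α_*`, `β_* : J₀(M q) → J₀(M)`; the same at an auxiliary level `M ∣ M''`.

Everything is a formal consequence of `LevelOps47` (Hecke equivariance of `α_*`, `β_*`, and base
change against `π^*`).  `S` is any set of excluded primes containing `q`; `a` any system of
eigenvalues.
-/
import Mathlib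
import Fermat.Agent.M1.Lvl.LevelOps47

set_option autoImplicit false
set_option linter.unusedSectionVars false

open ModularCurve AlgebraicCurve

noncomputable section

namespace Fermat.Agent.M1.Glue.PushZero47

open Fermat.Agent.ES.HECKE.LevelPullback12 Fermat.Agent.ES.HECKE.LevelCompatPic12
open Fermat.Agent.ES.N35.PushO12 Fermat.Agent.M1.Lvl.LevelOps47

variable {N M q : ℕ} [NeZero N] [NeZero M] [NeZero q]

/-- `α_*` maps `T_ℓ`-eigenvectors to `T_ℓ`-eigenvectors (`ℓ ≠ q`). -/
theorem alphaPush_eigen (hq : q.Prime) (hqM : ¬ q ∣ M) (l : Nat.Primes) (hlq : (l : ℕ) ≠ q)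
    (c : ℤ) (v : JZero (M * q)) (hv : heckeOperatorBar (M * q) l v = c • v) :
    heckeOperatorBar M l (alphaPush hq hqM v) = c • alphaPush hq hqM v := by
  rw [← alphaPush_heckeOperatorBar hq hqM l hlq, hv, map_zsmul]

/-- `β_*` maps `T_ℓ`-eigenvectors to `T_ℓ`-eigenvectors (`ℓ ≠ q`). -/
theorem betaPush_eigen (hq : q.Prime) (hqM : ¬ q ∣ M) (l : Nat.Primes) (hlq : (l : ℕ) ≠ q)
    (c : ℤ) (v : JZero (M * q)) (hv : heckeOperatorBar (M * q) l v = c • v) :
    heckeOperatorBar M l (betaPush hq hqM v) = c • betaPush hq hqM v := by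
  rw [← betaPush_heckeOperatorBar hq hqM l hlq, hv, map_zsmul]

/-- **(h4)**: if no nonzero `p`-torsion class of `J₀(M)` has the eigenvalues `a` (outside `S ∋ q`),
then every `p`-torsion eigenvector of `J₀(M q)` with these eigenvalues is killed by `α_*` and
`β_*`. -/
theorem push_eq_zero_of_no_eigen (hq : q.Prime) (hqM : ¬ q ∣ M) (p : ℕ) (S : Set ℕ)
    (hqS : q ∈ S) (a : Nat.Primes → ℤ)
    (hno : ∀ y : JZero M, p • y = 0 →
      (∀ l : Nat.Primes, (l : ℕ) ∉ S → heckeOperatorBar M l y = a l • y) → y = 0)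
    (v : JZero (M * q)) (hpv : p • v = 0)
    (hv : ∀ l : Nat.Primes, (l : ℕ) ∉ S → heckeOperatorBar (M * q) l v = a l • v) :
    alphaPush hq hqM v = 0 ∧ betaPush hq hqM v = 0 := by
  have hne : ∀ l : Nat.Primes, (l : ℕ) ∉ S → (l : ℕ) ≠ q := fun l hl h => hl (h ▸ hqS)
  refine ⟨hno _ ?_ fun l hl => alphaPush_eigen hq hqM l (hne l hl) _ v (hv l hl),
    hno _ ?_ fun l hl => betaPush_eigen hq hqM l (hne l hl) _ v (hv l hl)⟩
  · rw [← map_nsmul, hpv, map_zero]
  · rw [← map_nsmul, hpv, map_zero]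

/-- (h4) at an auxiliary level: `α_*` kills `π^* v` as soon as it kills `v`. -/
theorem alphaPush_levelPullback_eq_zero (h : N ∣ M) (hq : q.Prime) (hqM : ¬ q ∣ M)
    (v : JZero (N * q)) (hv : alphaPush hq (not_dvd_of_dvd h hqM) v = 0) :
    alphaPush hq hqM (levelPullback (mul_dvd_mul_right h q) v) = 0 := by
  rw [← levelPullback_alphaPush h hq hqM v, hv, map_zero]

/-- (h4) at an auxiliary level: `β_*` kills `π^* v` as soon as it kills `v`. -/
theorem betaPush_levelPullback_eq_zero (h : N ∣ M) (hq : q.Prime) (hqM : ¬ q ∣ M)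
    (v : JZero (N * q)) (hv : betaPush hq (not_dvd_of_dvd h hqM) v = 0) :
    betaPush hq hqM (levelPullback (mul_dvd_mul_right h q) v) = 0 := by
  rw [← levelPullback_betaPush h hq hqM v, hv, map_zero]

/-- **(h4) at the auxiliary level `M''`** for `π^* v`, `v` an eigenvector of level `M' q` whose
eigenvalues do not occur in `J₀(M')[p]`. -/
theorem push_levelPullback_eq_zero_of_no_eigen (h : N ∣ M) (hq : q.Prime) (hqM : ¬ q ∣ M)
    (p : ℕ) (S : Set ℕ) (hqS : q ∈ S) (a : Nat.Primes → ℤ)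
    (hno : ∀ y : JZero N, p • y = 0 →
      (∀ l : Nat.Primes, (l : ℕ) ∉ S → heckeOperatorBar N l y = a l • y) → y = 0)
    (v : JZero (N * q)) (hpv : p • v = 0)
    (hv : ∀ l : Nat.Primes, (l : ℕ) ∉ S → heckeOperatorBar (N * q) l v = a l • v) :
    alphaPush hq hqM (levelPullback (mul_dvd_mul_right h q) v) = 0 ∧
      betaPush hq hqM (levelPullback (mul_dvd_mul_right h q) v) = 0 := by
  obtain ⟨h1, h2⟩ := push_eq_zero_of_no_eigen hq (not_dvd_of_dvd h hqM) p S hqS a hno v hpv hv
  exact ⟨alphaPush_levelPullback_eq_zero h hq hqM v h1,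
    betaPush_levelPullback_eq_zero h hq hqM v h2⟩

end Fermat.Agent.M1.Glue.PushZero47
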