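/-
M1 (S44), chapter GLU, helper47: **the auxiliary level step** of the glue (design #406 §4 (i),
M1 COORD #1 item 1 (ii)).

`N' = M' p` is the level of `ρbar`, `M'' = lcm(M', 4)` the level of the model, `π^* =
levelPullback : J₀(M' p) → J₀(M'' p)`.  For a subgroup `V' ⊆ J₀(M' p)[p]` we put
`auxSub h V' := π^*(V')` and transport everything the CORE and the end game consume:

* `levelPullback_heckeOperatorBar` : `π^* T_ℓ = T_ℓ π^*` (`ℓ ∤ M`), `heckeOperatorBar` form;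
* `jside_auxSub` : the `J`-side (`EndGame47.JSide`) of `V'` passes to `π^*(V')`;
* `finite_auxSub`, `auxSub_ne_bot`, `eigen_auxSub`, `tors_auxSub`;
* `fixedSub_auxSub` : `(π^* V')^H = π^*(V'^H)` (so CORE may be applied to either);
* `push_auxSub_eq_zero` : (h4) `α_* = 0 = β_*` on `π^*(V')` from "no eigenvector at level `M'`";
* the concrete level: `auxM M' = lcm M' 4`, `four_dvd_auxM`, `dvd_auxM`, `not_dvd_auxM`,
  `levelPullback_auxM_eq_zero` (`π^*` is injective on torsion for `M' p ∣ auxM M' * p`),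
  and `auxV`, the packaged `π^*(V')` at level `auxM M' * p` with all of the above.
-/
import Mathlib
import Fermat.Agent.M1.Glue.FixedSub47
import Fermat.Agent.M1.Glue.PushZero47
import Fermat.Agent.ES.HECKE.LevelTop20
import Fermat.Agent.RED.LVL.LevelDegree17

set_option autoImplicit false
set_option linter.unusedSectionVars false

open ModularCurve AlgebraicCurve IntermediateField

noncomputable section

namespace Fermat.Agent.M1.Glue.AuxLevel47

open Fermat.Agent.ES.HECKE.LevelPullback12 Fermat.Agent.ES.HECKE.LevelCompatPic12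
open Fermat.Agent.ES.HECKE Fermat.Agent.ES.N35.PushO12 Fermat.Agent.ES.RED.PullbackInj12
open Fermat.Agent.M1.Lvl.LevelOps47 Fermat.Agent.M1.Glue.PushZero47
open Fermat.Agent.M1.Glue.EndGame47 Fermat.Agent.M1.Glue.FixedSub47

local notation "Qb" => AlgebraicClosure ℚ
local notation "GQ" => (AlgebraicClosure ℚ ≃ₐ[ℚ] AlgebraicClosure ℚ)

variable {N M : ℕ} [NeZero N] [NeZero M]

/-- **`π^* ∘ T_ℓ^{(N)} = T_ℓ^{(M)} ∘ π^*`**, `heckeOperatorBar` form (`ℓ ∤ M`). -/
theorem levelPullback_heckeOperatorBar (h : N ∣ M) (l : Nat.Primes) (hlM : ¬ (l : ℕ) ∣ M)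
    (x : JZero N) :
    levelPullback h (heckeOperatorBar N l x) = heckeOperatorBar M l (levelPullback h x) := by
  have : NeZero (l : ℕ) := ⟨l.2.ne_zero⟩
  rw [heckeOperatorBar_apply, heckeOperatorBar_apply]
  exact LevelTop20.levelPullback_heckeOperatorAlong h l.2 hlM x

/-- The pull-back `π^*(V)` of a subgroup of `J₀(N)` to level `M`. -/
def auxSub (h : N ∣ M) (V : AddSubgroup (JZero N)) : AddSubgroup (JZero M) :=
  V.map (levelPullback h)

theorem mem_auxSub {h : N ∣ M} {V : AddSubgroup (JZero N)} {z : JZero M} :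
    z ∈ auxSub h V ↔ ∃ y ∈ V, levelPullback h y = z := Iff.rfl

theorem levelPullback_mem_auxSub (h : N ∣ M) {V : AddSubgroup (JZero N)} {y : JZero N}
    (hy : y ∈ V) : levelPullback h y ∈ auxSub h V := ⟨y, hy, rfl⟩

section Transport

variable {W : WeierstrassCurve ℤ} {p : ℕ} {S : Finset ℕ} {V : AddSubgroup (JZero N)}

/-- the `J`-side passes to the auxiliary level. -/
theorem jside_auxSub (h : N ∣ M) (hJ : JSide W p S V) : JSide W p S (auxSub h V) :=
  jside_map hJ (levelPullback h) (fun g y _ => levelPullback_smul h g y)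

theorem finite_auxSub (h : N ∣ M) [Finite V] : Finite (auxSub h V) :=
  finite_map (levelPullback h)

theorem auxSub_ne_bot (h : N ∣ M) (hinj : ∀ y ∈ V, levelPullback h y = 0 → y = 0)
    (hV : V ≠ ⊥) : auxSub h V ≠ ⊥ :=
  map_ne_bot (levelPullback h) hinj hV

theorem tors_auxSub (h : N ∣ M) (m : ℕ) (hV : ∀ y ∈ V, m • y = 0) :
    ∀ z ∈ auxSub h V, m • z = 0 := by
  rintro _ ⟨y, hy, rfl⟩
  rw [← map_nsmul, hV y hy, map_zero]

/-- Hecke eigen-relations pass to the auxiliary level (`ℓ ∤ M`). -/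
theorem eigen_auxSub (h : N ∣ M) (l : Nat.Primes) (hlM : ¬ (l : ℕ) ∣ M) (c : ℤ)
    (hV : ∀ y ∈ V, heckeOperatorBar N l y = c • y) :
    ∀ z ∈ auxSub h V, heckeOperatorBar M l z = c • z := by
  rintro _ ⟨y, hy, rfl⟩
  rw [← levelPullback_heckeOperatorBar h l hlM, hV y hy, map_zsmul]

/-- **`(π^* V)^H = π^*(V^H)`** when `π^*` is injective on `V`. -/
theorem fixedSub_auxSub (h : N ∣ M) (H : Subgroup GQ)
    (hinj : ∀ y ∈ V, levelPullback h y = 0 → y = 0)
    (hst : ∀ (g : GQ), ∀ y ∈ V, g • y ∈ V) :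
    fixedSub H (auxSub h V) = auxSub h (fixedSub H V) :=
  fixedSub_map H (levelPullback h) (fun g y _ => levelPullback_smul h g y) hst hinj

end Transport

/-! ### (h4) at the auxiliary level -/

section PushZero

variable {q : ℕ} [NeZero q]

/-- **(h4) on `π^*(V)`**: if the eigen-system `a` does not occur in `J₀(N)[p]`, the degeneracy
push-forwards `α_*`, `β_* : J₀(M q) → J₀(M)` kill `π^*(V)` for every `p`-torsion eigen-subgroup
`V ⊆ J₀(N q)`. -/
theorem push_auxSub_eq_zero (h : N ∣ M) (hq : q.Prime) (hqM : ¬ q ∣ M) (p : ℕ) (S : Set ℕ)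
    (hqS : q ∈ S) (a : Nat.Primes → ℤ)
    (hno : ∀ y : JZero N, p • y = 0 →
      (∀ l : Nat.Primes, (l : ℕ) ∉ S → heckeOperatorBar N l y = a l • y) → y = 0)
    {V : AddSubgroup (JZero (N * q))} (htors : ∀ y ∈ V, p • y = 0)
    (heig : ∀ y ∈ V, ∀ l : Nat.Primes, (l : ℕ) ∉ S → heckeOperatorBar (N * q) l y = a l • y) :
    ∀ z ∈ auxSub (mul_dvd_mul_right h q) V,
      alphaPush hq hqM z = 0 ∧ betaPush hq hqM z = 0 := by
  rintro _ ⟨y, hy, rfl⟩
  exact push_levelPullback_eq_zero_of_no_eigen h hq hqM p S hqS a hno y (htors y hy) (heig y hy)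

end PushZero

/-! ### The concrete auxiliary level `lcm M' 4` -/

section Concrete

open Fermat.Agent.RED.Interface4 Fermat.Agent.RED.LVL.LevelDegree17 Fermat.Agent.X0.GNPsi
open Fermat.Agent.RED.BASE.Interface12

/-- the model level `M'' = lcm(M', 4)`. -/
def auxM (M' : ℕ) : ℕ := Nat.lcm M' 4

theorem dvd_auxM (M' : ℕ) : M' ∣ auxM M' := Nat.dvd_lcm_left M' 4

theorem four_dvd_auxM (M' : ℕ) : 4 ∣ auxM M' := Nat.dvd_lcm_right M' 4

theorem auxM_ne_zero {M' : ℕ} (hM' : M' ≠ 0) : auxM M' ≠ 0 :=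
  Nat.lcm_ne_zero hM' (by norm_num)

instance neZero_auxM (M' : ℕ) [NeZero M'] : NeZero (auxM M') := ⟨auxM_ne_zero (NeZero.ne M')⟩

theorem not_dvd_auxM {p M' : ℕ} (hp : p.Prime) (hp2 : p ≠ 2) (hpM : ¬ p ∣ M') :
    ¬ p ∣ auxM M' := by
  intro h
  have h1 : p ∣ M' * 4 := h.trans (Nat.lcm_dvd_mul M' 4)
  rcases (Nat.Prime.dvd_mul hp).mp h1 with h2 | h2
  · exact hpM h2
  · have h3 : p ∣ 2 ^ 2 := by norm_num; exact h2
    exact hp2 ((Nat.prime_dvd_prime_iff_eq hp Nat.prime_two).mp (hp.dvd_of_dvd_pow h3))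

/-- `auxLevel p (M' p) = lcm(M', 4) · p` for an odd prime `p ∤ M'`. -/
theorem auxLevel_mul_eq {p M' : ℕ} (hp : p.Prime) (hp2 : p ≠ 2) (hpM : ¬ p ∣ M') :
    auxLevel p (M' * p) = auxM M' * p := by
  unfold auxLevel auxM
  rw [if_neg hp2]
  apply Nat.dvd_antisymm
  · exact Nat.lcm_dvd (mul_dvd_mul_right (Nat.dvd_lcm_left M' 4) p)
      ((Nat.dvd_lcm_right M' 4).trans (dvd_mul_right _ p))
  · have hcop : Nat.Coprime (Nat.lcm M' 4) p :=
      ((Nat.Prime.coprime_iff_not_dvd hp).mpr (not_dvd_auxM hp hp2 hpM)).symm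
    exact hcop.mul_dvd_of_dvd_of_dvd
      (Nat.lcm_dvd ((dvd_mul_right M' p).trans (Nat.dvd_lcm_left _ 4)) (Nat.dvd_lcm_right _ 4))
      ((dvd_mul_left p M').trans (Nat.dvd_lcm_left _ 4))

variable {p M' : ℕ} [NeZero M'] [NeZero p]

/-- **`π^* : J₀(M' p) → J₀(lcm(M',4) p)` is injective on torsion.** -/
theorem levelPullback_auxM_eq_zero (hp : p.Prime) (hp2 : p ≠ 2) (hpM : ¬ p ∣ M') (m : ℕ)
    (hm : 0 < m) (x : JZero (M' * p)) (hmx : m • x = 0)
    (hx : levelPullback (mul_dvd_mul_right (dvd_auxM M') p) x = 0) : x = 0 := by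
  have hdvd : M' * p ∣ auxM M' * p := mul_dvd_mul_right (dvd_auxM M') p
  obtain ⟨e, he⟩ := hdvd
  have : NeZero e := ⟨fun h0 => NeZero.ne (auxM M' * p) (by rw [he, h0, mul_zero])⟩
  have hN0 : M' * p ≠ 0 := NeZero.ne (M' * p)
  have hdiv : auxM M' * p / (M' * p) = e := by
    rw [he]; exact Nat.mul_div_cancel_left e (Nat.pos_of_ne_zero hN0)
  have h2 := psi_auxLevel_lt p hN0
  rw [auxLevel_mul_eq hp hp2 hpM, hdiv] at h2
  have h1 := psi_mul_relfinrank (mul_dvd_mul_right (dvd_auxM M') p : M' * p ∣ auxM M' * p)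
  have hdeg : relfinrank (Fbar (M' * p)) (Fbar (auxM M' * p)) < 2 * e := by
    rw [← h1] at h2
    have h4 : dedekindPsi (M' * p) * relfinrank (Fbar (M' * p)) (Fbar (auxM M' * p)) <
        dedekindPsi (M' * p) * (2 * e) := by
      calc _ < 2 * e * dedekindPsi (M' * p) := h2
        _ = _ := by ring
    exact Nat.lt_of_mul_lt_mul_left h4
  exact levelPullback_eq_zero_of_degree e he hdeg m hm x hmx hx

/-- **The glue's subgroup at the model level**: `π^*(V')` in `J₀(lcm(M',4) · p)`. -/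
def auxV (M' p : ℕ) [NeZero M'] [NeZero p] (V' : AddSubgroup (JZero (M' * p))) :
    AddSubgroup (JZero (auxM M' * p)) :=
  auxSub (mul_dvd_mul_right (dvd_auxM M') p) V'

variable {W : WeierstrassCurve ℤ} {S : Finset ℕ} {V' : AddSubgroup (JZero (M' * p))}

theorem jside_auxV (hJ : JSide W p S V') : JSide W p S (auxV M' p V') :=
  jside_auxSub _ hJ

theorem finite_auxV [Finite V'] : Finite (auxV M' p V') := finite_auxSub _

/-- `π^*` is injective on a `p`-torsion subgroup `V'`. -/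
theorem levelPullback_auxM_inj_on (hp : p.Prime) (hp2 : p ≠ 2) (hpM : ¬ p ∣ M')
    (htors : ∀ y ∈ V', p • y = 0) :
    ∀ y ∈ V', levelPullback (mul_dvd_mul_right (dvd_auxM M') p) y = 0 → y = 0 :=
  fun y hy h0 => levelPullback_auxM_eq_zero hp hp2 hpM p hp.pos y (htors y hy) h0

theorem auxV_ne_bot (hp : p.Prime) (hp2 : p ≠ 2) (hpM : ¬ p ∣ M')
    (htors : ∀ y ∈ V', p • y = 0) (hV' : V' ≠ ⊥) : auxV M' p V' ≠ ⊥ :=
  auxSub_ne_bot _ (levelPullback_auxM_inj_on hp hp2 hpM htors) hV'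

theorem tors_auxV (m : ℕ) (htors : ∀ y ∈ V', m • y = 0) : ∀ z ∈ auxV M' p V', m • z = 0 :=
  tors_auxSub _ m htors

/-- eigen-relations at the model level (`ℓ ∤ lcm(M',4) · p`, i.e. `ℓ ∤ 2 M' p`). -/
theorem eigen_auxV (l : Nat.Primes) (hl : ¬ (l : ℕ) ∣ auxM M' * p) (c : ℤ)
    (hV : ∀ y ∈ V', heckeOperatorBar (M' * p) l y = c • y) :
    ∀ z ∈ auxV M' p V', heckeOperatorBar (auxM M' * p) l z = c • z :=
  eigen_auxSub _ l hl c hV

/-- `ℓ ∤ 2 M' p` is what "`ℓ ∤` the model level" means. -/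
theorem not_dvd_auxM_mul {l : ℕ} (hl : l.Prime) (hl2 : l ≠ 2) (hlM : ¬ l ∣ M') (hlp : ¬ l ∣ p) :
    ¬ l ∣ auxM M' * p := by
  intro h
  rcases (Nat.Prime.dvd_mul hl).mp h with h1 | h1
  · exact not_dvd_auxM hl hl2 hlM h1
  · exact hlp h1

theorem fixedSub_auxV (hp : p.Prime) (hp2 : p ≠ 2) (hpM : ¬ p ∣ M')
    (htors : ∀ y ∈ V', p • y = 0) (hst : ∀ (g : GQ), ∀ y ∈ V', g • y ∈ V') (H : Subgroup GQ) :
    fixedSub H (auxV M' p V') = auxV M' p (fixedSub H V') :=
  fixedSub_auxSub _ H (levelPullback_auxM_inj_on hp hp2 hpM htors) hst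

/-- **(h4) at the model level**: `α_* = 0 = β_*` on `π^*(V')` as soon as the eigen-system `a` of
`V'` does not occur in `J₀(M')[p]`. -/
theorem push_auxV_eq_zero (hp : p.Prime) (hp2 : p ≠ 2) (hpM : ¬ p ∣ M') (S' : Set ℕ)
    (hpS : p ∈ S') (a : Nat.Primes → ℤ)
    (hno : ∀ y : JZero M', p • y = 0 →
      (∀ l : Nat.Primes, (l : ℕ) ∉ S' → heckeOperatorBar M' l y = a l • y) → y = 0)
    (htors : ∀ y ∈ V', p • y = 0)
    (heig : ∀ y ∈ V', ∀ l : Nat.Primes, (l : ℕ) ∉ S' →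
      heckeOperatorBar (M' * p) l y = a l • y) :
    ∀ z ∈ auxV M' p V',
      alphaPush hp (not_dvd_auxM hp hp2 hpM) z = 0 ∧
        betaPush hp (not_dvd_auxM hp hp2 hpM) z = 0 :=
  push_auxSub_eq_zero (dvd_auxM M') hp (not_dvd_auxM hp hp2 hpM) p S' hpS a hno htors heig

end Concrete

end Fermat.Agent.M1.Glue.AuxLevel47
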