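/-
M1 (S44, level lowering at `p`), chapter GLUE, brick TE (helper44).

**The dictionary between mod `p` Hecke eigenvectors in the `p`-torsion of `J₀(N)(ℚbar)` and
normalised eigenforms of level `N`.**

Let `S ⊇ {primes of N}` be a finite set of primes and `a : ℕ → ℤ` a system of integers.  Write
`D(N) := proj 1 (T_p J₀(N)) ⊆ J₀(N)(ℚbar)[p]` for the `p`-torsion points which are infinitely
`p`-divisible inside the `p`-power torsion (in truth all of `J₀(N)[p]`; the library does not know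
that, and it is never needed: `D(N)` is stable under Galois, Hecke and every homomorphism
`J₀(N) → J₀(N')`).

* `IsResModular p N S a` : some normalised eigenform of level `N` is congruent to `a` modulo a maximal
  ideal over `p`, at all primes outside `S`;
* `isResModular_of_ann` **(A1)**: if every polynomial `s` in the `T_ℓ` (`ℓ ∉ S`) which vanishes in the
  Hecke algebra of level `N` has `p ∣ s(a)`, then `IsResModular p N S a` (Deligne–Serre lifting on the
  lattice `Λ_N`, `DSNew8`, and FAITH);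
* `exists_poly_of_not_isResModular` **(h7')**: the contrapositive: if `a` is not residually modular of
  level `N` there is `s` with `s(T) = 0` in the Hecke algebra of level `N` and `p ∤ s(a)`;
* `isResModular_of_tate_eigenvector` **(A)**: a nonzero `y ∈ D(N)` with `T_ℓ y = a_ℓ y` for all
  primes `ℓ ∉ S` gives `IsResModular p N S a` (through the comparison `Λ_N ⊗ ℤ_p ≃ T_p J₀(N)` of
  `HeckeTate26`);
* `exists_tate_eigenvector_of_isResModular` **(B)**: conversely `IsResModular p N S a` produces a nonzero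
  `y ∈ D(N)` with `T_ℓ y = a_ℓ y` for all primes `ℓ ∉ S` (reduction of a complex eigenvector along a
  valuation ring dominating `𝔪`, `Occur16.exists_reduction`, then descent of the eigenvector from the
  residue field to `𝔽_p` by a linear form).
-/
import Mathlib
import Fermat.Agent.ES.N35.QNewCore19
import Fermat.Agent.ES.N35.SepPoly2
import Fermat.Agent.ES.LR.DSNew8
import Fermat.Agent.ES.LR.Occur16

set_option autoImplicit false
set_option linter.unusedSectionVars false
set_option linter.style.haveILetI false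
set_option synthInstance.maxHeartbeats 400000

open TensorProduct CuspForm ModularCurve CongruenceSubgroup

noncomputable section

namespace Fermat.Agent.M1.Glue.TorsionEigen44

open Fermat.Agent.ES.J.TateJZero13 Fermat.Agent.ES.J.TateModule13
open Fermat.Agent.ES.HEQ.FaithInst26 Fermat.Agent.ES.HEQ.FaithFinal26
open Fermat.Agent.ES.K.HeckeTate26 Fermat.Agent.ES.N35.QNewCore19
open Fermat.Agent.ES.LR.DSNew8 Fermat.Agent.ES.LR.Final12

/-! ### generalities -/

/-- `evalChar p a` is evaluation at `a` followed by reduction mod `p`. -/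
theorem evalChar_eq_cast {ι : Type*} (p : ℕ) (a : ι → ℤ) (s : MvPolynomial ι ℤ) :
    evalChar p a s = ((MvPolynomial.eval a s : ℤ) : ZMod p) := by
  have h : evalChar p a = (Int.castRingHom (ZMod p)).comp (MvPolynomial.eval a) := by
    apply MvPolynomial.ringHom_ext
    · intro r
      simp [evalChar]
    · intro i
      simp [evalChar]
  rw [h]
  rfl

/-- an element of order dividing the prime `p` killed by `n` is zero unless `p ∣ n`. -/
theorem dvd_of_zsmul_eq_zero {J : Type*} [AddCommGroup J] {p : ℕ} (hp : p.Prime) {y : J}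
    (hy : y ≠ 0) (hpy : p • y = 0) {n : ℤ} (hn : n • y = 0) : (p : ℤ) ∣ n := by
  by_contra hnd
  have hcop : IsCoprime (p : ℤ) n :=
    (Nat.prime_iff_prime_int.mp hp).irreducible.coprime_iff_not_dvd.mpr hnd
  obtain ⟨u, v, huv⟩ := hcop
  apply hy
  have h1 : ((u * (p : ℤ) + v * n : ℤ)) • y = 0 := by
    rw [add_smul, mul_smul, mul_smul, hn, smul_zero, add_zero, natCast_zsmul, hpy, smul_zero]
  rw [huv, one_smul] at h1
  exact h1

variable {p : ℕ} [hp : Fact p.Prime] {N : ℕ} [NeZero N]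

theorem sum_mul_single {ι : Type*} [Fintype ι] [DecidableEq ι] (c : ι → ℤ) (k : ι) :
    ∑ x, c x * (Finsupp.single x (1 : ℤ)) k = c k := by
  rw [Finset.sum_eq_single k (fun j _ hj => by rw [Finsupp.single_apply, if_neg hj, mul_zero])
    (fun h => absurd (Finset.mem_univ k) h), Finsupp.single_eq_same, mul_one]

/-- the double coset operators on `Λ_N` commute (same proof as `Assemble12.dcZ_commute`). -/
theorem dcZ_commute' (l l' : ℕ) (hl : l.Prime) (hlN : ¬ l ∣ N)
    (hl' : l'.Prime) (hl'N : ¬ l' ∣ N) :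
    Commute (dcZ N l hl hlN) (dcZ N l' hl' hl'N) := by
  have hS : ∀ q : ℕ, q.Prime → q ∣ N → q ∈ {r : ℕ | r.Prime ∧ r ∣ N} := fun q hq hqN => ⟨hq, hqN⟩
  have hlS : l ∉ {r : ℕ | r.Prime ∧ r ∣ N} := fun h => hlN h.2
  have hl'S : l' ∉ {r : ℕ | r.Prime ∧ r ∣ N} := fun h => hl'N h.2
  rw [← heckeLam_T' _ hS l hl hlN hlS, ← heckeLam_T' _ hS l' hl' hl'N hl'S]
  show _ * _ = _ * _
  rw [← map_mul, ← map_mul, mul_comm]

/-! ### (A) from a torsion eigenvector to an eigenform -/

section A

variable (S : Finset ℕ) (hNS : ∀ r : ℕ, r.Prime → r ∣ N → r ∈ S)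

/-- the family of double coset operators on `Λ_N` indexed by the primes outside `S`. -/
def dcFam : PIdx S → Module.End ℤ ↥(Lam N) := fun i => dcZ N i i.2.1 (i.not_dvd hNS)

theorem dcFam_commute (i j : PIdx S) : Commute (dcFam S hNS i) (dcFam S hNS j) :=
  dcZ_commute' _ _ _ _ _ _

/-- `heckeLam` of a polynomial in the `T_ℓ` is the polynomial action of the double coset
operators. -/
theorem heckeLam_aeval (hS : ∀ q : ℕ, q.Prime → q ∣ N → q ∈ (↑S : Set ℕ))
    (s : MvPolynomial (PIdx S) ℤ) :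
    heckeLam (↑S : Set ℕ) hS (MvPolynomial.aeval (TfamQ N S hNS) s) =
      polyAct (dcFam S hNS) (dcFam_commute S hNS) s := by
  have h2 : (heckeLam (↑S : Set ℕ) hS).comp (MvPolynomial.aeval (TfamQ N S hNS)) =
      polyAct (dcFam S hNS) (dcFam_commute S hNS) := by
    apply MvPolynomial.algHom_ext
    intro i
    rw [AlgHom.comp_apply, MvPolynomial.aeval_X, polyAct_X]
    exact heckeLam_T' (↑S : Set ℕ) hS i i.2.1 (i.not_dvd hNS) i.not_mem_coe
  exact AlgHom.congr_fun h2 s

/-- **the eigen-computation**: on a point `y = proj 1 x` of the divisible `p`-torsion which is an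
eigenvector of the `T_ℓ`, `ℓ ∉ S`, a polynomial `s` in the Hecke operators acts through its value at
the eigenvalues. -/
theorem proj_evJZ_aeval (hS : ∀ q : ℕ, q.Prime → q ∣ N → q ∈ (↑S : Set ℕ))
    (a : ℕ → ℤ) (x : TJ p N)
    (heig : ∀ i : PIdx S, heckeOperatorBar N ⟨i, i.2.1⟩ (proj 1 x) = a i • proj 1 x)
    (s : MvPolynomial (PIdx S) ℤ) :
    proj 1 (evJZ p S N hS (MvPolynomial.aeval (TfamQ N S hNS) s) x) =
      (MvPolynomial.eval (fun i : PIdx S => a i) s) • proj 1 x := by
  induction s using MvPolynomial.induction_on with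
  | C n =>
    rw [MvPolynomial.aeval_C, AlgHom.commutes, Module.algebraMap_end_apply, MvPolynomial.eval_C,
      map_zsmul]
  | add s t hs ht =>
    rw [map_add, map_add, LinearMap.add_apply, map_add, hs, ht, map_add]
    exact (add_zsmul _ _ _).symm
  | mul_X s i hs =>
    have hc : MvPolynomial.aeval (TfamQ N S hNS) (s * MvPolynomial.X i) =
        TfamQ N S hNS i * MvPolynomial.aeval (TfamQ N S hNS) s := by
      rw [map_mul, MvPolynomial.aeval_X, mul_comm]
    have h1 : proj 1 (evJZ p S N hS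
        (TfamQ N S hNS i * MvPolynomial.aeval (TfamQ N S hNS) s) x) =
        heckeOperatorBar N ⟨i, i.2.1⟩
          (proj 1 (evJZ p S N hS (MvPolynomial.aeval (TfamQ N S hNS) s) x)) := by
      rw [map_mul, evJZ_TfamQ, Module.End.mul_apply]
      exact proj_tT _ _ _
    have h0 : proj 1 (evJZ p S N hS
        (MvPolynomial.aeval (TfamQ N S hNS) (s * MvPolynomial.X i)) x) =
        proj 1 (evJZ p S N hS
          (TfamQ N S hNS i * MvPolynomial.aeval (TfamQ N S hNS) s) x) :=
      congrArg (fun T => proj 1 (evJZ p S N hS T x)) hc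
    refine h0.trans (h1.trans ?_)
    have h2 : heckeOperatorBar N ⟨i, i.2.1⟩
        (proj 1 (evJZ p S N hS (MvPolynomial.aeval (TfamQ N S hNS) s) x)) =
        heckeOperatorBar N ⟨i, i.2.1⟩
          ((MvPolynomial.eval (fun i : PIdx S => a i) s) • proj 1 x) := congrArg _ hs
    have h3 : heckeOperatorBar N ⟨i, i.2.1⟩
        ((MvPolynomial.eval (fun i : PIdx S => a i) s) • proj 1 x) =
        (MvPolynomial.eval (fun i : PIdx S => a i) s) •
          heckeOperatorBar N ⟨i, i.2.1⟩ (proj 1 x) := map_zsmul _ _ _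
    have h4 : (MvPolynomial.eval (fun i : PIdx S => a i) s) •
          heckeOperatorBar N ⟨i, i.2.1⟩ (proj 1 x) =
        (MvPolynomial.eval (fun i : PIdx S => a i) s) • (a i • proj 1 x) :=
      congrArg (fun t => (MvPolynomial.eval (fun i : PIdx S => a i) s) • t) (heig i)
    have h5 : MvPolynomial.eval (fun i : PIdx S => a i) (s * MvPolynomial.X i) =
        MvPolynomial.eval (fun i : PIdx S => a i) s * a i := by
      rw [map_mul, MvPolynomial.eval_X]
    have h6 : (MvPolynomial.eval (fun i : PIdx S => a i) s) • (a i • proj 1 x) =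
        (MvPolynomial.eval (fun i : PIdx S => a i) s * a i) • proj 1 x :=
      smul_smul _ _ _
    have h7 : (MvPolynomial.eval (fun i : PIdx S => a i) s * a i) • proj 1 x =
        (MvPolynomial.eval (fun i : PIdx S => a i) (s * MvPolynomial.X i)) • proj 1 x :=
      congrArg (fun t : ℤ => t • proj 1 x) h5.symm
    exact h2.trans (h3.trans (h4.trans (h6.trans h7)))

/-- **residual modularity of level `N` away from `S`**: some normalised eigenform of level `N` has
`ℓ`-th coefficient congruent to `a ℓ` modulo a maximal ideal over `p`, for all primes `ℓ ∉ S`. -/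
def IsResModular (p N : ℕ) (S : Finset ℕ) (a : ℕ → ℤ) : Prop :=
  ∃ (f : CuspForm (Gamma0 N) 2) (𝔪 : Ideal (integralClosure ℤ ℂ)),
    f.IsNormalizedEigenform ∧ 𝔪.IsMaximal ∧ (p : integralClosure ℤ ℂ) ∈ 𝔪 ∧
    ∀ ℓ : ℕ, ℓ.Prime → ℓ ∉ S →
      ∃ α : integralClosure ℤ ℂ, (α : ℂ) = ModularFormClass.qCoeff f ℓ ∧
        α - ((a ℓ : ℤ) : integralClosure ℤ ℂ) ∈ 𝔪

/-- **(A1)**: if every polynomial in the `T_ℓ`, `ℓ ∉ S`, which vanishes in the Hecke algebra of level
`N` takes a value divisible by `p` at `a`, then `a` is residually modular of level `N`. -/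
theorem isResModular_of_ann (a : ℕ → ℤ)
    (hann : ∀ s : MvPolynomial (PIdx S) ℤ, MvPolynomial.aeval (TfamQ N S hNS) s = 0 →
      (p : ℤ) ∣ MvPolynomial.eval (fun i : PIdx S => a i) s) :
    IsResModular p N S a := by
  classical
  have hS : ∀ q : ℕ, q.Prime → q ∣ N → q ∈ (↑S : Set ℕ) :=
    fun q hq hqN => Finset.mem_coe.mpr (hNS q hq hqN)
  -- polynomials killing `Λ` vanish at `a` modulo `p`
  have hAnn : ∀ s : MvPolynomial (PIdx S) ℤ,
      (∀ l : ↥(Lam N), (0 : ↥(Lam N) →ₗ[ℤ] ↥(Lam N)) l = 0 → (0 : ↥(Lam N) →ₗ[ℤ] ↥(Lam N)) l = 0 →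
        polyAct (dcFam S hNS) (dcFam_commute S hNS) s l = 0) →
      evalChar p (fun i : PIdx S => a i) s = 0 := by
    intro s hs
    have h1 : MvPolynomial.aeval (TfamQ N S hNS) s = 0 := by
      apply heckeLam_injective (↑S : Set ℕ) hS
      rw [map_zero, heckeLam_aeval S hNS hS s]
      apply LinearMap.ext
      intro l
      exact hs l rfl rfl
    rw [evalChar_eq_cast]
    exact (ZMod.intCast_zmod_eq_zero_iff_dvd _ p).mpr (hann s h1)
  obtain ⟨lam, 𝔪', w, hmax, hp𝔪, hw0, -, -, heigw, hcong⟩ :=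
    exists_new_eigensystem_of_ann (dcFam S hNS) (dcFam_commute S hNS) hp.out
      (fun i : PIdx S => a i) (0 : ↥(Lam N) →ₗ[ℤ] ↥(Lam N)) (0 : ↥(Lam N) →ₗ[ℤ] ↥(Lam N))
      (fun _ _ _ _ => ⟨rfl, rfl⟩) hAnn
  -- the complex parabolic hom
  let lam' : ℕ → ℂ := fun ℓ => if h : ℓ.Prime ∧ ℓ ∉ S then ((lam ⟨ℓ, h⟩ : integralClosure ℤ ℂ) : ℂ)
    else 0
  have hlam' : ∀ i : PIdx S, lam' (i : ℕ) = ((lam i : integralClosure ℤ ℂ) : ℂ) := fun i => by
    simp only [lam']
    rw [dif_pos i.2]
  obtain ⟨f, hf, hcoef⟩ := Fermat.Agent.ES.N35.SepPoly2.exists_eigenform_of_hom_eigenvector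
    (M := N) (fun ℓ => ℓ ∉ S) lam' (bcPar N w) (bcPar_mem N w) (bcPar_ne_zero N hw0) (by
      intro ℓ hℓ hℓN hℓS
      rw [← bcPar_dcZ ℓ hℓ hℓN w]
      have h1 := heigw ⟨ℓ, hℓ, hℓS⟩
      have h2 : dcFam S hNS ⟨ℓ, hℓ, hℓS⟩ = dcZ N ℓ hℓ hℓN := rfl
      rw [h2] at h1
      rw [h1, map_smul, hlam' ⟨ℓ, hℓ, hℓS⟩])
  refine ⟨f, 𝔪', hf, hmax, hp𝔪, fun ℓ hℓ hℓS => ⟨lam ⟨ℓ, hℓ, hℓS⟩, ?_, hcong ⟨ℓ, hℓ, hℓS⟩⟩⟩
  rw [hcoef ℓ hℓ (fun hd => hℓS (hNS ℓ hℓ hd)) hℓS]
  exact (hlam' ⟨ℓ, hℓ, hℓS⟩).symm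

/-- **(h7')**: if `a` is not residually modular of level `N` (away from `S`), some polynomial in the
`T_ℓ`, `ℓ ∉ S`, vanishes in the Hecke algebra of level `N` and takes a value prime to `p` at `a`. -/
theorem exists_poly_of_not_isResModular (a : ℕ → ℤ) (h : ¬ IsResModular p N S a) :
    ∃ s : MvPolynomial (PIdx S) ℤ, MvPolynomial.aeval (TfamQ N S hNS) s = 0 ∧
      ¬ (p : ℤ) ∣ MvPolynomial.eval (fun i : PIdx S => a i) s := by
  by_contra hcon
  apply h
  apply isResModular_of_ann S hNS a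
  intro s hs
  by_contra hnd
  exact hcon ⟨s, hs, hnd⟩

/-- a polynomial in the `T_ℓ` which vanishes in the Hecke algebra of level `N` kills the Tate module
of `J₀(N)`. -/
theorem evJZ_aeval_eq_zero (hS : ∀ q : ℕ, q.Prime → q ∣ N → q ∈ (↑S : Set ℕ))
    {s : MvPolynomial (PIdx S) ℤ} (hs : MvPolynomial.aeval (TfamQ N S hNS) s = 0) (x : TJ p N) :
    evJZ p S N hS (MvPolynomial.aeval (TfamQ N S hNS) s) x = 0 := by
  rw [hs, map_zero, LinearMap.zero_apply]

include hNS in
/-- **(A)**: a nonzero Hecke eigenvector in the divisible `p`-torsion of `J₀(N)(ℚbar)` gives a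
normalised eigenform of level `N` with congruent eigenvalues. -/
theorem isResModular_of_tate_eigenvector (a : ℕ → ℤ) (x : TJ p N) (hx : proj 1 x ≠ 0)
    (heig : ∀ i : PIdx S, heckeOperatorBar N ⟨i, i.2.1⟩ (proj 1 x) = a i • proj 1 x) :
    IsResModular p N S a := by
  have hS : ∀ q : ℕ, q.Prime → q ∣ N → q ∈ (↑S : Set ℕ) :=
    fun q hq hqN => Finset.mem_coe.mpr (hNS q hq hqN)
  apply isResModular_of_ann S hNS a
  intro s h1
  have h5 := proj_evJZ_aeval S hNS hS a x heig s
  rw [h1, map_zero, LinearMap.zero_apply, map_zero] at h5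
  have hpy : p • proj 1 x = 0 := by
    have := pow_smul_proj 1 x
    rwa [pow_one] at this
  exact dvd_of_zsmul_eq_zero hp.out hx hpy h5.symm

/-- **a polynomial identity in the Hecke algebra kills eigenvectors**: if `s(T) = 0` in the Hecke
algebra of level `N` and `p ∤ s(a)`, no nonzero point of the divisible `p`-torsion is an eigenvector with
eigenvalues `a`. -/
theorem proj_eq_zero_of_poly (hS : ∀ q : ℕ, q.Prime → q ∣ N → q ∈ (↑S : Set ℕ)) (a : ℕ → ℤ)
    {s : MvPolynomial (PIdx S) ℤ} (hs : MvPolynomial.aeval (TfamQ N S hNS) s = 0)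
    (hsa : ¬ (p : ℤ) ∣ MvPolynomial.eval (fun i : PIdx S => a i) s) (x : TJ p N)
    (heig : ∀ i : PIdx S, heckeOperatorBar N ⟨i, i.2.1⟩ (proj 1 x) = a i • proj 1 x) :
    proj 1 x = 0 := by
  by_contra hx
  have h5 := proj_evJZ_aeval S hNS hS a x heig s
  rw [hs, map_zero, LinearMap.zero_apply, map_zero] at h5
  have hpy : p • proj 1 x = 0 := by
    have := pow_smul_proj 1 x
    rwa [pow_one] at this
  exact hsa (dvd_of_zsmul_eq_zero hp.out hx hpy h5.symm)

end A

/-! ### (B) from an eigenform to a torsion eigenvector -/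

section B

open Fermat.Agent.ES.LR.Occur16

/-- **descent of a common eigenvector** from a field `κ` of characteristic `p` to `𝔽_p`, in integer
coordinates: if the operators `T i` on the lattice `M` have a common eigenvector in `κ ⊗ M` with the
integer eigenvalues `a i`, there is `l ∈ M ∖ pM` with `T i l ≡ a i l` modulo `pM` for all `i`. -/
theorem exists_int_eigenvector {M : Type*} [AddCommGroup M] [Module.Free ℤ M] [Module.Finite ℤ M]
    {ι : Type*} (T : ι → Module.End ℤ M) (a : ι → ℤ) {κ : Type*} [Field κ] [CharP κ p]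
    (w : κ ⊗[ℤ] M) (hw : w ≠ 0) (hwe : ∀ i, (T i).baseChange κ w = ((a i : ℤ) : κ) • w) :
    ∃ l : M, (¬ ∃ m : M, l = (p : ℤ) • m) ∧ ∀ i, ∃ m : M, T i l - a i • l = (p : ℤ) • m := by
  classical
  have : NeZero p := ⟨hp.out.ne_zero⟩
  let b := Module.Free.chooseBasis ℤ M
  obtain ⟨d, rfl⟩ := exists_vec b κ w
  -- a nonzero coordinate
  have hex : ∃ j, d j ≠ 0 := by
    by_contra hne
    apply hw
    have : d = fun _ => (0 : κ) := funext fun i => not_not.mp fun hi => hne ⟨i, hi⟩
    rw [this, vec_zero]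
  obtain ⟨j0, hj0⟩ := hex
  -- an `𝔽_p`-linear form not vanishing on it
  let _ : Algebra (ZMod p) κ := ZMod.algebra κ p
  obtain ⟨φ, hφ⟩ : ∃ φ : Module.Dual (ZMod p) κ, φ (d j0) ≠ 0 := by
    by_contra h
    have h' : ∀ φ : Module.Dual (ZMod p) κ, φ (d j0) = 0 := fun φ => by
      by_contra hne
      exact h ⟨φ, hne⟩
    exact hj0 ((Module.forall_dual_apply_eq_zero_iff (ZMod p) (d j0)).mp h')
  have hφint : ∀ (n : ℤ) (z : κ), φ ((n : κ) * z) = (n : ZMod p) * φ z := by
    intro n z
    have h1 : (n : κ) * z = (n : ZMod p) • z := by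
      rw [Algebra.smul_def, map_intCast]
    rw [h1, map_smul, smul_eq_mul]
  -- integer coordinates
  let e : Module.Free.ChooseBasisIndex ℤ M → ℤ := fun j => ((φ (d j)).val : ℤ)
  have he : ∀ j, ((e j : ℤ) : ZMod p) = φ (d j) := by
    intro j
    simp only [e]
    rw [Int.cast_natCast, ZMod.natCast_zmod_val]
  refine ⟨∑ j, e j • b j, ?_, ?_⟩
  · rintro ⟨m, hm⟩
    have h1 := congrArg (fun y => b.repr y j0) hm
    simp only [map_sum, map_smul, Module.Basis.repr_self, Finsupp.coe_finsetSum, Finsupp.coe_smul,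
      Finset.sum_apply, Pi.smul_apply, smul_eq_mul] at h1
    rw [sum_mul_single] at h1
    apply hφ
    rw [← he j0, h1]
    push_cast
    rw [ZMod.natCast_self, zero_mul]
  · intro i
    have hi := hwe i
    rw [baseChange_vec, vec_smul] at hi
    have hk := fun k => congrFun (vec_injective b κ hi) k
    -- the congruences
    have hcong : ∀ k, (p : ℤ) ∣ (∑ j, mat b (T i) k j * e j) - a i * e k := by
      intro k
      have h1 := congrArg φ (hk k)
      rw [map_sum] at h1
      simp_rw [hφint] at h1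
      rw [← ZMod.intCast_zmod_eq_zero_iff_dvd]
      push_cast
      simp_rw [he]
      rw [h1, sub_self]
    -- the coordinates of `T i l - a i • l`
    have hrepr : ∀ k, b.repr (T i (∑ j, e j • b j) - a i • ∑ j, e j • b j) k =
        (∑ j, mat b (T i) k j * e j) - a i * e k := by
      intro k
      simp only [map_sum, map_smul, map_sub, Finsupp.coe_sub, Finsupp.coe_finsetSum,
        Finsupp.coe_smul, Pi.sub_apply, Finset.sum_apply, Pi.smul_apply, smul_eq_mul,
        Module.Basis.repr_self]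
      congr 1
      · refine Finset.sum_congr rfl fun j _ => ?_
        rw [mul_comm]
        rfl
      · rw [sum_mul_single]
    refine ⟨∑ k, (((∑ j, mat b (T i) k j * e j) - a i * e k) / (p : ℤ)) • b k, ?_⟩
    apply b.repr.injective
    ext k
    rw [hrepr k]
    simp only [map_sum, map_smul, Finsupp.coe_finsetSum, Finsupp.coe_smul, Finset.sum_apply,
      Pi.smul_apply, smul_eq_mul, Module.Basis.repr_self]
    rw [sum_mul_single, Int.mul_ediv_cancel' (hcong k)]

/-- a vector of `Λ_N` whose image in `T_p J₀(N)` is divisible by `p` is divisible by `p`. -/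
theorem exists_eq_smul_of_iotaJ (l : ↥(Lam N)) (z : TJ p N)
    (h : iotaJ p N l = (p : ℤ_[p]) • z) : ∃ m : ↥(Lam N), l = (p : ℤ) • m := by
  classical
  let b := Module.Free.chooseBasis ℤ ↥(Lam N)
  have hdvd : ∀ k, (p : ℤ) ∣ b.repr l k := by
    intro k
    let c : ↥(Lam N) →ₗ[ℤ] ℤ_[p] := (Algebra.linearMap ℤ ℤ_[p]).comp (b.coord k)
    have h1 : (isBaseChange_iotaJ p N).lift c (iotaJ p N l) = ((b.repr l k : ℤ) : ℤ_[p]) := by
      rw [(isBaseChange_iotaJ p N).lift_eq]
      simp [c]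
    rw [h, map_smul, smul_eq_mul] at h1
    rw [← PadicInt.norm_int_lt_one_iff_dvd, ← h1, PadicInt.norm_lt_one_iff_dvd]
    exact dvd_mul_right _ _
  refine ⟨∑ k, (b.repr l k / (p : ℤ)) • b k, ?_⟩
  apply b.repr.injective
  ext k
  simp only [map_sum, map_smul, Finsupp.coe_finsetSum, Finsupp.coe_smul, Finset.sum_apply,
    Pi.smul_apply, smul_eq_mul, Module.Basis.repr_self]
  rw [sum_mul_single, Int.mul_ediv_cancel' (hdvd k)]

variable (S : Finset ℕ) (hNS : ∀ r : ℕ, r.Prime → r ∣ N → r ∈ S)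

set_option maxHeartbeats 1600000 in
include hNS in
/-- **(B)**: if `a` is residually modular of level `N` away from `S` (a normalised eigenform of level
`N` whose eigenvalues at the primes outside `S` are congruent to the integers `a ℓ` modulo a maximal
ideal over `p`), there is a nonzero Hecke eigenvector with eigenvalues `a` in the divisible `p`-torsion of
`J₀(N)(ℚbar)`. -/
theorem exists_tate_eigenvector_of_isResModular (a : ℕ → ℤ) (h : IsResModular p N S a) :
    ∃ x : TJ p N, proj 1 x ≠ 0 ∧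
      ∀ i : PIdx S, heckeOperatorBar N ⟨i, i.2.1⟩ (proj 1 x) = a i • proj 1 x := by
  obtain ⟨f, 𝔪, hf, hmax, hpm, hcong⟩ := h
  classical
  have hS : ∀ q : ℕ, q.Prime → q ∣ N → q ∈ (↑S : Set ℕ) :=
    fun q hq hqN => Finset.mem_coe.mpr (hNS q hq hqN)
  -- an eigenvector over `ℂ`
  obtain ⟨v, hv0, hv⟩ := exists_eigenvector (↑S : Set ℕ) hS (K := ℂ)
    (Fermat.Agent.ES.J7.EigenChar1.chiC hf (↑S : Set ℕ))
  -- a valuation subring of `ℂ` dominating `(ℤ̄, 𝔪)`
  let A : Subring ℂ := (integralClosure ℤ ℂ).toSubring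
  let I : Ideal ↥A := 𝔪
  have hI : I ≠ ⊤ := hmax.ne_top
  obtain ⟨O, hAO, hIO⟩ := Ideal.image_subset_nonunits_valuationSubring I hI
  let j : ↥(integralClosure ℤ ℂ) →+* ↥O :=
    { toFun := fun a => ⟨(a : ℂ), hAO a.2⟩
      map_one' := rfl
      map_mul' := fun _ _ => rfl
      map_zero' := rfl
      map_add' := fun _ _ => rfl }
  let φ : ↥(integralClosure ℤ ℂ) →+* IsLocalRing.ResidueField ↥O := (IsLocalRing.residue ↥O).comp j
  have hker : ∀ a : ↥(integralClosure ℤ ℂ), a ∈ 𝔪 → φ a = 0 := by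
    intro a ha
    show IsLocalRing.residue ↥O (j a) = 0
    rw [IsLocalRing.residue_eq_zero_iff]
    have h1 : (a : ℂ) ∈ O.nonunits := hIO ⟨a, ha, rfl⟩
    obtain ⟨h2, h3⟩ := (ValuationSubring.mem_nonunits_iff_exists_mem_maximalIdeal).mp h1
    exact h3
  have hφ : ∀ (a : ↥(integralClosure ℤ ℂ)) (n : ℤ), a - (n : ↥(integralClosure ℤ ℂ)) ∈ 𝔪 →
      φ a = (n : IsLocalRing.ResidueField ↥O) := by
    intro a n h
    have := hker _ h
    rw [map_sub, map_intCast, sub_eq_zero] at this
    exact this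
  haveI : CharP (IsLocalRing.ResidueField ↥O) p := by
    rw [CharP.charP_iff_prime_eq_zero hp.out]
    have := hker _ hpm
    rwa [map_natCast] at this
  obtain ⟨w, hw0, hw⟩ := exists_reduction O (IsLocalRing.residue ↥O) v hv0
  -- the reduced eigen-relations
  have hwe : ∀ i : PIdx S, (dcFam S hNS i).baseChange (IsLocalRing.ResidueField ↥O) w =
      ((a i : ℤ) : IsLocalRing.ResidueField ↥O) • w := by
    intro i
    obtain ⟨α, hα, hαm⟩ := hcong i i.2.1 i.2.2
    have h1 := hv (heckeAlgebra.T i.2.1 (i.not_dvd hNS) i.not_mem_coe)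
    rw [heckeLam_T' (↑S : Set ℕ) hS i i.2.1 (i.not_dvd hNS) i.not_mem_coe,
      Fermat.Agent.ES.J7.EigenChar1.chiC_T hf i.2.1 (i.not_dvd hNS) i.not_mem_coe, ← hα] at h1
    have h2 := hw (dcZ N i i.2.1 (i.not_dvd hNS)) (j α) h1
    have h3 : (IsLocalRing.residue ↥O) (j α) = ((a i : ℤ) : IsLocalRing.ResidueField ↥O) :=
      hφ α _ hαm
    rw [h3] at h2
    exact h2
  -- integer coordinates
  obtain ⟨l, hl, hle⟩ := exists_int_eigenvector (p := p) (dcFam S hNS) (fun i : PIdx S => a i) w hw0 hwe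
  refine ⟨iotaJ p N l, ?_, ?_⟩
  · intro h0
    obtain ⟨z, hz⟩ := (proj_eq_zero_iff' 1 (iotaJ p N l)).mp h0
    rw [pow_one] at hz
    exact hl (exists_eq_smul_of_iotaJ l z hz)
  · intro i
    obtain ⟨m, hm⟩ := hle i
    have h1 : dcZ N i i.2.1 (i.not_dvd hNS) l = a i • l + (p : ℤ) • m := by
      have : dcFam S hNS i l = dcZ N i i.2.1 (i.not_dvd hNS) l := rfl
      rw [← this, ← hm]
      abel
    have hpz : ((p : ℤ)) • proj 1 (iotaJ p N m) = 0 := by
      have := pow_smul_proj 1 (iotaJ p N m)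
      rwa [pow_one, ← natCast_zsmul] at this
    have h2 : heckeOperatorBar N ⟨i, i.2.1⟩ (proj 1 (iotaJ p N l)) =
        proj 1 (iotaJ p N (dcZ N i i.2.1 (i.not_dvd hNS) l)) := by
      rw [← tT_iotaJ p N i i.2.1 (i.not_dvd hNS) l]
      rfl
    have h3 : proj 1 (iotaJ p N (a i • l + (p : ℤ) • m)) =
        a i • proj 1 (iotaJ p N l) + (p : ℤ) • proj 1 (iotaJ p N m) := by
      rw [map_add, map_zsmul, map_zsmul, map_add, map_zsmul, map_zsmul]
    have h4 : a i • proj 1 (iotaJ p N l) + (p : ℤ) • proj 1 (iotaJ p N m) =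
        a i • proj 1 (iotaJ p N l) :=
      (congrArg (fun t => a i • proj 1 (iotaJ p N l) + t) hpz).trans (add_zero _)
    exact h2.trans ((congrArg (fun t => proj 1 (iotaJ p N t)) h1).trans (h3.trans h4))

end B

end Fermat.Agent.M1.Glue.TorsionEigen44
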