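/-
M1 (S44, level lowering at `p`), chapter GLUE, brick ET (helper44).

**The Galois module `V₀` of mod `p` Hecke eigenvectors in `J₀(N)(ℚbar)[p]`.**

For a finite set of primes `S` and a system of integers `a : ℕ → ℤ`:

* `eigenTors p N S a` : the subgroup `V₀` of the divisible `p`-torsion `D(N) = proj 1 (T_p J₀(N))` on
  which `T_ℓ = a ℓ` for all primes `ℓ ∉ S`;
* it is killed by `p` (`nsmul_eq_zero_of_mem`), Galois stable (`smul_mem_eigenTors`), finite
  (`finite_eigenTors`), fixed pointwise by an open subgroup of `G_ℚ` (`hasLevel_eigenTors`), and a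
  Frobenius element `σ` at a prime `ℓ ∉ S` satisfies the Eichler–Shimura relation
  `σ² - a_ℓ σ + ℓ = 0` on it (`frobenius_relation_eigen`);
* `eigenTors_ne_bot_iff` : `V₀ ≠ 0` iff `a` is residually modular of level `N` away from `S`
  (`TorsionEigen44` (A), (B)).
-/
import Mathlib
import Fermat.Agent.M1.Glue.TorsionEigen44
import Fermat.Agent.ES.GAL.OpenStab12
import Fermat.Agent.ES.J.S30Final8
import Fermat.Agent.ES.TOP.TorsionGalois12
import Fermat.Agent.ES.HECKE.HeckeGalois12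

set_option autoImplicit false
set_option linter.unusedSectionVars false
set_option linter.style.haveILetI false
set_option synthInstance.maxHeartbeats 400000

open AlgebraicCurve ModularCurve

noncomputable section

namespace Fermat.Agent.M1.Glue.EigenTors44

open Fermat.Agent.ES.J.TateJZero13 Fermat.Agent.ES.J.TateModule13
open Fermat.Agent.ES.N35.QNewCore19 Fermat.Agent.M1.Glue.TorsionEigen44

local notation "Qb" => AlgebraicClosure ℚ
local notation "GQ" => (AlgebraicClosure ℚ ≃ₐ[ℚ] AlgebraicClosure ℚ)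

variable (p : ℕ) [hp : Fact p.Prime] (N : ℕ) [NeZero N] (S : Finset ℕ) (a : ℕ → ℤ)

/-- **the subgroup `V₀` of mod `p` eigenvectors** in the divisible `p`-torsion of `J₀(N)(ℚbar)`:
`y = proj 1 x` with `T_ℓ y = a ℓ • y` for all primes `ℓ ∉ S`. -/
def eigenTors : AddSubgroup (JZero N) where
  carrier := {y | (∃ x : TJ p N, proj 1 x = y) ∧
    ∀ i : PIdx S, heckeOperatorBar N ⟨i, i.2.1⟩ y = a i • y}
  zero_mem' := ⟨⟨0, map_zero _⟩, fun i => by rw [map_zero, smul_zero]⟩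
  add_mem' := by
    rintro y y' ⟨⟨x, rfl⟩, h⟩ ⟨⟨x', rfl⟩, h'⟩
    exact ⟨⟨x + x', map_add _ _ _⟩, fun i => by
      rw [map_add, h i, h' i]
      exact (zsmul_add _ _ _).symm⟩
  neg_mem' := by
    rintro y ⟨⟨x, rfl⟩, h⟩
    exact ⟨⟨-x, map_neg _ _⟩, fun i => by
      rw [map_neg, h i]
      exact (zsmul_neg _ _).symm⟩

variable {p N S a}

theorem mem_eigenTors {y : JZero N} : y ∈ eigenTors p N S a ↔
    (∃ x : TJ p N, proj 1 x = y) ∧ ∀ i : PIdx S, heckeOperatorBar N ⟨i, i.2.1⟩ y = a i • y :=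
  Iff.rfl

theorem nsmul_eq_zero_of_mem {y : JZero N} (hy : y ∈ eigenTors p N S a) : p • y = 0 := by
  obtain ⟨⟨x, rfl⟩, -⟩ := hy
  have := pow_smul_proj 1 x
  rwa [pow_one] at this

theorem smul_mem_eigenTors (σ : GQ) {y : JZero N} (hy : y ∈ eigenTors p N S a) :
    σ • y ∈ eigenTors p N S a := by
  obtain ⟨⟨x, rfl⟩, h⟩ := hy
  refine ⟨⟨rhoT p N σ x, proj_rhoT σ x 1⟩, fun i => ?_⟩
  exact (Fermat.Agent.ES.HECKE.HeckeGalois12.heckeOperatorBar_smul N ⟨i, i.2.1⟩ σ (proj 1 x)).trans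
    ((congrArg (fun t => σ • t) (h i)).trans (map_zsmul (DistribSMul.toAddMonoidHom (JZero N) σ) (a i) (proj 1 x)))

theorem finite_eigenTors : (eigenTors p N S a : Set (JZero N)).Finite :=
  (Fermat.Agent.ES.J.S30Final8.k1 p N).subset fun _ hy => nsmul_eq_zero_of_mem hy

/-- `V₀` is fixed pointwise by `Gal(ℚbar/L)` for some number field `L`. -/
theorem hasLevel_eigenTors :
    ∃ L : IntermediateField ℚ Qb, FiniteDimensional ℚ L ∧
      ∀ σ : GQ, (∀ x ∈ L, σ x = x) → ∀ y ∈ eigenTors p N S a, σ • y = y :=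
  Fermat.Agent.ES.GAL.OpenStab12.hasLevel_finite N _ (finite_eigenTors (p := p) (S := S) (a := a))

/-- **Eichler–Shimura on `V₀`**: `σ² - a_ℓ σ + ℓ = 0` for a Frobenius element at `ℓ ∉ S`. -/
theorem frobenius_relation_eigen (hNS : ∀ r : ℕ, r.Prime → r ∣ N → r ∈ S) (hpS : p ∈ S)
    {ℓ : ℕ} (hℓ : ℓ.Prime) (hℓS : ℓ ∉ S) {A : ValuationSubring Qb} (hA : A.LiesOverPrime ℓ)
    {σ : GQ} (hσ : A.IsFrobeniusAt σ ℓ) {y : JZero N} (hy : y ∈ eigenTors p N S a) :
    σ • σ • y - a ℓ • (σ • y) + ℓ • y = 0 := by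
  have hℓN : ¬ ℓ ∣ N := fun h => hℓS (hNS ℓ hℓ h)
  have hℓp : ¬ ℓ ∣ p := fun h =>
    hℓS (((Nat.prime_dvd_prime_iff_eq hℓ hp.out).mp h) ▸ hpS)
  have h1 := Fermat.Agent.ES.TOP.TorsionGalois12.frobenius_relation hℓ hℓN hA hℓp
    (nsmul_eq_zero_of_mem hy) hσ
  have h2 := (smul_mem_eigenTors σ hy).2 ⟨ℓ, hℓ, hℓS⟩
  rw [h2] at h1
  exact h1

/-- **`V₀ ≠ 0` iff `a` is residually modular of level `N` away from `S`.** -/
theorem eigenTors_ne_bot_iff (hNS : ∀ r : ℕ, r.Prime → r ∣ N → r ∈ S) :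
    eigenTors p N S a ≠ ⊥ ↔ IsResModular p N S a := by
  constructor
  · intro h
    obtain ⟨⟨y, hy⟩, hy0⟩ := (AddSubgroup.ne_bot_iff_exists_ne_zero).mp h
    obtain ⟨⟨x, rfl⟩, heig⟩ := hy
    refine isResModular_of_tate_eigenvector S hNS a x ?_ heig
    intro h0
    apply hy0
    exact Subtype.ext h0
  · intro h
    obtain ⟨x, hx, heig⟩ := exists_tate_eigenvector_of_isResModular S hNS a h
    intro hbot
    have hmem : proj 1 x ∈ eigenTors p N S a := ⟨⟨x, rfl⟩, heig⟩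
    rw [hbot, AddSubgroup.mem_bot] at hmem
    exact hx hmem

end Fermat.Agent.M1.Glue.EigenTors44
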