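/-
M1 (S44), chapter GLU, helper47: **adapter between `EigenTors44` (helper44's literals) and the level
operations** (`PushZero47`, `AuxLevel47`, `EigenDiv47`), as requested in #2066.

* `eigenTors_eq_eigenDiv` : `EigenTors44.eigenTors p N S a = EigenDiv47.eigenDiv p N ↑S (a ∘ val)`
  (the two binder styles `∀ i : PIdx S` / `∀ l : Nat.Primes, l ∉ S` agree);
* `eigenTors_eq_bot_of_not_isResModular` : "`hno` on the divisible part" at level `M'`;
* **`push_auxV_eigenTors_eq_zero`** : (h4) `α_* = 0 = β_*` on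
  `V = auxV M' p (eigenTors p (M' p) S a)` from `¬ IsResModular p M' S a`;
* `alphaPush_eigenTors_eq_zero`, `betaPush_eigenTors_eq_zero` : the same at level `M' p` itself;
* the `J`-side package for `V` in `EigenTors44` vocabulary (`jside_auxV_eigenTors`,
  `finite_auxV_eigenTors`, `auxV_eigenTors_ne_bot`, `eigen_auxV_eigenTors`, `tors_auxV_eigenTors`,
  `stable_auxV_eigenTors`, `fixedSub_auxV_eigenTors`).
-/
import Mathlib
import Fermat.Agent.M1.Glue.EigenTors44
import Fermat.Agent.M1.Glue.EigenDiv47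

set_option autoImplicit false
set_option linter.unusedSectionVars false

open ModularCurve AlgebraicCurve

noncomputable section

namespace Fermat.Agent.M1.Glue.EigenAdapter47

open Fermat.Agent.ES.J.TateModule13 Fermat.Agent.ES.J.TateJZero13
open Fermat.Agent.ES.N35.QNewCore19 Fermat.Agent.ES.N35.PushO12
open Fermat.Agent.ES.HECKE.LevelPullback12
open Fermat.Agent.M1.Glue.TorsionEigen44 Fermat.Agent.M1.Glue.EigenTors44
open Fermat.Agent.M1.Glue.EndGame47 Fermat.Agent.M1.Glue.FixedSub47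
open Fermat.Agent.M1.Glue.AuxLevel47 Fermat.Agent.M1.Glue.EigenDiv47

local notation "Qb" => AlgebraicClosure ℚ
local notation "GQ" => (AlgebraicClosure ℚ ≃ₐ[ℚ] AlgebraicClosure ℚ)

section Dictionary

variable {p : ℕ} [hp : Fact p.Prime] {N : ℕ} [NeZero N] (S : Finset ℕ) (a : ℕ → ℤ)

/-- **dictionary**: helper44's `eigenTors` is `eigenDiv` for the set `↑S` and the eigen-system
`l ↦ a l`. -/
theorem eigenTors_eq_eigenDiv :
    eigenTors p N S a = eigenDiv p N (↑S : Set ℕ) (fun l : Nat.Primes => a l) := by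
  ext y
  constructor
  · rintro ⟨hx, h⟩
    exact ⟨hx, fun l hl => h ⟨l, l.2, fun hS => hl (Finset.mem_coe.mpr hS)⟩⟩
  · rintro ⟨hx, h⟩
    exact ⟨hx, fun i => h ⟨i, i.2.1⟩ (fun hS => i.2.2 (Finset.mem_coe.mp hS))⟩

variable {S a}

/-- **"no eigenvector on the divisible part"** from non-modularity at level `N`. -/
theorem eigenTors_eq_bot_of_not_isResModular (hNS : ∀ r : ℕ, r.Prime → r ∣ N → r ∈ S)
    (h : ¬ IsResModular p N S a) : eigenTors p N S a = ⊥ := by
  by_contra hne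
  exact h ((eigenTors_ne_bot_iff hNS).mp hne)

theorem eigenDiv_eq_bot_of_not_isResModular (hNS : ∀ r : ℕ, r.Prime → r ∣ N → r ∈ S)
    (h : ¬ IsResModular p N S a) :
    eigenDiv p N (↑S : Set ℕ) (fun l : Nat.Primes => a l) = ⊥ := by
  rw [← eigenTors_eq_eigenDiv]
  exact eigenTors_eq_bot_of_not_isResModular hNS h

end Dictionary

/-! ### (h4) in `EigenTors44` vocabulary -/

section PushZero

variable {p : ℕ} [hp : Fact p.Prime] {M q : ℕ} [NeZero M] [NeZero q] {S : Finset ℕ} {a : ℕ → ℤ}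

/-- `α_*` kills the eigen-subgroup of level `M q` when `a` is not residually modular of level
`M`. -/
theorem alphaPush_eigenTors_eq_zero (hq : q.Prime) (hqM : ¬ q ∣ M) (hqS : q ∈ S)
    (hMS : ∀ r : ℕ, r.Prime → r ∣ M → r ∈ S) (hnres : ¬ IsResModular p M S a) :
    ∀ v ∈ eigenTors p (M * q) S a, alphaPush hq hqM v = 0 := by
  intro v hv
  rw [eigenTors_eq_eigenDiv] at hv
  exact (push_eq_zero_of_eigenDiv_eq_bot hq hqM (↑S : Set ℕ) (Finset.mem_coe.mpr hqS) _
    (eigenDiv_eq_bot_of_not_isResModular hMS hnres) v hv).1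

/-- `β_*` kills the eigen-subgroup of level `M q` when `a` is not residually modular of level
`M`. -/
theorem betaPush_eigenTors_eq_zero (hq : q.Prime) (hqM : ¬ q ∣ M) (hqS : q ∈ S)
    (hMS : ∀ r : ℕ, r.Prime → r ∣ M → r ∈ S) (hnres : ¬ IsResModular p M S a) :
    ∀ v ∈ eigenTors p (M * q) S a, betaPush hq hqM v = 0 := by
  intro v hv
  rw [eigenTors_eq_eigenDiv] at hv
  exact (push_eq_zero_of_eigenDiv_eq_bot hq hqM (↑S : Set ℕ) (Finset.mem_coe.mpr hqS) _
    (eigenDiv_eq_bot_of_not_isResModular hMS hnres) v hv).2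

end PushZero

/-! ### The model-level package for `V = auxV M' p (eigenTors p (M' p) S a)` -/

section Model

variable {p : ℕ} [hp : Fact p.Prime] [NeZero p] {M' : ℕ} [NeZero M'] {S : Finset ℕ} {a : ℕ → ℤ}

/-- **(h4) at the model level `lcm(M', 4) · p`** on `V = π^*(eigenTors p (M' p) S a)`, from
`¬ IsResModular p M' S a` (the hypothesis of `Iface44.CoreTors`). -/
theorem push_auxV_eigenTors_eq_zero (hp2 : p ≠ 2) (hpM : ¬ p ∣ M') (hpS : p ∈ S)
    (hMS : ∀ r : ℕ, r.Prime → r ∣ M' → r ∈ S) (hnres : ¬ IsResModular p M' S a) :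
    ∀ z ∈ auxV M' p (eigenTors p (M' * p) S a),
      alphaPush hp.out (not_dvd_auxM hp.out hp2 hpM) z = 0 ∧
        betaPush hp.out (not_dvd_auxM hp.out hp2 hpM) z = 0 := by
  rw [eigenTors_eq_eigenDiv]
  exact push_auxV_eigenDiv_eq_zero hp2 hpM (↑S : Set ℕ) (Finset.mem_coe.mpr hpS) _
    (eigenDiv_eq_bot_of_not_isResModular hMS hnres)

theorem tors_auxV_eigenTors : ∀ z ∈ auxV M' p (eigenTors p (M' * p) S a), p • z = 0 :=
  tors_auxV p (fun _ hy => nsmul_eq_zero_of_mem hy)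

theorem stable_auxV_eigenTors (g : GQ) :
    ∀ z ∈ auxV M' p (eigenTors p (M' * p) S a), g • z ∈ auxV M' p (eigenTors p (M' * p) S a) := by
  rintro _ ⟨y, hy, rfl⟩
  rw [← Fermat.Agent.ES.RED.PullbackInj12.levelPullback_smul]
  exact ⟨g • y, smul_mem_eigenTors g hy, rfl⟩

theorem finite_auxV_eigenTors : Finite (auxV M' p (eigenTors p (M' * p) S a)) :=
  haveI : Finite (eigenTors p (M' * p) S a) :=
    (finite_eigenTors (p := p) (N := M' * p) (S := S) (a := a)).to_subtype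
  finite_auxV

theorem auxV_eigenTors_ne_bot (hp2 : p ≠ 2) (hpM : ¬ p ∣ M')
    (hV : eigenTors p (M' * p) S a ≠ ⊥) : auxV M' p (eigenTors p (M' * p) S a) ≠ ⊥ :=
  auxV_ne_bot hp.out hp2 hpM (fun _ hy => nsmul_eq_zero_of_mem hy) hV

/-- `V ≠ 0` from residual modularity at level `M' p`. -/
theorem auxV_eigenTors_ne_bot_of_isResModular (hp2 : p ≠ 2) (hpM : ¬ p ∣ M')
    (hNS : ∀ r : ℕ, r.Prime → r ∣ M' * p → r ∈ S) (h : IsResModular p (M' * p) S a) :
    auxV M' p (eigenTors p (M' * p) S a) ≠ ⊥ :=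
  auxV_eigenTors_ne_bot hp2 hpM ((eigenTors_ne_bot_iff hNS).mpr h)

/-- the eigen-relations at the model level (`ℓ ∉ S` prime, `ℓ ∤ lcm(M',4) · p`). -/
theorem eigen_auxV_eigenTors (i : PIdx S) (hl : ¬ (i : ℕ) ∣ auxM M' * p) :
    ∀ z ∈ auxV M' p (eigenTors p (M' * p) S a),
      heckeOperatorBar (auxM M' * p) ⟨i, i.2.1⟩ z = a i • z :=
  eigen_auxV ⟨i, i.2.1⟩ hl (a i) (fun _ hy => hy.2 i)

/-- when `2 ∈ S` and `S` contains `p` and the primes of `M'`, every `i : PIdx S` is prime to the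
model level. -/
theorem PIdx_not_dvd_auxM_mul (h2S : 2 ∈ S) (hpS : p ∈ S)
    (hMS : ∀ r : ℕ, r.Prime → r ∣ M' → r ∈ S) (i : PIdx S) : ¬ (i : ℕ) ∣ auxM M' * p :=
  not_dvd_auxM_mul i.2.1 (fun h => i.2.2 (h ▸ h2S)) (fun h => i.2.2 (hMS _ i.2.1 h))
    (fun h => i.2.2 (((Nat.prime_dvd_prime_iff_eq i.2.1 hp.out).mp h) ▸ hpS))

/-- the `J`-side at the model level. -/
theorem jside_auxV_eigenTors (W : WeierstrassCurve ℤ) (hpS : p ∈ S)
    (hNS : ∀ r : ℕ, r.Prime → r ∣ M' * p → r ∈ S) :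
    JSide W p S (auxV M' p (eigenTors p (M' * p) S (fun ℓ => W.apOfModel ℓ))) := by
  rw [eigenTors_eq_eigenDiv]
  exact jside_auxV_eigenDiv W S hpS hNS

/-- `(π^* V')^H = π^*(V'^H)`. -/
theorem fixedSub_auxV_eigenTors (hp2 : p ≠ 2) (hpM : ¬ p ∣ M') (H : Subgroup GQ) :
    fixedSub H (auxV M' p (eigenTors p (M' * p) S a)) =
      auxV M' p (fixedSub H (eigenTors p (M' * p) S a)) :=
  fixedSub_auxV hp.out hp2 hpM (fun _ hy => nsmul_eq_zero_of_mem hy)
    (fun g _ hy => smul_mem_eigenTors g hy) H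

/-- `V` lies in the divisible `p`-torsion of the model level. -/
theorem auxV_eigenTors_le_divPart :
    auxV M' p (eigenTors p (M' * p) S a) ≤ divPart p (auxM M' * p) := by
  rw [eigenTors_eq_eigenDiv]
  exact auxV_eigenDiv_le_divPart _ _

end Model

end Fermat.Agent.M1.Glue.EigenAdapter47
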