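/-
M1 (S44), chapter GLU, helper47 (declared backup of `EigenTors44`): **the `J`-side instance**.

`divPart p N ⊆ J₀(N)[p]` is the *divisible* `p`-torsion: the image of the first projection of the
Tate module `T_p J₀(N)` (design #406 §0: the library cannot, and need not, prove that it is all of
`J₀(N)[p]`; it is stable under Galois, Hecke, the degeneracy push-forwards and level pull-backs).
`eigenDiv p N S a` is the subgroup of `divPart p N` on which `T_ℓ = a_ℓ` for all primes `ℓ ∉ S`.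

* `jside_eigenDiv` : for `a_ℓ = a_ℓ(W)`, `S ∋ p` containing the primes of `N`, the subgroup
  `eigenDiv p N S a` is a `J`-side in the sense of `EndGame47.JSide` (Galois stable `p`-torsion of
  finite level on which the Frobenius elements at `ℓ ∉ S` satisfy `φ² - a_ℓ φ + ℓ = 0`);
* `finite_eigenDiv`, `eigenDiv_ne_bot_iff` (existence of a Tate eigenvector);
* `push_eq_zero_of_no_eigen_div`, `push_auxV_eigenDiv_eq_zero` : the supplier of (h4), with the
  hypothesis "no eigenvector at level `M`" only on the divisible part (all that the Hecke algebra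
  of cusp forms controls).
-/
import Mathlib
import Fermat.Agent.M1.Glue.AuxLevel47
import Fermat.Agent.ES.J.S30Final8
import Fermat.Agent.ES.N35.TateFrob12

set_option autoImplicit false
set_option linter.unusedSectionVars false

open ModularCurve AlgebraicCurve

noncomputable section

namespace Fermat.Agent.M1.Glue.EigenDiv47

open Fermat.Agent.ES.J.TateModule13 Fermat.Agent.ES.J.TateJZero13 Fermat.Agent.ES.N35.TateFrob12
open Fermat.Agent.ES.HECKE.LevelPullback12 Fermat.Agent.ES.N35.PushO12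
open Fermat.Agent.ES.RED.PullbackInj12
open Fermat.Agent.M1.Glue.EndGame47 Fermat.Agent.M1.Glue.FixedSub47
open Fermat.Agent.M1.Glue.PushZero47 Fermat.Agent.M1.Glue.AuxLevel47

local notation "Qb" => AlgebraicClosure ℚ
local notation "GQ" => (AlgebraicClosure ℚ ≃ₐ[ℚ] AlgebraicClosure ℚ)

/-! ### The divisible `p`-torsion -/

section DivPart

variable (p : ℕ) [hp : Fact p.Prime] (N : ℕ) [NeZero N]

/-- **the divisible `p`-torsion** `D(N) ⊆ J₀(N)[p]`: first projection of the Tate module. -/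
def divPart : AddSubgroup (JZero N) := (proj 1 : TJ p N →+ JZero N).range

variable {p N}

theorem mem_divPart {y : JZero N} : y ∈ divPart p N ↔ ∃ x : TJ p N, proj 1 x = y := Iff.rfl

theorem proj_one_mem_divPart (x : TJ p N) : proj 1 x ∈ divPart p N := ⟨x, rfl⟩

theorem tors_divPart {y : JZero N} (hy : y ∈ divPart p N) : p • y = 0 := by
  obtain ⟨x, rfl⟩ := hy
  have := pow_smul_proj 1 x
  rwa [pow_one] at this

theorem smul_mem_divPart (σ : GQ) {y : JZero N} (hy : y ∈ divPart p N) : σ • y ∈ divPart p N := by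
  obtain ⟨x, rfl⟩ := hy
  exact ⟨rhoT p N σ x, rfl⟩

theorem hecke_mem_divPart (l : Nat.Primes) {y : JZero N} (hy : y ∈ divPart p N) :
    heckeOperatorBar N l y ∈ divPart p N := by
  obtain ⟨x, rfl⟩ := hy
  exact ⟨tT p N l x, rfl⟩

theorem map_mem_divPart {M : ℕ} [NeZero M] (f : JZero N →+ JZero M) {y : JZero N}
    (hy : y ∈ divPart p N) : f y ∈ divPart p M := by
  obtain ⟨x, rfl⟩ := hy
  exact ⟨map f x, rfl⟩

theorem levelPullback_mem_divPart {M : ℕ} [NeZero M] (h : N ∣ M) {y : JZero N}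
    (hy : y ∈ divPart p N) : levelPullback h y ∈ divPart p M :=
  map_mem_divPart (levelPullback h) hy

variable {q : ℕ} [NeZero q]

theorem alphaPush_mem_divPart (hq : q.Prime) (hqN : ¬ q ∣ N) {y : JZero (N * q)}
    (hy : y ∈ divPart p (N * q)) : alphaPush hq hqN y ∈ divPart p N :=
  map_mem_divPart (alphaPush hq hqN) hy

theorem betaPush_mem_divPart (hq : q.Prime) (hqN : ¬ q ∣ N) {y : JZero (N * q)}
    (hy : y ∈ divPart p (N * q)) : betaPush hq hqN y ∈ divPart p N :=
  map_mem_divPart (betaPush hq hqN) hy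

end DivPart

/-! ### The eigen-subgroup -/

section EigenDiv

variable (p : ℕ) [hp : Fact p.Prime] (N : ℕ) [NeZero N]

/-- **the eigen-subgroup** of the divisible `p`-torsion: `T_ℓ = a_ℓ` for all primes `ℓ ∉ S`. -/
def eigenDiv (S : Set ℕ) (a : Nat.Primes → ℤ) : AddSubgroup (JZero N) where
  carrier := {y | y ∈ divPart p N ∧
    ∀ l : Nat.Primes, (l : ℕ) ∉ S → heckeOperatorBar N l y = a l • y}
  zero_mem' := ⟨(divPart p N).zero_mem, fun l _ => by rw [map_zero, smul_zero]⟩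
  add_mem' := fun {x y} hx hy => ⟨(divPart p N).add_mem hx.1 hy.1, fun l hl => by
    rw [map_add, hx.2 l hl, hy.2 l hl, zsmul_add]⟩
  neg_mem' := fun {x} hx => ⟨(divPart p N).neg_mem hx.1, fun l hl => by
    rw [map_neg, hx.2 l hl, zsmul_neg]⟩

variable {p N} {S : Set ℕ} {a : Nat.Primes → ℤ}

theorem mem_eigenDiv {y : JZero N} :
    y ∈ eigenDiv p N S a ↔ y ∈ divPart p N ∧
      ∀ l : Nat.Primes, (l : ℕ) ∉ S → heckeOperatorBar N l y = a l • y := Iff.rfl

theorem eigenDiv_le_divPart : eigenDiv p N S a ≤ divPart p N := fun _ hy => hy.1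

theorem tors_eigenDiv : ∀ y ∈ eigenDiv p N S a, p • y = 0 := fun _ hy => tors_divPart hy.1

theorem eigen_eigenDiv : ∀ y ∈ eigenDiv p N S a, ∀ l : Nat.Primes, (l : ℕ) ∉ S →
    heckeOperatorBar N l y = a l • y := fun _ hy => hy.2

theorem stable_eigenDiv (σ : GQ) : ∀ y ∈ eigenDiv p N S a, σ • y ∈ eigenDiv p N S a := by
  intro y hy
  refine ⟨smul_mem_divPart σ hy.1, fun l hl => ?_⟩
  rw [Fermat.Agent.ES.HECKE.HeckeGalois12.heckeOperatorBar_smul, hy.2 l hl,
    Fermat.Agent.ES.HECKE.HeckeGalois12.galois_smul_zsmul]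

theorem finite_eigenDiv : Finite (eigenDiv p N S a) := by
  have hfin : {y : JZero N | p • y = 0}.Finite := Fermat.Agent.ES.J.S30Final8.k1 p N
  exact (hfin.subset (fun y hy => tors_eigenDiv y hy)).to_subtype

/-- `eigenDiv ≠ ⊥` iff there is a Tate vector whose first projection is a nonzero eigenvector. -/
theorem eigenDiv_ne_bot_iff :
    eigenDiv p N S a ≠ ⊥ ↔ ∃ x : TJ p N, proj 1 x ≠ 0 ∧
      ∀ l : Nat.Primes, (l : ℕ) ∉ S → heckeOperatorBar N l (proj 1 x) = a l • proj 1 x := by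
  constructor
  · intro h
    obtain ⟨y, hy, hy0⟩ : ∃ y ∈ eigenDiv p N S a, y ≠ 0 := by
      by_contra hcon
      push Not at hcon
      exact h ((AddSubgroup.eq_bot_iff_forall _).mpr hcon)
    obtain ⟨⟨x, rfl⟩, he⟩ := hy
    exact ⟨x, hy0, he⟩
  · rintro ⟨x, hx0, he⟩ hbot
    have hmem : proj 1 x ∈ eigenDiv p N S a := ⟨proj_one_mem_divPart x, he⟩
    rw [hbot] at hmem
    exact hx0 (AddSubgroup.mem_bot.mp hmem)

/-- **The `J`-side instance**: the `a_ℓ(W)`-eigen-subgroup of the divisible `p`-torsion of `J₀(N)`. -/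
theorem jside_eigenDiv (W : WeierstrassCurve ℤ) (S : Finset ℕ) (hpS : p ∈ S)
    (hNS : ∀ l : ℕ, l.Prime → l ∣ N → l ∈ S) :
    JSide W p S (eigenDiv p N (S : Set ℕ) (fun l => W.apOfModel l)) where
  tors := tors_eigenDiv
  stable := stable_eigenDiv
  level := by
    obtain ⟨L, hL, h⟩ := Fermat.Agent.ES.GAL.OpenStab12.hasLevel_torsion N p
      (Fermat.Agent.ES.J.S30Final8.k1 p N)
    exact ⟨L, hL, fun σ hσ y hy => h σ hσ y (tors_eigenDiv y hy)⟩
  rel := by
    intro ℓ hℓ hℓS A hA φ hφ y hy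
    have hℓN : ¬ ℓ ∣ N := fun h => hℓS (hNS ℓ hℓ h)
    have hℓp : ¬ ℓ ∣ p := by
      intro h
      have : ℓ = p := (Nat.prime_dvd_prime_iff_eq hℓ hp.out).mp h
      exact hℓS (this ▸ hpS)
    have h1 := Fermat.Agent.ES.TOP.TorsionGalois12.frobenius_relation (N := N) hℓ hℓN hA hℓp
      (tors_eigenDiv y hy) hφ
    have h2 := (stable_eigenDiv φ y hy).2 ⟨ℓ, hℓ⟩ (by exact_mod_cast hℓS)
    rw [h2] at h1
    exact h1

end EigenDiv

/-! ### The supplier of (h4), divisible form -/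

section PushZero

variable {p : ℕ} [hp : Fact p.Prime] {M q : ℕ} [NeZero M] [NeZero q]

/-- `α_*` maps the eigen-subgroup of level `M q` into the eigen-subgroup of level `M`. -/
theorem alphaPush_mem_eigenDiv (hq : q.Prime) (hqM : ¬ q ∣ M) (S : Set ℕ) (hqS : q ∈ S)
    (a : Nat.Primes → ℤ) {v : JZero (M * q)} (hv : v ∈ eigenDiv p (M * q) S a) :
    alphaPush hq hqM v ∈ eigenDiv p M S a :=
  ⟨alphaPush_mem_divPart hq hqM hv.1, fun l hl =>
    alphaPush_eigen hq hqM l (fun h => hl (h ▸ hqS)) _ v (hv.2 l hl)⟩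

/-- `β_*` maps the eigen-subgroup of level `M q` into the eigen-subgroup of level `M`. -/
theorem betaPush_mem_eigenDiv (hq : q.Prime) (hqM : ¬ q ∣ M) (S : Set ℕ) (hqS : q ∈ S)
    (a : Nat.Primes → ℤ) {v : JZero (M * q)} (hv : v ∈ eigenDiv p (M * q) S a) :
    betaPush hq hqM v ∈ eigenDiv p M S a :=
  ⟨betaPush_mem_divPart hq hqM hv.1, fun l hl =>
    betaPush_eigen hq hqM l (fun h => hl (h ▸ hqS)) _ v (hv.2 l hl)⟩

/-- **(h4), divisible form**: if the eigen-system `a` does not occur in the divisible `p`-torsion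
of `J₀(M)`, both degeneracy push-forwards kill the eigen-subgroup of level `M q`. -/
theorem push_eq_zero_of_eigenDiv_eq_bot (hq : q.Prime) (hqM : ¬ q ∣ M) (S : Set ℕ) (hqS : q ∈ S)
    (a : Nat.Primes → ℤ) (hno : eigenDiv p M S a = ⊥) :
    ∀ v ∈ eigenDiv p (M * q) S a, alphaPush hq hqM v = 0 ∧ betaPush hq hqM v = 0 := by
  intro v hv
  have h1 := alphaPush_mem_eigenDiv hq hqM S hqS a hv
  have h2 := betaPush_mem_eigenDiv hq hqM S hqS a hv
  rw [hno] at h1 h2
  exact ⟨AddSubgroup.mem_bot.mp h1, AddSubgroup.mem_bot.mp h2⟩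

/-- the same with "no eigenvector" spelled out on the divisible part. -/
theorem push_eq_zero_of_no_eigen_div (hq : q.Prime) (hqM : ¬ q ∣ M) (S : Set ℕ) (hqS : q ∈ S)
    (a : Nat.Primes → ℤ)
    (hno : ∀ y ∈ divPart p M,
      (∀ l : Nat.Primes, (l : ℕ) ∉ S → heckeOperatorBar M l y = a l • y) → y = 0) :
    ∀ v ∈ eigenDiv p (M * q) S a, alphaPush hq hqM v = 0 ∧ betaPush hq hqM v = 0 :=
  push_eq_zero_of_eigenDiv_eq_bot hq hqM S hqS a
    ((AddSubgroup.eq_bot_iff_forall _).mpr fun y hy => hno y hy.1 hy.2)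

end PushZero

/-! ### The glue's subgroup at the model level -/

section Model

open Fermat.Agent.M1.Lvl.LevelOps47

variable {p : ℕ} [hp : Fact p.Prime] [NeZero p] {M' : ℕ} [NeZero M']

/-- **(h4) at the model level `lcm(M', 4) · p`** for `V = π^*(eigenDiv p (M' p) S a)`, from
"the eigen-system does not occur in the divisible `p`-torsion of level `M'`". -/
theorem push_auxV_eigenDiv_eq_zero (hp2 : p ≠ 2) (hpM : ¬ p ∣ M') (S : Set ℕ) (hpS : p ∈ S)
    (a : Nat.Primes → ℤ) (hno : eigenDiv p M' S a = ⊥) :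
    ∀ z ∈ auxV M' p (eigenDiv p (M' * p) S a),
      alphaPush hp.out (not_dvd_auxM hp.out hp2 hpM) z = 0 ∧
        betaPush hp.out (not_dvd_auxM hp.out hp2 hpM) z = 0 := by
  rintro _ ⟨y, hy, rfl⟩
  obtain ⟨h1, h2⟩ := push_eq_zero_of_eigenDiv_eq_bot hp.out hpM S hpS a hno y hy
  exact ⟨alphaPush_levelPullback_eq_zero (dvd_auxM M') hp.out (not_dvd_auxM hp.out hp2 hpM) y h1,
    betaPush_levelPullback_eq_zero (dvd_auxM M') hp.out (not_dvd_auxM hp.out hp2 hpM) y h2⟩

/-- everything the CORE and the end game consume, for `V = π^*(eigenDiv p (M' p) S a_W)`. -/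
theorem jside_auxV_eigenDiv (W : WeierstrassCurve ℤ) (S : Finset ℕ) (hpS : p ∈ S)
    (hNS : ∀ l : ℕ, l.Prime → l ∣ M' * p → l ∈ S) :
    JSide W p S (auxV M' p (eigenDiv p (M' * p) (S : Set ℕ) (fun l => W.apOfModel l))) :=
  jside_auxV (jside_eigenDiv W S hpS hNS)

theorem finite_auxV_eigenDiv (S : Set ℕ) (a : Nat.Primes → ℤ) :
    Finite (auxV M' p (eigenDiv p (M' * p) S a)) :=
  haveI := finite_eigenDiv (p := p) (N := M' * p) (S := S) (a := a)
  finite_auxV

theorem auxV_eigenDiv_ne_bot (hp2 : p ≠ 2) (hpM : ¬ p ∣ M') (S : Set ℕ) (a : Nat.Primes → ℤ)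
    (hV : eigenDiv p (M' * p) S a ≠ ⊥) : auxV M' p (eigenDiv p (M' * p) S a) ≠ ⊥ :=
  auxV_ne_bot hp.out hp2 hpM tors_eigenDiv hV

/-- the eigen-relations at the model level (primes `ℓ ∉ S`, `ℓ ∤ lcm(M',4) p`). -/
theorem eigen_auxV_eigenDiv (S : Set ℕ) (a : Nat.Primes → ℤ) (l : Nat.Primes)
    (hlS : (l : ℕ) ∉ S) (hl : ¬ (l : ℕ) ∣ auxM M' * p) :
    ∀ z ∈ auxV M' p (eigenDiv p (M' * p) S a),
      heckeOperatorBar (auxM M' * p) l z = a l • z :=
  eigen_auxV l hl (a l) (fun _ hy => hy.2 l hlS)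

/-- the divisible part is preserved: `π^*(eigenDiv) ⊆ divPart` at the model level. -/
theorem auxV_eigenDiv_le_divPart (S : Set ℕ) (a : Nat.Primes → ℤ) :
    auxV M' p (eigenDiv p (M' * p) S a) ≤ divPart p (auxM M' * p) := by
  rintro _ ⟨y, hy, rfl⟩
  exact levelPullback_mem_divPart _ hy.1

end Model

end Fermat.Agent.M1.Glue.EigenDiv47
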