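/-
M1 (S44), chapter GLUE (helper73): **the E-side half of `s44_of_core`.**

For a Frey package `P` with `p ∣ abc`, `W := P.freyCurveInt`, a place `A ∣ p` of `ℚ̄`, and ANY
`J`-side `V ≠ 0` (`EndGame47.JSide W p S V`: `p`-torsion, Galois stable, finite level,
Eichler–Shimura relation with the `a_ℓ(W)`), the conclusion of CORE
  "`∀ H` normal with `PeuRam p A H`, every `τ ∈ I_A` with `τ = ζ ↦ ζ^c` on `μ_p` acts on the
   `H`-invariants of `V` as the scalar `c`"
contradicts the irreducibility of `W[p]`.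

Ingredients: `EndGame47.JSide.false_of_core` (helper47), `ChiLineFrey58.freyInt_exists_tau0`
(helper58/helper20: the element `τ₀ ∈ I_A`, `χ(τ₀) = 2`, with a fixed vector),
`FreyPeuRam73.frey_peuRam` (chapter ES: the Frey curve is peu ramifié at `A`).
The subgroup is `H = kerEμ = {h | h = 1 on E[p] and on μ_p}`.
-/
import Mathlib
import Fermat.Agent.M1.Glue.EndGame47
import Fermat.Agent.M1.ESide.ChiLineFrey58
import Fermat.Agent.M1.ES.FreyPeuRam73

set_option autoImplicit false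

open WeierstrassCurve WeierstrassCurve.Affine WeierstrassCurve.Affine.Point

namespace Fermat.Agent.M1.Glue.FreyEndGame73

open Fermat.Agent.ES.Q58.TraceCong20 (RelQbar)
open Fermat.Agent.S52.TopWiring84 (Tors)
open Fermat.Agent.S52.C.DetCyclo47 (IsCycloExp)
open Fermat.Agent.M1.Glue.EndGame47
open Fermat.Agent.M1.Ram.PeuRamDef20

local notation "Qb" => AlgebraicClosure ℚ
local notation "GQ" => (AlgebraicClosure ℚ ≃ₐ[ℚ] AlgebraicClosure ℚ)

/-! ### The subgroup `H` -/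

/-- The elements of `G_ℚ` acting trivially on `W'[p]` and on `μ_p`. -/
def kerEμ (W' : WeierstrassCurve ℚ) (p : ℕ) : Subgroup GQ where
  carrier := {h | (∀ t : Submodule.torsionBy ℤ (W'⁄Qb).Point p, h • t = t) ∧ IsCycloExp p h 1}
  one_mem' := ⟨fun t => one_smul _ t, IsCycloExp.one⟩
  mul_mem' := by
    rintro a b ⟨ha1, ha2⟩ ⟨hb1, hb2⟩
    refine ⟨fun t => by rw [mul_smul, hb1, ha1], ?_⟩
    have h := ha2.mul hb2
    rwa [mul_one] at h
  inv_mem' := by
    rintro a ⟨ha1, ha2⟩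
    refine ⟨fun t => ?_, fun ζ hζ => ?_⟩
    · conv_lhs => rw [← ha1 t]
      exact inv_smul_smul a t
    · rw [pow_one]
      have h := ha2 ζ hζ
      rw [pow_one] at h
      conv_lhs => rw [← h]
      exact a.symm_apply_apply ζ

theorem mem_kerEμ {W' : WeierstrassCurve ℚ} {p : ℕ} {h : GQ} :
    h ∈ kerEμ W' p ↔
      (∀ t : Submodule.torsionBy ℤ (W'⁄Qb).Point p, h • t = t) ∧ IsCycloExp p h 1 := Iff.rfl

/-- `kerEμ` is a normal subgroup. -/
theorem kerEμ_normal (W' : WeierstrassCurve ℚ) (p : ℕ) : (kerEμ W' p).Normal := by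
  constructor
  rintro h ⟨h1, h2⟩ g
  refine ⟨fun t => ?_, fun ζ hζ => ?_⟩
  · rw [mul_smul, mul_smul, h1, smul_inv_smul]
  · rw [pow_one, AlgEquiv.mul_apply, AlgEquiv.mul_apply]
    have hη : (g⁻¹ ζ) ^ p = 1 := by rw [← map_pow, hζ, map_one]
    have h3 := h2 _ hη
    rw [pow_one] at h3
    rw [h3]
    exact g.apply_symm_apply ζ

/-- **The Frey curve is peu ramifié at `A ∣ p` relative to `kerEμ`.** -/
theorem frey_peuRam_kerEμ (P : FreyPackage) {A : ValuationSubring Qb}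
    (hA : A.LiesOverPrime P.p) (hmult : (P.p : ℤ) ∣ P.a * P.b * P.c) :
    PeuRam P.p A (kerEμ P.freyCurve P.p) :=
  Fermat.Agent.M1.ES.FreyPeuRam73.frey_peuRam P hA hmult _
    (fun _ h1 h2 => ⟨h1, fun ζ hζ => by rw [pow_one]; exact h2 ζ hζ⟩)

/-- the same for the integral model `P.freyCurveInt`. -/
theorem freyInt_peuRam_kerEμ (P : FreyPackage) {A : ValuationSubring Qb}
    (hA : A.LiesOverPrime P.p) (hmult : (P.p : ℤ) ∣ P.a * P.b * P.c) :
    PeuRam P.p A (kerEμ (P.freyCurveInt.map (Int.castRingHom ℚ)) P.p) := by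
  rw [Fermat.Agent.Frey.IntModel.map_freyCurveInt]
  exact frey_peuRam_kerEμ P hA hmult

/-! ### The end game for the Frey curve -/

/-- **E-side half of `s44_of_core`.**  Any nonzero `J`-side for the Frey curve at `p ∣ abc` on which
CORE's conclusion holds (for every normal `H` with `PeuRam p A H`) contradicts irreducibility. -/
theorem frey_false_of_core (P : FreyPackage) (hmult : (P.p : ℤ) ∣ P.a * P.b * P.c)
    (hrel : RelQbar P.freyCurveInt)
    (hirr : GaloisRepIsIrreducible (K := Qb) ℚ P.freyCurve P.p)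
    {A : ValuationSubring Qb} (hA : A.LiesOverPrime P.p)
    {J : Type*} [AddCommGroup J] [DistribMulAction GQ J] {S : Finset ℕ} {V : AddSubgroup J}
    (hJ : haveI : Fact P.p.Prime := ⟨P.pp⟩; JSide P.freyCurveInt P.p S V) [Finite V] (hV : V ≠ ⊥)
    (hcore : ∀ H : Subgroup GQ, H.Normal → PeuRam P.p A H →
      ∀ τ ∈ A.inertiaSubgroupIn ℚ, ∀ c : ℕ, IsCycloExp P.p τ c →
        ∀ y ∈ V, (∀ h ∈ H, h • y = y) → τ • y = c • y) : False := by
  have : Fact P.p.Prime := ⟨P.pp⟩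
  have hp2 : P.p ≠ 2 := by have := P.hp5; omega
  obtain ⟨τ₀, hτ₀, hc, hc1, hfix0⟩ :=
    Fermat.Agent.M1.ESide.ChiLineFrey58.freyInt_exists_tau0 P hrel hirr hA hmult
  have hHn : (kerEμ (P.freyCurveInt.map (Int.castRingHom ℚ)) P.p).Normal := kerEμ_normal _ _
  have hPeu := freyInt_peuRam_kerEμ P hA hmult
  exact hJ.false_of_core (Fermat.Agent.M1.ESide.ChiLine58.freyCurveInt_Δ_ne_zero P) hrel hp2
    (Fermat.Agent.M1.ESide.ChiLineFrey58.freyInt_modRepIsIrreducible P hirr) hV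
    (kerEμ (P.freyCurveInt.map (Int.castRingHom ℚ)) P.p)
    (fun h hh v => hh.1 v) (fun h hh => hh.2) τ₀ 2 hc hc1 hfix0
    (fun y hy hfix => hcore _ hHn hPeu τ₀ hτ₀ 2 hc y hy hfix)

end Fermat.Agent.M1.Glue.FreyEndGame73
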