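/-
M1 (row 38, S44), chapter GLUE (helper44): **scaling an integral Weierstrass model.**

For `W : WeierstrassCurve ℤ` and `m : ℤ`, `m ≠ 0`, the scaled model `scaleModel W m`
(`aᵢ ↦ mⁱ aᵢ`) is again an integral model of the same curve over `ℚ`, its discriminant is
`m¹² Δ(W)`; hence it has bad reduction at every prime dividing `m`.  Used in the glue of S44 to choose
an integral model of the Frey curve whose good primes avoid a prescribed finite set.
-/
import Mathlib
import Fermat.Prelude.Def_FLTPrelim_Modularity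

set_option autoImplicit false

open WeierstrassCurve

namespace Fermat.Agent.M1.Glue.ScaleModel44

/-- the model `aᵢ ↦ mⁱ aᵢ`. -/
def scaleModel (W : WeierstrassCurve ℤ) (m : ℤ) : WeierstrassCurve ℤ :=
  ⟨m * W.a₁, m ^ 2 * W.a₂, m ^ 3 * W.a₃, m ^ 4 * W.a₄, m ^ 6 * W.a₆⟩

theorem scaleModel_Δ (W : WeierstrassCurve ℤ) (m : ℤ) : (scaleModel W m).Δ = m ^ 12 * W.Δ := by
  simp only [scaleModel, WeierstrassCurve.Δ, WeierstrassCurve.b₂, WeierstrassCurve.b₄,
    WeierstrassCurve.b₆, WeierstrassCurve.b₈]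
  ring

/-- the change of variables `x ↦ m⁻² x`, `y ↦ m⁻³ y` over `ℚ`. -/
noncomputable def scaleVC (m : ℤ) (hm : m ≠ 0) : VariableChange ℚ :=
  ⟨Units.mk0 ((m : ℚ)⁻¹) (inv_ne_zero (Int.cast_ne_zero.mpr hm)), 0, 0, 0⟩

theorem scaleVC_smul (W : WeierstrassCurve ℤ) (m : ℤ) (hm : m ≠ 0) :
    scaleVC m hm • (W.map (Int.castRingHom ℚ)) = (scaleModel W m).map (Int.castRingHom ℚ) := by
  have hu : (((scaleVC m hm).u⁻¹ : ℚˣ) : ℚ) = (m : ℚ) := by
    simp [scaleVC]
  ext
  · rw [variableChange_a₁, hu]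
    simp [scaleVC, scaleModel]
  · rw [variableChange_a₂, hu]
    simp [scaleVC, scaleModel]
  · rw [variableChange_a₃, hu]
    simp [scaleVC, scaleModel]
  · rw [variableChange_a₄, hu]
    simp [scaleVC, scaleModel]
  · rw [variableChange_a₆, hu]
    simp [scaleVC, scaleModel]

theorem scaleModel_isIntegralModelOf {W : WeierstrassCurve ℤ} {E : WeierstrassCurve ℚ}
    (h : W.IsIntegralModelOf E) (m : ℤ) (hm : m ≠ 0) : (scaleModel W m).IsIntegralModelOf E := by
  obtain ⟨C, hC⟩ := h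
  exact ⟨scaleVC m hm * C, by rw [mul_smul, hC, scaleVC_smul]⟩

/-- a good prime of the scaled model does not divide `m` and is a good prime of `W`. -/
theorem isGoodPrimeFor_scaleModel {W : WeierstrassCurve ℤ} {m : ℤ} {ℓ : ℕ}
    (h : (scaleModel W m).IsGoodPrimeFor ℓ) : ¬ (ℓ : ℤ) ∣ m ∧ W.IsGoodPrimeFor ℓ := by
  unfold WeierstrassCurve.IsGoodPrimeFor at h ⊢
  rw [scaleModel_Δ] at h
  constructor
  · intro hd
    exact h (Dvd.dvd.mul_right (dvd_pow hd (by norm_num)) _)
  · intro hd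
    exact h (Dvd.dvd.mul_left hd _)

end Fermat.Agent.M1.Glue.ScaleModel44
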