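/-
M1 (row 38, S44: level lowering at `p`), chapter GLUE (helper44): **the interface of the global glue.**

* `jside_eigenTors` : the `J`-side instance (`EndGame47.JSide`) of the eigen-subgroup
  `EigenTors44.eigenTors` of `J₀(N)(ℚbar)[p]`;
* `CoreTors` : **the statement of the M1 main theorem** (what the local chapters TRI/CAR/OLD/LINK/…
  deliver), as a proposition;
* `ap_congr_of_models` : two integral models of the same curve have congruent `a_ℓ` modulo `p` at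
  their common good primes `ℓ ≠ p`;
* `isResModular_of_modularRepOfLevel`, `modularRepOfLevel_of_isResModular` : the dictionary between the
  frozen predicate `FreyPackage.ModularRepOfLevel` and `TorsionEigen44.IsResModular`;
* `s44_of_coreTors` : **`CoreTors` implies the frozen statement S44.**
-/
import Mathlib
import Fermat.Agent.M1.Glue.EigenTors44
import Fermat.Agent.M1.Glue.AuxLevel47
import Fermat.Agent.M1.Glue.FreyEndGame73
import Fermat.Agent.M1.Glue.NonEis47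
import Fermat.Agent.M1.Glue.ScaleModel44
import Fermat.Agent.S52.TopWiring84
import Fermat.Agent.S52.Model.TorsTransport74
import Fermat.Agent.ES.Q58.RelQbarFinal88

set_option autoImplicit false
set_option linter.unusedSectionVars false
set_option linter.style.haveILetI false
set_option synthInstance.maxHeartbeats 400000

open AlgebraicCurve ModularCurve

noncomputable section

namespace Fermat.Agent.M1.Glue.Iface44

open Fermat.Agent.M1.Glue.TorsionEigen44 Fermat.Agent.M1.Glue.EigenTors44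
open Fermat.Agent.M1.Glue.EndGame47 Fermat.Agent.M1.Glue.AuxLevel47
open Fermat.Agent.M1.Glue.ScaleModel44
open Fermat.Agent.M1.Ram.PeuRamDef20
open Fermat.Agent.S52.C.DetCyclo47

local notation "Qb" => AlgebraicClosure ℚ
local notation "GQ" => (AlgebraicClosure ℚ ≃ₐ[ℚ] AlgebraicClosure ℚ)

/-! ### The `J`-side instance -/

section JSideInst

variable {p : ℕ} [hp : Fact p.Prime] {N : ℕ} [NeZero N] {S : Finset ℕ}

/-- **the `J`-side of the eigen-subgroup.** -/
theorem jside_eigenTors (W : WeierstrassCurve ℤ) (hNS : ∀ r : ℕ, r.Prime → r ∣ N → r ∈ S)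
    (hpS : p ∈ S) : JSide W p S (eigenTors p N S (fun ℓ => W.apOfModel ℓ)) where
  tors := fun _ hy => nsmul_eq_zero_of_mem hy
  stable := fun g _ hy => smul_mem_eigenTors g hy
  level := hasLevel_eigenTors
  rel := fun _ hℓ hℓS _ hA _ hφ _ hy => frobenius_relation_eigen hNS hpS hℓ hℓS hA hφ hy

theorem finite_eigenTors' {a : ℕ → ℤ} : Finite (eigenTors p N S a) :=
  (finite_eigenTors (p := p) (N := N) (S := S) (a := a)).to_subtype

end JSideInst

/-! ### The statement of the M1 main theorem -/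

/-- **CoreTors**: the M1 main theorem.  `p ≥ 5` prime, `p ∤ M'`, `M'` squarefree, `A` a place of `ℚbar`
over `p`, `H ⊴ G_ℚ` with peu ramifiée data at `A`, `S ∋ p, 2` a finite set of primes containing the
primes of `M'`, `a` a system of integers which is NOT residually modular of level `M'` (away from
`S`) and non-Eisenstein at some prime outside `S`.  Then every `τ` of the inertia group at `A`
acting on `μ_p` by `ζ ↦ ζ ^ c` acts by the scalar `c` on the `H`-invariants of the pull-back to the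
model level `lcm(M', 4) · p` of the `a`-eigen-subgroup of the divisible `p`-torsion of `J₀(M' p)`. -/
def CoreTors : Prop :=
  ∀ (p : ℕ) [hp : Fact p.Prime] (M' : ℕ) [NeZero M'],
    haveI : NeZero p := ⟨hp.out.ne_zero⟩
    5 ≤ p → ¬ p ∣ M' → Squarefree M' →
    ∀ (A : ValuationSubring Qb), A.LiesOverPrime p →
    ∀ (H : Subgroup GQ), H.Normal → PeuRam p A H →
    ∀ (S : Finset ℕ), p ∈ S → 2 ∈ S → (∀ r : ℕ, r.Prime → r ∣ M' → r ∈ S) →
    ∀ (a : ℕ → ℤ), ¬ IsResModular p M' S a →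
      (∃ l : ℕ, l.Prime ∧ l ∉ S ∧ ¬ (p : ℤ) ∣ a l - l - 1) →
    ∀ τ ∈ A.inertiaSubgroupIn ℚ, ∀ c : ℕ, IsCycloExp p τ c →
    ∀ y ∈ auxV M' p (eigenTors p (M' * p) S a), (∀ h ∈ H, h • y = y) → τ • y = c • y

/-! ### Integral models of the same curve -/

section Models

open WeierstrassCurve

theorem Δ_ne_zero_of_models {E : WeierstrassCurve ℚ} {W W' : WeierstrassCurve ℤ}
    (hW : W.IsIntegralModelOf E) (hW' : W'.IsIntegralModelOf E) (hΔ : W.Δ ≠ 0) : W'.Δ ≠ 0 := by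
  obtain ⟨C, hC⟩ := hW
  obtain ⟨C', hC'⟩ := hW'
  have h : W'.map (Int.castRingHom ℚ) = (C' * C⁻¹) • W.map (Int.castRingHom ℚ) := by
    rw [← hC, mul_smul, inv_smul_smul, hC']
  have h1 : (W'.map (Int.castRingHom ℚ)).Δ ≠ 0 := by
    rw [h, variableChange_Δ]
    refine mul_ne_zero (pow_ne_zero _ (Units.ne_zero _)) ?_
    rw [map_Δ]
    exact Int.cast_ne_zero.mpr hΔ
  rw [map_Δ] at h1
  intro h0
  apply h1
  rw [h0]
  simp

/-- **two integral models of the same curve have congruent traces of Frobenius modulo `p`** at their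
common good primes `ℓ ≠ p`. -/
theorem ap_congr_of_models {p : ℕ} [hp : Fact p.Prime] (hp2 : p ≠ 2) {E : WeierstrassCurve ℚ}
    {W W' : WeierstrassCurve ℤ} (hW : W.IsIntegralModelOf E) (hW' : W'.IsIntegralModelOf E)
    {ℓ : ℕ} (hℓ : ℓ.Prime) (hg : W.IsGoodPrimeFor ℓ) (hg' : W'.IsGoodPrimeFor ℓ) (hℓp : ℓ ≠ p) :
    (p : ℤ) ∣ W'.apOfModel ℓ - W.apOfModel ℓ := by
  obtain ⟨C, hC⟩ := hW
  obtain ⟨C', hC'⟩ := hW'
  have h : W.map (Int.castRingHom ℚ) = (C * C'⁻¹) • W'.map (Int.castRingHom ℚ) := by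
    rw [← hC', mul_smul, inv_smul_smul, hC]
  obtain ⟨φ, hφ⟩ := Fermat.Agent.S52.Model.TorsTransport74.exists_torsEquiv_of_vc h p
  exact Fermat.Agent.S52.TopWiring84.ap_congr_of_hom hp2 W W'
    (Fermat.Agent.ES.Q58.RelQbarFinal88.relQbar W) (Fermat.Agent.ES.Q58.RelQbarFinal88.relQbar W')
    φ.toAddMonoidHom φ.surjective hφ hℓ hg hg' hℓp

theorem isGoodPrimeFor_of_not_mem {W : WeierstrassCurve ℤ} (hΔ : W.Δ ≠ 0) {ℓ : ℕ} (hℓ : ℓ.Prime)
    (h : ℓ ∉ W.Δ.natAbs.primeFactors) : W.IsGoodPrimeFor ℓ := by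
  unfold WeierstrassCurve.IsGoodPrimeFor
  intro hd
  apply h
  rw [Nat.mem_primeFactors]
  exact ⟨hℓ, Int.natCast_dvd.mp hd, Int.natAbs_ne_zero.mpr hΔ⟩

end Models

/-! ### The dictionary with `ModularRepOfLevel` -/

section Dict

variable (P : FreyPackage)

/-- from the frozen `ModularRepOfLevel N` to residual modularity of the traces of a fixed integral
model `W`, away from a suitable finite set of primes. -/
theorem isResModular_of_modularRepOfLevel {N : ℕ} (hN : N ≠ 0) (hmod : P.ModularRepOfLevel N)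
    (hp2 : P.p ≠ 2) (W : WeierstrassCurve ℤ) (hW : W.IsIntegralModelOf P.freyCurve)
    (hΔ : W.Δ ≠ 0) :
    ∃ S : Finset ℕ, P.p ∈ S ∧ 2 ∈ S ∧ (∀ r : ℕ, r.Prime → r ∣ N → r ∈ S) ∧
      (∀ ℓ : ℕ, ℓ.Prime → ℓ ∉ S → W.IsGoodPrimeFor ℓ) ∧
      IsResModular P.p N S (fun ℓ => W.apOfModel ℓ) := by
  haveI : Fact P.p.Prime := ⟨P.pp⟩
  obtain ⟨f, W₀, 𝔪, hf, hW₀, hmax, hp𝔪, hcong⟩ := hmod
  have hΔ₀ : W₀.Δ ≠ 0 := Δ_ne_zero_of_models hW hW₀ hΔ
  refine ⟨({P.p, 2} ∪ N.primeFactors) ∪ (W₀.Δ.natAbs.primeFactors ∪ W.Δ.natAbs.primeFactors),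
    ?_, ?_, ?_, ?_, ?_⟩
  · simp
  · simp
  · intro r hr hrN
    apply Finset.mem_union_left
    apply Finset.mem_union_right
    rw [Nat.mem_primeFactors]
    exact ⟨hr, hrN, hN⟩
  · intro ℓ hℓ hℓS
    refine isGoodPrimeFor_of_not_mem hΔ hℓ (fun h => hℓS ?_)
    exact Finset.mem_union_right _ (Finset.mem_union_right _ h)
  · refine ⟨f, 𝔪, hf, hmax, hp𝔪, fun ℓ hℓ hℓS => ?_⟩
    have hg₀ : W₀.IsGoodPrimeFor ℓ :=
      isGoodPrimeFor_of_not_mem hΔ₀ hℓ (fun h => hℓS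
        (Finset.mem_union_right _ (Finset.mem_union_left _ h)))
    have hg : W.IsGoodPrimeFor ℓ :=
      isGoodPrimeFor_of_not_mem hΔ hℓ (fun h => hℓS
        (Finset.mem_union_right _ (Finset.mem_union_right _ h)))
    have hℓN : ¬ ℓ ∣ N := fun h => hℓS (by
      apply Finset.mem_union_left
      apply Finset.mem_union_right
      rw [Nat.mem_primeFactors]
      exact ⟨hℓ, h, hN⟩)
    have hℓp : ℓ ≠ P.p := fun h => hℓS (by
      apply Finset.mem_union_left
      apply Finset.mem_union_left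
      rw [h]
      simp)
    obtain ⟨α, hα, hαm⟩ := hcong ℓ hℓ hg₀ hℓN hℓp
    refine ⟨α, hα, ?_⟩
    obtain ⟨k, hk⟩ := ap_congr_of_models hp2 hW₀ hW hℓ hg₀ hg hℓp
    have h1 : (W.apOfModel ℓ : ℤ) = W₀.apOfModel ℓ + (P.p : ℤ) * k := by linarith
    have h2 : α - ((W.apOfModel ℓ : ℤ) : integralClosure ℤ ℂ) =
        (α - ((W₀.apOfModel ℓ : ℤ) : integralClosure ℤ ℂ)) -
          (P.p : integralClosure ℤ ℂ) * ((k : ℤ) : integralClosure ℤ ℂ) := by
      rw [h1]
      push_cast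
      ring
    rw [h2]
    exact 𝔪.sub_mem hαm (𝔪.mul_mem_right _ hp𝔪)

/-- from residual modularity of the traces of `freyCurveInt` (away from any finite set) back to the
frozen `ModularRepOfLevel`: the witness model is a scaling of `freyCurveInt` which is bad at every
prime of `S`. -/
theorem modularRepOfLevel_of_isResModular {M : ℕ} {S : Finset ℕ} (hp2 : P.p ≠ 2)
    (h : IsResModular P.p M S (fun ℓ => P.freyCurveInt.apOfModel ℓ)) :
    P.ModularRepOfLevel M := by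
  haveI : Fact P.p.Prime := ⟨P.pp⟩
  obtain ⟨f, 𝔪, hf, hmax, hp𝔪, hcong⟩ := h
  set m : ℤ := ∏ ℓ ∈ S.filter Nat.Prime, (ℓ : ℤ) with hm
  have hm0 : m ≠ 0 := by
    rw [hm, Finset.prod_ne_zero_iff]
    intro ℓ hℓ
    exact Int.natCast_ne_zero.mpr (Finset.mem_filter.mp hℓ).2.ne_zero
  have hWint := Fermat.Agent.Frey.IntModel.isIntegralModelOf P
  have hW₁ := scaleModel_isIntegralModelOf hWint m hm0
  refine ⟨f, scaleModel P.freyCurveInt m, 𝔪, hf, hW₁, hmax, hp𝔪, ?_⟩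
  intro ℓ hℓ hgood hℓM hℓp
  obtain ⟨hndvd, hg⟩ := isGoodPrimeFor_scaleModel hgood
  have hℓS : ℓ ∉ S := fun hmem => hndvd
    (Finset.dvd_prod_of_mem (fun ℓ : ℕ => (ℓ : ℤ)) (Finset.mem_filter.mpr ⟨hmem, hℓ⟩))
  obtain ⟨α, hα, hαm⟩ := hcong ℓ hℓ hℓS
  refine ⟨α, hα, ?_⟩
  obtain ⟨k, hk⟩ := ap_congr_of_models hp2 hWint hW₁ hℓ hg hgood hℓp
  have h1 : ((scaleModel P.freyCurveInt m).apOfModel ℓ : ℤ) =
      P.freyCurveInt.apOfModel ℓ + (P.p : ℤ) * k := by linarith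
  have h2 : α - (((scaleModel P.freyCurveInt m).apOfModel ℓ : ℤ) : integralClosure ℤ ℂ) =
      (α - ((P.freyCurveInt.apOfModel ℓ : ℤ) : integralClosure ℤ ℂ)) -
        (P.p : integralClosure ℤ ℂ) * ((k : ℤ) : integralClosure ℤ ℂ) := by
    rw [h1]
    push_cast
    ring
  rw [h2]
  exact 𝔪.sub_mem hαm (𝔪.mul_mem_right _ hp𝔪)

end Dict

/-! ### `CoreTors` implies S44 -/

/-- **S44 from the M1 main theorem.** -/
theorem s44_of_coreTors (hcore : CoreTors) (P : FreyPackage) {N : ℕ}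
    (hcond : P.IsConductorLevel N) (hpN : P.p ∣ N)
    (hirr : WeierstrassCurve.Affine.Point.GaloisRepIsIrreducible (K := AlgebraicClosure ℚ) ℚ
      P.freyCurve P.p)
    (hmod : P.ModularRepOfLevel N) :
    ∃ M : ℕ, M ∣ N ∧ ¬ P.p ∣ M ∧ P.ModularRepOfLevel M := by
  haveI : Fact P.p.Prime := ⟨P.pp⟩
  haveI : NeZero P.p := ⟨P.pp.ne_zero⟩
  have hp5 : 5 ≤ P.p := P.hp5
  have hp2 : P.p ≠ 2 := by omega
  obtain ⟨M', hNM'⟩ : ∃ M' : ℕ, N = M' * P.p := ⟨N / P.p, (Nat.div_mul_cancel hpN).symm⟩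
  subst hNM'
  have hM'0 : M' ≠ 0 := by
    rintro rfl
    have := hcond.pos
    simp at this
  haveI : NeZero M' := ⟨hM'0⟩
  have hpM' : ¬ P.p ∣ M' := by
    intro h
    apply hcond.sq_not_dvd P.pp
    rw [pow_two]
    exact mul_dvd_mul_right h P.p
  have hsqf : Squarefree M' := hcond.squarefree.squarefree_of_dvd (Dvd.intro _ rfl)
  refine ⟨M', Dvd.intro _ rfl, hpM', ?_⟩
  by_contra hM'
  -- the eigen-system of the Frey curve
  have hΔ : P.freyCurveInt.Δ ≠ 0 := Fermat.Agent.Frey.IntModel.Δ_ne_zero P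
  have hrel := Fermat.Agent.ES.Q58.RelQbarFinal88.relQbar P.freyCurveInt
  obtain ⟨S, hpS, h2S, hNS, -, hres⟩ := isResModular_of_modularRepOfLevel P
    (NeZero.ne (M' * P.p)) hmod hp2 P.freyCurveInt
    (Fermat.Agent.Frey.IntModel.isIntegralModelOf P) hΔ
  have hM'S : ∀ r : ℕ, r.Prime → r ∣ M' → r ∈ S := fun r hr h => hNS r hr (Dvd.dvd.mul_right h _)
  have hnres : ¬ IsResModular P.p M' S (fun ℓ => P.freyCurveInt.apOfModel ℓ) :=
    fun h => hM' (modularRepOfLevel_of_isResModular P hp2 h)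
  -- the `J`-side
  have hJ' : JSide P.freyCurveInt P.p S
      (eigenTors P.p (M' * P.p) S (fun ℓ => P.freyCurveInt.apOfModel ℓ)) :=
    jside_eigenTors P.freyCurveInt hNS hpS
  have hV' : eigenTors P.p (M' * P.p) S (fun ℓ => P.freyCurveInt.apOfModel ℓ) ≠ ⊥ :=
    (eigenTors_ne_bot_iff hNS).mpr hres
  haveI : Finite (eigenTors P.p (M' * P.p) S (fun ℓ => P.freyCurveInt.apOfModel ℓ)) :=
    finite_eigenTors'
  have hJ : JSide P.freyCurveInt P.p S
      (auxV M' P.p (eigenTors P.p (M' * P.p) S (fun ℓ => P.freyCurveInt.apOfModel ℓ))) :=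
    jside_auxV hJ'
  haveI : Finite (auxV M' P.p
      (eigenTors P.p (M' * P.p) S (fun ℓ => P.freyCurveInt.apOfModel ℓ))) := finite_auxV
  have hV : auxV M' P.p (eigenTors P.p (M' * P.p) S (fun ℓ => P.freyCurveInt.apOfModel ℓ)) ≠ ⊥ :=
    auxV_ne_bot P.pp hp2 hpM' hJ'.tors hV'
  -- a non-Eisenstein prime
  obtain ⟨l, hl, hlS, -, -, hlE⟩ := Fermat.Agent.M1.Glue.NonEis47.exists_nonEisenstein_prime
    (p := P.p) hΔ hrel hp2
    (Fermat.Agent.M1.ESide.ChiLineFrey58.freyInt_modRepIsIrreducible P hirr) S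
  -- a place over `p`
  obtain ⟨A, -, hA, -⟩ := Fermat.Agent.Lib.exists_isFrobeniusAt P.p P.pp
  exact Fermat.Agent.M1.Glue.FreyEndGame73.frey_false_of_core P (hcond.p_dvd_abc hpN) hrel hirr hA
    hJ hV (fun H hHn hPeu τ hτ c hc y hy hfix =>
      hcore P.p M' hp5 hpM' hsqf A hA H hHn hPeu S hpS h2S hM'S
        (fun ℓ => P.freyCurveInt.apOfModel ℓ) hnres ⟨l, hl, hlS, hlE⟩ τ hτ c hc y hy hfix)

end Fermat.Agent.M1.Glue.Iface44
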