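/-
M1 (S44), chapter GLU, helper47: **the end game for an arbitrary integral model of the Frey curve.**

`P.ModularRepOfLevel N` quantifies over an *existential* integral model `W` of `P.freyCurve`
(`W.IsIntegralModelOf P.freyCurve`: some rational change of variables `C • E = W_ℚ`), and the
congruences are with `a_ℓ(W) = W.apOfModel ℓ`.  So the `J`-side produced from `hmod` is
`JSide W p S V` for THAT `W`, whereas `FreyEndGame73.frey_false_of_core` wants
`JSide P.freyCurveInt p S V`.  This file closes the gap by running the abstract end game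
`EndGame47.JSide.false_of_core` for `W` itself, all `E`-side inputs being transported along the
Galois-equivariant identification `W[p] ≃ E[p]` (`TorsTransport74.exists_torsEquiv_of_vc`).

* `galoisRepIsIrreducible_of_equiv` : irreducibility passes along an equivariant additive
  equivalence of torsion modules;
* `modRepIsIrreducible_of_isIntegralModelOf`, `delta_ne_zero_of_isIntegralModelOf`;
* `frey_false_of_core_model` : the `E`-side half of `s44_of_core` for any integral model `W`.
-/
import Mathlib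
import Fermat.Agent.M1.Glue.FreyEndGame73
import Fermat.Agent.S52.Model.TorsTransport74
import Fermat.Agent.ES.Q58.RelQbarFinal88

set_option autoImplicit false

open WeierstrassCurve WeierstrassCurve.Affine WeierstrassCurve.Affine.Point

namespace Fermat.Agent.M1.Glue.ModelEndGame47

open Fermat.Agent.ES.Q58.TraceCong20 (RelQbar)
open Fermat.Agent.S52.TopWiring84 (Tors)
open Fermat.Agent.S52.C.DetCyclo47 (IsCycloExp)
open Fermat.Agent.S52.Model.TorsTransport74
open Fermat.Agent.M1.Glue.EndGame47 Fermat.Agent.M1.Glue.FreyEndGame73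
open Fermat.Agent.M1.Ram.PeuRamDef20

local notation "Qb" => AlgebraicClosure ℚ
local notation "GQ" => (AlgebraicClosure ℚ ≃ₐ[ℚ] AlgebraicClosure ℚ)

/-! ### Irreducibility is invariant under equivariant equivalences -/

/-- irreducibility of the mod-`n` representation passes along a Galois-equivariant additive
equivalence of the torsion modules. -/
theorem galoisRepIsIrreducible_of_equiv {E₁ E₂ : WeierstrassCurve ℚ} (n : ℕ)
    (φ : TorsQ E₁ n ≃+ TorsQ E₂ n) (hφ : ∀ (σ : GQ) (x : TorsQ E₁ n), φ (σ • x) = σ • φ x)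
    (h : GaloisRepIsIrreducible (K := Qb) ℚ E₁ n) :
    GaloisRepIsIrreducible (K := Qb) ℚ E₂ n := by
  obtain ⟨hnt, hirr⟩ := h
  refine ⟨?_, fun N hN => ?_⟩
  · obtain ⟨x, y, hxy⟩ := hnt
    exact ⟨φ x, φ y, fun h => hxy (φ.injective h)⟩
  · set f : TorsQ E₁ n →ₗ[ZMod n] TorsQ E₂ n := φ.toAddMonoidHom.toZModLinearMap n with hf
    have hfx : ∀ x, f x = φ x := fun _ => rfl
    have hst : IsGaloisStable ℚ (N.comap f) := by
      intro σ x hx
      rw [Submodule.mem_comap, hfx, hφ]
      exact hN σ _ hx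
    rcases hirr (N.comap f) hst with h0 | h1
    · left
      rw [Submodule.eq_bot_iff]
      intro y hy
      have hmem : φ.symm y ∈ N.comap f := by
        rw [Submodule.mem_comap, hfx, AddEquiv.apply_symm_apply]
        exact hy
      rw [h0, Submodule.mem_bot] at hmem
      have := congrArg φ hmem
      rwa [AddEquiv.apply_symm_apply, _root_.map_zero] at this
    · right
      rw [Submodule.eq_top_iff']
      intro y
      have hmem : φ.symm y ∈ N.comap f := by rw [h1]; exact Submodule.mem_top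
      rw [Submodule.mem_comap, hfx, AddEquiv.apply_symm_apply] at hmem
      exact hmem

/-! ### Integral models -/

/-- transport of a fixed vector along an equality of curves. -/
theorem exists_fixed_of_eq {E₁ E₂ : WeierstrassCurve ℚ} (h : E₁ = E₂) (n : ℕ) (τ : GQ)
    (hv : ∃ v : TorsQ E₁ n, v ≠ 0 ∧ τ • v = v) : ∃ w : TorsQ E₂ n, w ≠ 0 ∧ τ • w = w := by
  subst h
  exact hv

/-- an integral model of an elliptic curve has nonzero discriminant. -/
theorem delta_ne_zero_of_isIntegralModelOf {E : WeierstrassCurve ℚ} (hE : E.Δ ≠ 0)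
    {W : WeierstrassCurve ℤ} (hW : W.IsIntegralModelOf E) : W.Δ ≠ 0 := by
  obtain ⟨C, hC⟩ := hW
  intro h0
  have h1 : (W.map (Int.castRingHom ℚ)).Δ = 0 := by
    rw [WeierstrassCurve.map_Δ, h0, _root_.map_zero]
  rw [← hC, WeierstrassCurve.variableChange_Δ] at h1
  rcases mul_eq_zero.mp h1 with h | h
  · exact absurd h (by simp)
  · exact hE h

/-- the equivariant identification `W[n] ≃ E[n]` for an integral model `W` of `E`. -/
theorem exists_torsEquiv_of_isIntegralModelOf {E : WeierstrassCurve ℚ} {W : WeierstrassCurve ℤ}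
    (hW : W.IsIntegralModelOf E) (n : ℕ) :
    ∃ φ : Tors W n ≃+ TorsQ E n, ∀ (σ : GQ) (x : Tors W n), φ (σ • x) = σ • φ x := by
  obtain ⟨C, hC⟩ := hW
  exact exists_torsEquiv_of_vc hC.symm n

/-- irreducibility for an integral model. -/
theorem modRepIsIrreducible_of_isIntegralModelOf {E : WeierstrassCurve ℚ}
    {W : WeierstrassCurve ℤ} (hW : W.IsIntegralModelOf E) (n : ℕ)
    (hirr : GaloisRepIsIrreducible (K := Qb) ℚ E n) : W.ModRepIsIrreducible n := by
  obtain ⟨φ, hφ⟩ := exists_torsEquiv_of_isIntegralModelOf hW n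
  refine galoisRepIsIrreducible_of_equiv n φ.symm (fun σ x => ?_) hirr
  apply φ.injective
  rw [hφ, AddEquiv.apply_symm_apply, AddEquiv.apply_symm_apply]

/-! ### The end game for an integral model of the Frey curve -/

/-- **E-side half of `s44_of_core`, for ANY integral model `W` of the Frey curve.**  Any nonzero
`J`-side for `W` at `p ∣ abc` on which CORE's conclusion holds (for every normal `H` with
`PeuRam p A H`) contradicts the irreducibility of `E[p]`. -/
theorem frey_false_of_core_model (P : FreyPackage) (hmult : (P.p : ℤ) ∣ P.a * P.b * P.c)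
    (hirr : GaloisRepIsIrreducible (K := Qb) ℚ P.freyCurve P.p)
    {W : WeierstrassCurve ℤ} (hW : W.IsIntegralModelOf P.freyCurve)
    {A : ValuationSubring Qb} (hA : A.LiesOverPrime P.p)
    {J : Type*} [AddCommGroup J] [DistribMulAction GQ J] {S : Finset ℕ} {V : AddSubgroup J}
    (hJ : haveI : Fact P.p.Prime := ⟨P.pp⟩; JSide W P.p S V) [Finite V] (hV : V ≠ ⊥)
    (hcore : ∀ H : Subgroup GQ, H.Normal → PeuRam P.p A H →
      ∀ τ ∈ A.inertiaSubgroupIn ℚ, ∀ c : ℕ, IsCycloExp P.p τ c →
        ∀ y ∈ V, (∀ h ∈ H, h • y = y) → τ • y = c • y) : False := by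
  have : Fact P.p.Prime := ⟨P.pp⟩
  have hp2 : P.p ≠ 2 := by have := P.hp5; omega
  have hrel0 : RelQbar P.freyCurveInt := Fermat.Agent.ES.Q58.RelQbarFinal88.relQbar _
  have hrelW : RelQbar W := Fermat.Agent.ES.Q58.RelQbarFinal88.relQbar W
  obtain ⟨τ₀, hτ₀, hc, hc1, v₀, hv₀, hfix₀⟩ :=
    Fermat.Agent.M1.ESide.ChiLineFrey58.freyInt_exists_tau0 P hrel0 hirr hA hmult
  -- the two identifications
  obtain ⟨φ, hφ⟩ := exists_torsEquiv_of_isIntegralModelOf hW P.p
  have hE : P.freyCurveInt.map (Int.castRingHom ℚ) = P.freyCurve :=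
    Fermat.Agent.Frey.IntModel.map_freyCurveInt P
  have hEΔ : P.freyCurve.Δ ≠ 0 := by
    rw [← hE, WeierstrassCurve.map_Δ]
    simpa using Fermat.Agent.M1.ESide.ChiLine58.freyCurveInt_Δ_ne_zero P
  have hΔW : W.Δ ≠ 0 := delta_ne_zero_of_isIntegralModelOf hEΔ hW
  have hirrW : W.ModRepIsIrreducible P.p := modRepIsIrreducible_of_isIntegralModelOf hW P.p hirr
  have hHn : (kerEμ P.freyCurve P.p).Normal := kerEμ_normal _ _
  have hPeu := frey_peuRam_kerEμ P hA hmult
  -- `kerEμ` acts trivially on `W[p]`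
  have hHE : ∀ h ∈ kerEμ P.freyCurve P.p, ∀ v : Tors W P.p, h • v = v := by
    intro h hh v
    apply φ.injective
    rw [hφ]
    exact hh.1 (φ v)
  -- the fixed vector of `τ₀` in `W[p]`
  have hfixW : ∃ v : Tors W P.p, v ≠ 0 ∧ τ₀ • v = v := by
    -- `v₀ : Tors P.freyCurveInt P.p`, transported to `TorsQ P.freyCurve P.p` by `hE`
    obtain ⟨w, hw0, hwfix⟩ : ∃ w : TorsQ P.freyCurve P.p, w ≠ 0 ∧ τ₀ • w = w :=
      exists_fixed_of_eq hE P.p τ₀ ⟨v₀, hv₀, hfix₀⟩
    refine ⟨φ.symm w, fun h => hw0 ?_, ?_⟩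
    · have := congrArg φ h
      rwa [AddEquiv.apply_symm_apply, _root_.map_zero] at this
    · apply φ.injective
      rw [hφ, AddEquiv.apply_symm_apply, hwfix]
  exact hJ.false_of_core hΔW hrelW hp2 hirrW hV (kerEμ P.freyCurve P.p) hHE (fun h hh => hh.2)
    τ₀ 2 hc hc1 hfixW (fun y hy hfix => hcore _ hHn hPeu τ₀ hτ₀ 2 hc y hy hfix)

end Fermat.Agent.M1.Glue.ModelEndGame47
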